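import Fermat.Agent.INJ.Interface

/-!
# INJ : further abstract packages (needed by the instantiation)
-/

set_option autoImplicit false

namespace Fermat.Agent.INJ

open Polynomial IntermediateField

/-- P15 (swap of coordinates).  `s` a good coordinate; `t` integral over `A[s]` and `s` integral over
`A[t]` (e.g. `s = j(q^N)`, `t = j(q)`).  Then the residue extension `Fb / k(tbar)` has full degree. -/
def Stmt_ChartSwap : Prop :=
  ∀ (K F k Fb : Type) [Field K] [Field F] [Algebra K F] [Field k] [Field Fb] [Algebra k Fb]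
    [IsAlgClosed K] [CharZero K] (D : RedData K F k Fb) (s t : F), Chart D s →
    t ∈ D.O → Transcendental k (D.rd t) → FiniteDimensional K⟮t⟯ F →
    IsIntegral (Algebra.adjoin D.A ({s} : Set F)) t →
    IsIntegral (Algebra.adjoin D.A ({t} : Set F)) s →
    ∃ e : Fin (Module.finrank K⟮t⟯ F) → Fb, LinearIndependent k⟮D.rd t⟯ e

/-- P16 (separability by the derivation `θ = q d/dq`).  A subfield of `k((q))`, algebraic over
`k(tb)`, is separable over `k(tb)` as soon as `θ tb ≠ 0` (`k` perfect of characteristic `ℓ`). -/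
def Stmt_SepL : Prop :=
  ∀ (k : Type) [Field k] (ℓ : ℕ) [Fact ℓ.Prime] [CharP k ℓ] [PerfectField k]
    (L : IntermediateField k (LaurentSeries k)) (tb : L),
    (∃ n : ℤ, (n : k) ≠ 0 ∧ (tb : LaurentSeries k).coeff n ≠ 0) →
    Algebra.IsAlgebraic k⟮tb⟯ L → Algebra.IsSeparable k⟮tb⟯ L

/-- P17 (the residue extension is finite: fundamental inequality). -/
def Stmt_ResFinite : Prop :=
  ∀ (K F k Fb : Type) [Field K] [Field F] [Algebra K F] [Field k] [Field Fb] [Algebra k Fb]
    (D : RedData K F k Fb) (t : F), t ∈ D.O → Transcendental k (D.rd t) →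
    FiniteDimensional K⟮t⟯ F → FiniteDimensional k⟮D.rd t⟯ Fb

/-- P18 (norm descent).  `F'/F` finite of degree prime to `m`: an element of `F` which is an `m`-th
power in `F'` is an `m`-th power in `F`. -/
def Stmt_NormDescent : Prop :=
  ∀ (F F' : Type) [Field F] [Field F'] [Algebra F F'] [FiniteDimensional F F'] (m : ℕ),
    Nat.Coprime (Module.finrank F F') m → ∀ u : F, (∃ y : F', y ^ m = algebraMap F F' u) →
    ∃ y : F, y ^ m = u

/-- P19 (reduction to prime powers). -/
def Stmt_PrimePow : Prop :=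
  ∀ (F : Type) [Field F] (u : F) (m : ℕ), 0 < m →
    (∀ (p a : ℕ), p.Prime → 0 < a → p ^ a ∣ m → ∃ y : F, y ^ (p ^ a) = u) → ∃ y : F, y ^ m = u

end Fermat.Agent.INJ
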