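import Fermat.Agent.INJ.Interface

/-!
# INJ P11 : `B ∩ B' = K` (`Stmt_Const`)
-/

set_option autoImplicit false

namespace Fermat.Agent.INJ

open Polynomial IntermediateField

open scoped IntermediateField.algebraAdjoinAdjoin

theorem P11_adjoin_inv_eq (K : Type*) {F : Type*} [Field K] [Field F] [Algebra K F] (x : F) :
    K⟮x⁻¹⟯ = K⟮x⟯ := by
  apply le_antisymm
  · rw [adjoin_simple_le_iff]
    exact inv_mem (mem_adjoin_simple_self K x)
  · rw [adjoin_simple_le_iff]
    have := inv_mem (mem_adjoin_simple_self K x⁻¹)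
    rwa [inv_inv] at this

theorem P11_transcendental_inv {K F : Type*} [Field K] [Field F] [Algebra K F] {x : F}
    (hx : Transcendental K x) : Transcendental K x⁻¹ := by
  intro h
  apply hx
  have := h.inv
  rwa [inv_inv] at this

theorem P11_isPrincipalIdealRing {K F : Type*} [Field K] [Field F] [Algebra K F] {x : F}
    (hx : Transcendental K x) : IsPrincipalIdealRing (Algebra.adjoin K {x}) :=
  IsPrincipalIdealRing.of_surjective
    (Polynomial.algEquivOfTranscendental K x hx).toRingEquiv.toRingHom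
    (Polynomial.algEquivOfTranscendental K x hx).surjective

/-- the coefficients of the minimal polynomial over `K(s)` of an element integral over `K[s]` lie in
`K[s]`. -/
theorem P11_coeff_minpoly_mem {K F : Type*} [Field K] [Field F] [Algebra K F] {s z : F}
    (hs : Transcendental K s) (hz : IsInt K s z) (i : ℕ) :
    (((minpoly K⟮s⟯ z).coeff i : K⟮s⟯) : F) ∈ Algebra.adjoin K {s} := by
  have := P11_isPrincipalIdealRing hs
  have h := minpoly.isIntegrallyClosed_eq_field_fractions' (R := Algebra.adjoin K {s}) K⟮s⟯ hz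
  rw [h, coeff_map]
  exact ((minpoly (Algebra.adjoin K {s}) z).coeff i).2

theorem P11_coeff_minpoly_congr {K F : Type*} [Field K] [Field F] [Algebra K F]
    (E₁ E₂ : IntermediateField K F) (h : E₁ = E₂) (z : F) (i : ℕ) :
    (((minpoly E₁ z).coeff i : E₁) : F) = (((minpoly E₂ z).coeff i : E₂) : F) := by
  subst h
  rfl

/-- `K[t] ∩ K[t⁻¹] = K`. -/
theorem P11_inter {K F : Type*} [Field K] [Field F] [Algebra K F] {t a : F}
    (ht : Transcendental K t) (h1 : a ∈ Algebra.adjoin K {t}) (h2 : a ∈ Algebra.adjoin K {t⁻¹}) :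
    ∃ c : K, a = algebraMap K F c := by
  rw [Algebra.adjoin_singleton_eq_range_aeval] at h1 h2
  obtain ⟨P, rfl⟩ := h1
  obtain ⟨Q, hQ⟩ := h2
  replace hQ : aeval t⁻¹ Q = aeval t P := hQ
  show ∃ c : K, aeval t P = algebraMap K F c
  have ht0 : t ≠ 0 := by
    rintro rfl
    exact ht isAlgebraic_zero
  have hinj : Function.Injective (aeval t : K[X] →ₐ[K] F) :=
    transcendental_iff_injective.1 ht
  let _ : Invertible t⁻¹ := invertibleOfNonzero (inv_ne_zero ht0)
  have h3 := eval₂_reverse_mul_pow (algebraMap K F) t⁻¹ Q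
  have h4 : ⅟(t⁻¹) = t := by
    rw [invOf_eq_inv, inv_inv]
  rw [h4] at h3
  have h5 : aeval t (P * X ^ Q.natDegree) = aeval t Q.reverse := by
    rw [map_mul, map_pow, aeval_X, ← hQ]
    rw [aeval_def, aeval_def, ← h3, mul_assoc, ← mul_pow, inv_mul_cancel₀ ht0, one_pow, mul_one]
  have h6 := hinj h5
  by_cases hP : P = 0
  · exact ⟨0, by rw [hP]; simp⟩
  have h7 : P.natDegree = 0 := by
    have h8 := reverse_natDegree_le Q
    rw [← h6, natDegree_mul_X_pow _ hP] at h8
    omega
  refine ⟨P.coeff 0, ?_⟩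
  conv_lhs => rw [eq_C_of_natDegree_eq_zero h7]
  rw [aeval_C]

theorem stmt_Const : Stmt_Const := by
  intro K F _ _ _ _ t z ht hfin hz hz'
  have hcoef : ∀ i, ∃ c : K, (minpoly K⟮t⟯ z).coeff i = algebraMap K K⟮t⟯ c := by
    intro i
    have h1 := P11_coeff_minpoly_mem ht hz i
    have h2 := P11_coeff_minpoly_mem (P11_transcendental_inv ht) hz' i
    rw [P11_coeff_minpoly_congr _ _ (P11_adjoin_inv_eq K t) z i] at h2
    obtain ⟨c, hc⟩ := P11_inter ht h1 h2
    exact ⟨c, Subtype.ext hc⟩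
  have hzE : IsIntegral K⟮t⟯ z := IsIntegral.of_finite K⟮t⟯ z
  have hlift : minpoly K⟮t⟯ z ∈ lifts (algebraMap K K⟮t⟯) := by
    rw [lifts_iff_coeff_lifts]
    intro i
    obtain ⟨c, hc⟩ := hcoef i
    exact ⟨c, hc.symm⟩
  obtain ⟨R, hR1, -, hR2⟩ := lifts_and_natDegree_eq_and_monic hlift (minpoly.monic hzE)
  have hzK : IsIntegral K z := by
    refine ⟨R, hR2, ?_⟩
    have h := minpoly.aeval K⟮t⟯ z
    rw [← hR1, aeval_def, eval₂_map, ← IsScalarTower.algebraMap_eq] at h
    exact h
  have hdeg := IsAlgClosed.degree_eq_one_of_irreducible K (minpoly.irreducible hzK)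
  obtain ⟨c, hc⟩ := minpoly.mem_range_of_degree_eq_one K z hdeg
  exact ⟨c, hc.symm⟩

end Fermat.Agent.INJ
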