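import Fermat.Agent.INJ.Interface

/-!
# INJ / P12 : assembly of the abstract Claim K (`Stmt_INJ`)
-/

set_option autoImplicit false

namespace Fermat.Agent.INJ

open Polynomial IntermediateField

section Closure

variable {K F : Type*} [Field K] [Field F] [Algebra K F]

theorem P12_isInt_algebraMap (t : F) (a : K) : IsInt K t (algebraMap K F a) := by
  unfold IsInt
  rw [IsScalarTower.algebraMap_apply K (Algebra.adjoin K {t}) F]
  exact isIntegral_algebraMap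

theorem P12_M_smul {t u x : F} {m : ℕ} (a : K) (hx : IsInt K t (x ^ m * u)) :
    IsInt K t ((algebraMap K F a * x) ^ m * u) := by
  have : (algebraMap K F a * x) ^ m * u = algebraMap K F (a ^ m) * (x ^ m * u) := by
    rw [map_pow]; ring
  rw [this]
  exact IsIntegral.mul (P12_isInt_algebraMap t _) hx

theorem P12_M_add {t u x y : F} {m : ℕ} (hm : 0 < m) (hx : IsInt K t (x ^ m * u))
    (hy : IsInt K t (y ^ m * u)) : IsInt K t ((x + y) ^ m * u) := by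
  unfold IsInt at *
  rw [add_pow, Finset.sum_mul]
  refine IsIntegral.sum _ fun i hi => ?_
  have hi' : i ≤ m := Nat.lt_succ_iff.1 (Finset.mem_range.1 hi)
  have h1 : IsIntegral (Algebra.adjoin K {t}) (x ^ i * y ^ (m - i) * u) := by
    apply IsIntegral.of_pow hm
    have : (x ^ i * y ^ (m - i) * u) ^ m = (x ^ m * u) ^ i * (y ^ m * u) ^ (m - i) := by
      obtain ⟨j, rfl⟩ := Nat.exists_eq_add_of_le hi'
      simp only [Nat.add_sub_cancel_left]
      ring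
    rw [this]
    exact (hx.pow i).mul (hy.pow _)
  have : x ^ i * y ^ (m - i) * (m.choose i : F) * u
      = algebraMap K F (m.choose i : K) * (x ^ i * y ^ (m - i) * u) := by
    rw [map_natCast]; ring
  rw [this]
  exact IsIntegral.mul (P12_isInt_algebraMap t _) h1

end Closure

section Main

variable {K F k Fb : Type*} [Field K] [Field F] [Algebra K F] [Field k] [Field Fb] [Algebra k Fb]
variable {D : RedData K F k Fb}

theorem P12_ra_eq_zero {a : K} (ha : a ∈ D.A) (h : D.rd (algebraMap K F a) = 0) :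
    D.ra a = 0 := by
  rw [RedData.rd_algebraMap ha] at h
  exact (map_eq_zero (algebraMap k Fb)).1 h

theorem P12_natCast (n : ℕ) : (n : F) ∈ D.O ∧ D.rd (n : F) = (n : Fb) := by
  induction n with
  | zero => simp [D.O.zero_mem]
  | succ n ih =>
    refine ⟨by push_cast; exact add_mem ih.1 D.O.one_mem, ?_⟩
    push_cast
    rw [RedData.rd_add ih.1 D.O.one_mem, ih.2, RedData.rd_one]

theorem P12_ne_zero {x : F} (h : D.rd x = 1) : x ≠ 0 := by
  rintro rfl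
  rw [RedData.rd_zero] at h
  exact zero_ne_one h

theorem P12_mem {x : F} (h : D.rd x = 1) : x ∈ D.O :=
  RedData.mem_of_rd_ne_zero (by rw [h]; exact one_ne_zero)

theorem P12_exists_pi {b : F} (hb : D.rd b = 1) (hb1 : b ≠ 1) :
    ∃ π : K, π ≠ 0 ∧ π ∈ D.A ∧ D.ra π = 0 ∧ (b - 1) * (algebraMap K F π)⁻¹ ∈ D.O := by
  have hbO : b ∈ D.O := P12_mem hb
  have h0 : b - 1 ≠ 0 := sub_ne_zero.2 hb1
  obtain ⟨a, ha0, h1, h2⟩ := D.unram (b - 1) h0
  have hrd : D.rd (b - 1) = 0 := by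
    rw [RedData.rd_sub hbO D.O.one_mem, hb, RedData.rd_one, sub_self]
  have hbO' : b - 1 ∈ D.O := sub_mem hbO D.O.one_mem
  have hA0 : algebraMap K F a ≠ 0 := (_root_.map_ne_zero _).2 ha0
  have e : algebraMap K F a⁻¹ = (b - 1) * ((b - 1) * algebraMap K F a)⁻¹ := by
    rw [map_inv₀]; field_simp
  have hmem : algebraMap K F a⁻¹ ∈ D.O := by rw [e]; exact mul_mem hbO' h2
  have hz : D.rd (algebraMap K F a⁻¹) = 0 := by
    rw [e, RedData.rd_mul hbO' h2, hrd, zero_mul]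
  refine ⟨a⁻¹, inv_ne_zero ha0, (D.mem_iff _).1 hmem,
    P12_ra_eq_zero ((D.mem_iff _).1 hmem) hz, ?_⟩
  rw [map_inv₀, inv_inv]; exact h1

theorem P12_common_pi {b b' : F} (hb : D.rd b = 1) (hb1 : b ≠ 1) (hb' : D.rd b' = 1)
    (hb1' : b' ≠ 1) :
    ∃ π : K, π ≠ 0 ∧ π ∈ D.A ∧ D.ra π = 0 ∧ (b - 1) * (algebraMap K F π)⁻¹ ∈ D.O ∧
      (b' - 1) * (algebraMap K F π)⁻¹ ∈ D.O := by
  obtain ⟨p, hp0, hpA, hpr, hp⟩ := P12_exists_pi hb hb1
  obtain ⟨p', hp0', hpA', hpr', hp'⟩ := P12_exists_pi hb' hb1'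
  have hq : algebraMap K F p ≠ 0 := (_root_.map_ne_zero _).2 hp0
  have hq' : algebraMap K F p' ≠ 0 := (_root_.map_ne_zero _).2 hp0'
  rcases D.A.mem_or_inv_mem (p / p') with h | h
  · refine ⟨p', hp0', hpA', hpr', ?_, hp'⟩
    have : (b - 1) * (algebraMap K F p')⁻¹
        = (b - 1) * (algebraMap K F p)⁻¹ * algebraMap K F (p / p') := by
      rw [map_div₀]; field_simp
    rw [this]; exact mul_mem hp (RedData.algebraMap_mem h)
  · refine ⟨p, hp0, hpA, hpr, hp, ?_⟩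
    have : (b' - 1) * (algebraMap K F p)⁻¹
        = (b' - 1) * (algebraMap K F p')⁻¹ * algebraMap K F (p / p')⁻¹ := by
      rw [map_inv₀, map_div₀]; field_simp
    rw [this]; exact mul_mem hp' (RedData.algebraMap_mem h)

theorem P12_eps {X X' u ϖ : F} {m : ℕ} (hmF : (m : Fb) ≠ 0) (hu : D.rd u = 1)
    (hX : D.rd X = 1) (hX' : D.rd X' = 1)
    (h : (X ^ m * u - 1) * ϖ⁻¹ ∈ D.O) (h' : (X' ^ m * u - 1) * ϖ⁻¹ ∈ D.O) :
    (X' - X) * ϖ⁻¹ ∈ D.O := by
  have one_ne : (1 : Fb) ≠ 0 := one_ne_zero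
  have hXO : X ∈ D.O := P12_mem hX
  have hXO' : X' ∈ D.O := P12_mem hX'
  have huO : u ∈ D.O := P12_mem hu
  have hX0 : X ≠ 0 := P12_ne_zero hX
  have hu0 : u ≠ 0 := P12_ne_zero hu
  obtain ⟨w, hw⟩ : ∃ w, w = X' / X := ⟨_, rfl⟩
  have hwO : w ∈ D.O := by rw [hw]; exact RedData.div_mem hXO' (by rw [hX]; exact one_ne)
  have hw1 : D.rd w = 1 := by
    rw [hw, RedData.rd_div hXO' (by rw [hX]; exact one_ne), hX, hX', div_one]
  obtain ⟨g, hg⟩ : ∃ g, g = ∑ i ∈ Finset.range m, w ^ i := ⟨_, rfl⟩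
  have hgO : g ∈ D.O := by rw [hg]; exact RedData.sum_mem _ _ fun i _ => pow_mem hwO i
  have hg1 : D.rd g = (m : Fb) := by
    rw [hg, RedData.rd_sum _ _ fun i _ => pow_mem hwO i]
    simp [RedData.rd_pow hwO, hw1]
  have hginv : g⁻¹ ∈ D.O := RedData.inv_mem_of_rd_ne_zero (by rw [hg1]; exact hmF)
  have hg0 : g ≠ 0 := by
    intro h0
    rw [h0, RedData.rd_zero] at hg1
    exact hmF hg1.symm
  obtain ⟨c, hc⟩ : ∃ c, c = X ^ m * u := ⟨_, rfl⟩
  have hc1 : D.rd c = 1 := by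
    rw [hc, RedData.rd_mul (pow_mem hXO m) huO, RedData.rd_pow hXO, hX, hu]; simp
  have hcinv : c⁻¹ ∈ D.O := RedData.inv_mem_of_rd_ne_zero (by rw [hc1]; exact one_ne)
  have hc0 : c ≠ 0 := P12_ne_zero hc1
  have hgeom : (w - 1) * g = w ^ m - 1 := by rw [hg]; exact mul_geom_sum w m
  have key : (X' - X) * ϖ⁻¹
      = X * g⁻¹ * c⁻¹ * ((X' ^ m * u - 1) * ϖ⁻¹ - (X ^ m * u - 1) * ϖ⁻¹) := by
    have e1 : X' - X = X * (w - 1) := by rw [hw]; field_simp
    have e2 : w - 1 = (w ^ m - 1) * g⁻¹ := by rw [← hgeom]; field_simp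
    have e3 : w ^ m - 1 = (X' ^ m * u - c) * c⁻¹ := by
      have hXm : X ^ m ≠ 0 := pow_ne_zero _ hX0
      rw [hw, hc, div_pow, mul_inv]
      field_simp
    rw [e1, e2, e3, ← hc]; ring
  rw [key]
  exact mul_mem (mul_mem (mul_mem hXO hginv) hcinv) (sub_mem h' h)

end Main

theorem stmt_INJ (h1 : Stmt_Gauss) (h8 : Stmt_LocTriv) (h9 : Stmt_BT) (h10 : Stmt_Newton)
    (h11 : Stmt_Const) : Stmt_INJ := by
  intro K F k Fb _ _ _ _ _ _ _ _ D t hC hC' hB hB' hArch u m hm hmk hu hL hL'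
  obtain ⟨⟨x, hxO, hx1, hxI⟩, e, he, hspan, hlin⟩ := h8 K F k Fb D t hC hB u m hm hu hL
  obtain ⟨⟨x', hxO', hx1', hxI'⟩, -⟩ := h8 K F k Fb D t⁻¹ hC' hB' u m hm hu hL'
  have huO : u ∈ D.O := P12_mem hu
  have hu0 : u ≠ 0 := P12_ne_zero hu
  by_cases hb1 : x ^ m * u = 1
  · exact ⟨x⁻¹, by rw [inv_pow]; exact (eq_inv_of_mul_eq_one_right hb1).symm⟩
  by_cases hb1' : x' ^ m * u = 1
  · exact ⟨x'⁻¹, by rw [inv_pow]; exact (eq_inv_of_mul_eq_one_right hb1').symm⟩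
  have hb : D.rd (x ^ m * u) = 1 := by
    rw [RedData.rd_mul (pow_mem hxO m) huO, RedData.rd_pow hxO, hx1, hu]; simp
  have hb' : D.rd (x' ^ m * u) = 1 := by
    rw [RedData.rd_mul (pow_mem hxO' m) huO, RedData.rd_pow hxO', hx1', hu]; simp
  obtain ⟨π, hπ0, hπA, hπr, hπ1, hπ2⟩ := P12_common_pi hb hb1 hb' hb1'
  have hmK : (m : K) ≠ 0 := Nat.cast_ne_zero.2 hm.ne'
  have hmF : (m : Fb) ≠ 0 := by
    have : (m : Fb) = algebraMap k Fb (m : k) := (map_natCast _ m).symm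
    rw [this]; exact (_root_.map_ne_zero _).2 hmk
  have hmA : (m : K)⁻¹ ∈ D.A := by
    have h1' : D.rd (algebraMap K F (m : K)) ≠ 0 := by
      rw [map_natCast, (P12_natCast m).2]; exact hmF
    have := RedData.inv_mem_of_rd_ne_zero h1'
    rw [← map_inv₀] at this
    exact (D.mem_iff _).1 this
  obtain ⟨a₀, ha0, haA, hBT⟩ := h9 K F k Fb D t hC.t_mem hC'.t_mem hC.trans hC.fin u m hu0 hm _ e
    he hspan hlin
  obtain ⟨n, hn⟩ := hArch π hπA hπr a₀ ha0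
  obtain ⟨X, hXO, hXI, hXN, hX1⟩ := h10 K F k Fb D t u m hmK hmA π hπ0 hπA hπr x hxO hxI hπ1
    (n + 1) (Nat.succ_pos n)
  obtain ⟨X', hXO', hXI', hXN', hX1'⟩ := h10 K F k Fb D t⁻¹ u m hmK hmA π hπ0 hπA hπr x' hxO' hxI'
    hπ2 (n + 1) (Nat.succ_pos n)
  rw [hx1] at hX1
  rw [hx1'] at hX1'
  have hπF : algebraMap K F π ≠ 0 := (_root_.map_ne_zero _).2 hπ0
  have haF : algebraMap K F a₀ ≠ 0 := (_root_.map_ne_zero _).2 ha0
  have hϖ : algebraMap K F π ^ (n + 1) ≠ 0 := pow_ne_zero _ hπF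
  have hdiff := P12_eps hmF hu hX1 hX1' hXN hXN'
  obtain ⟨μ, μ', hμO, hμI, hμO', hμI', hμ⟩ := hBT X X' (π ^ (n + 1)) (pow_ne_zero _ hπ0) hXO hXI
    hXO' hXI' (by rw [map_pow]; exact hdiff)
  obtain ⟨a1, ha1⟩ : ∃ a1 : K, a1 = π * (π ^ n * a₀⁻¹) := ⟨_, rfl⟩
  have hXX : X' - X = algebraMap K F a1 * (μ + μ') := by
    rw [← hμ, ha1]
    simp only [map_mul, map_pow, map_inv₀]
    field_simp
    ring
  obtain ⟨y, hy⟩ : ∃ y, y = X + algebraMap K F a1 * μ := ⟨_, rfl⟩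
  have hy' : y = X' + algebraMap K F (-a1) * μ' := by
    rw [hy, map_neg]
    linear_combination -hXX
  have hyI : IsInt K t (y ^ m * u) := by
    rw [hy]; exact P12_M_add hm hXI (P12_M_smul a1 hμI)
  have hyI' : IsInt K t⁻¹ (y ^ m * u) := by
    rw [hy']; exact P12_M_add hm hXI' (P12_M_smul (-a1) hμI')
  have hy1 : D.rd y = 1 := by
    have e1 : algebraMap K F a1 * μ
        = algebraMap K F π * (algebraMap K F (π ^ n * a₀⁻¹) * μ) := by
      rw [ha1, map_mul]; ring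
    have m1 : algebraMap K F (π ^ n * a₀⁻¹) * μ ∈ D.O :=
      mul_mem (RedData.algebraMap_mem hn) hμO
    have m2 : algebraMap K F π ∈ D.O := RedData.algebraMap_mem hπA
    rw [hy, e1, RedData.rd_add hXO (mul_mem m2 m1), RedData.rd_mul m2 m1,
      RedData.rd_algebraMap hπA, hπr, map_zero, zero_mul, add_zero, hX1]
  obtain ⟨c, hc⟩ := h11 K F t (y ^ m * u) (h1 K F k Fb D t hC.t_mem hC.trans).2.2.2.1 hC.fin
    hyI hyI'
  obtain ⟨c1, hc1⟩ := IsAlgClosed.exists_pow_nat_eq c hm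
  have hy0 : y ≠ 0 := P12_ne_zero hy1
  refine ⟨algebraMap K F c1 / y, ?_⟩
  rw [div_pow, ← map_pow, hc1, ← hc]
  field_simp

end Fermat.Agent.INJ
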