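import Fermat.Agent.INJ.Interface

/-!
# INJ P13 : the chart at infinity comes for free (`Stmt_ChartInv`)
-/

set_option autoImplicit false

namespace Fermat.Agent.INJ

open Polynomial IntermediateField

theorem P13_adjoin_inv_eq (K : Type*) {F : Type*} [Field K] [Field F] [Algebra K F] (x : F) :
    K⟮x⁻¹⟯ = K⟮x⟯ := by
  apply le_antisymm
  · rw [adjoin_simple_le_iff]
    exact inv_mem (mem_adjoin_simple_self K x)
  · rw [adjoin_simple_le_iff]
    have := inv_mem (mem_adjoin_simple_self K x⁻¹)
    rwa [inv_inv] at this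

theorem P13_transcendental_inv {K F : Type*} [Field K] [Field F] [Algebra K F] {x : F}
    (hx : Transcendental K x) : Transcendental K x⁻¹ := by
  intro h
  apply hx
  have := h.inv
  rwa [inv_inv] at this

/-- transport of the three "field-theoretic" chart conditions along equalities of intermediate
fields. -/
theorem P13_transport {K F k Fb : Type*} [Field K] [Field F] [Algebra K F] [Field k] [Field Fb]
    [Algebra k Fb] (E₁ E₂ : IntermediateField K F) (e₁ e₂ : IntermediateField k Fb)
    (hE : E₁ = E₂) (he : e₁ = e₂)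
    (fin : FiniteDimensional E₁ F)
    (deg : ∃ e : Fin (Module.finrank E₁ F) → Fb, LinearIndependent e₁ e)
    (sep : Algebra.IsSeparable e₁ Fb) :
    FiniteDimensional E₂ F ∧
      (∃ e : Fin (Module.finrank E₂ F) → Fb, LinearIndependent e₂ e) ∧
      Algebra.IsSeparable e₂ Fb := by
  subst hE
  subst he
  exact ⟨fin, deg, sep⟩

theorem stmt_ChartInv : Stmt_ChartInv := by
  intro K F k Fb _ _ _ _ _ _ D t h
  have h0 : D.rd t ≠ 0 := by
    intro h0
    apply h.trans
    rw [h0]
    exact isAlgebraic_zero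
  have hrd : D.rd t⁻¹ = (D.rd t)⁻¹ := RedData.rd_inv h0
  obtain ⟨h1, h2, h3⟩ := P13_transport K⟮t⟯ K⟮t⁻¹⟯ k⟮D.rd t⟯ k⟮D.rd t⁻¹⟯
    (P13_adjoin_inv_eq K t).symm (by rw [hrd]; exact (P13_adjoin_inv_eq k (D.rd t)).symm)
    h.fin h.deg h.sep
  exact
    { t_mem := RedData.inv_mem_of_rd_ne_zero h0
      trans := by rw [hrd]; exact P13_transcendental_inv h.trans
      fin := h1
      deg := h2
      sep := h3 }

end Fermat.Agent.INJ
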