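import Fermat.Agent.INJ.Interface

/-!
# INJ, package P2 : orthonormal families
-/

set_option autoImplicit false

namespace Fermat.Agent.INJ

open Polynomial IntermediateField

section

variable {K F k Fb : Type} [Field K] [Field F] [Algebra K F] [Field k] [Field Fb] [Algebra k Fb]

/-- In a finite family with a nonzero member there is a member of maximal valuation. -/
theorem P2_exists_max (D : RedData K F k Fb) {ι : Type} [Fintype ι] (c : ι → F) (j : ι) :
    ∃ i0 : ι, D.O.valuation (c j) ≤ D.O.valuation (c i0) ∧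
      ∀ i, D.O.valuation (c i) ≤ D.O.valuation (c i0) := by
  have : Nonempty ι := ⟨j⟩
  obtain ⟨i0, hi0⟩ := Finite.exists_max (fun i => D.O.valuation (c i))
  exact ⟨i0, hi0 j, hi0⟩

theorem P2_div_mem (D : RedData K F k Fb) {x y : F} (hy : y ≠ 0)
    (h : D.O.valuation x ≤ D.O.valuation y) : x / y ∈ D.O := by
  rw [← ValuationSubring.valuation_le_one_iff, map_div₀]
  have hy' : D.O.valuation y ≠ 0 := (Valuation.ne_zero_iff _).2 hy
  exact div_le_one_of_le₀ h zero_le

/-- The key computation: a normalised combination has nonzero reduction. -/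
theorem P2_key (D : RedData K F k Fb) (t : F)
    (hG : ∀ c : K⟮t⟯, (c : F) ∈ D.O → D.rd (c : F) ∈ k⟮D.rd t⟯)
    {ι : Type} [Fintype ι] (e : ι → F) (he : ∀ i, e i ∈ D.O)
    (hli : LinearIndependent k⟮D.rd t⟯ (fun i => D.rd (e i)))
    (d : ι → K⟮t⟯) (hd : ∀ i, (d i : F) ∈ D.O) (i0 : ι) (hi0 : d i0 = 1) :
    D.rd (∑ i, (d i : F) * e i) ≠ 0 := by
  intro h0
  rw [RedData.rd_sum _ _ (fun i _ => mul_mem (hd i) (he i))] at h0
  have h1 : ∑ i, (⟨D.rd (d i : F), hG (d i) (hd i)⟩ : k⟮D.rd t⟯) • D.rd (e i) = 0 := by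
    rw [← h0]
    refine Finset.sum_congr rfl fun i _ => ?_
    rw [RedData.rd_mul (hd i) (he i)]
    rfl
  have h2 := Fintype.linearIndependent_iff.1 hli _ h1 i0
  have h3 : D.rd (d i0 : F) = 0 := congrArg Subtype.val h2
  rw [hi0] at h3
  simp at h3

end

theorem stmt_Ortho (h1 : Stmt_Gauss) : Stmt_Ortho := by
  intro K F k Fb _ _ _ _ _ _ D t ht htr ι _ e he hli
  have hG := (h1 K F k Fb D t ht htr).2.2.2.2
  -- common normalisation
  have norm : ∀ (c : ι → K⟮t⟯) (i0 : ι), c i0 ≠ 0 →
      (∀ i, D.O.valuation (c i : F) ≤ D.O.valuation (c i0 : F)) →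
      D.rd ((∑ i, (c i : F) * e i) * (c i0 : F)⁻¹) ≠ 0 := by
    intro c i0 hc0 hmax
    have hc0' : (c i0 : F) ≠ 0 := by
      intro h; exact hc0 (Subtype.ext h)
    have := P2_key D t hG e he hli (fun i => c i / c i0)
      (fun i => by
        have := P2_div_mem D hc0' (hmax i)
        simpa using this) i0 (div_self hc0)
    convert this using 2
    rw [Finset.sum_mul]
    refine Finset.sum_congr rfl fun i _ => ?_
    simp only [IntermediateField.coe_div]
    field_simp
  constructor
  · rw [Fintype.linearIndependent_iff]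
    intro g hg
    by_contra hne
    push Not at hne
    obtain ⟨j, hj⟩ := hne
    obtain ⟨i0, hj0, hmax⟩ := P2_exists_max D (fun i => (g i : F)) j
    have hj' : (g j : F) ≠ 0 := fun h => hj (Subtype.ext h)
    have hi0 : g i0 ≠ 0 := by
      intro h
      rw [h] at hj0
      simp only [ZeroMemClass.coe_zero, map_zero, le_zero_iff] at hj0
      exact hj' ((Valuation.zero_iff _).1 hj0)
    apply norm g i0 hi0 hmax
    have hsum : ∑ i, (g i : F) * e i = 0 := by
      rw [← hg]
      exact Finset.sum_congr rfl fun i _ => rfl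
    rw [hsum, zero_mul, RedData.rd_zero]
  · intro c hx j
    by_contra hj
    obtain ⟨i0, hj0, hmax⟩ := P2_exists_max D (fun i => (c i : F)) j
    have hi0O : (c i0 : F) ∉ D.O := by
      intro h
      apply hj
      rw [← ValuationSubring.valuation_le_one_iff] at h ⊢
      exact hj0.trans h
    have hi0 : c i0 ≠ 0 := by
      intro h
      apply hi0O
      rw [h]; exact D.O.zero_mem
    apply norm c i0 hi0 hmax
    obtain ⟨hm, hr⟩ := RedData.inv_mem_of_not_mem hi0O
    rw [RedData.rd_mul hx hm, hr, mul_zero]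

end Fermat.Agent.INJ
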