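import Fermat.Agent.INJ.Interface

/-!
# INJ, package P3 : degree equality, and the trace commutes with reduction
-/

set_option autoImplicit false

namespace Fermat.Agent.INJ

open Polynomial IntermediateField

section

variable {K F k Fb : Type} [Field K] [Field F] [Algebra K F] [Field k] [Field Fb] [Algebra k Fb]
  {D : RedData K F k Fb} {t : F}

/-- lifts of the independent family of `Chart.deg`. -/
theorem P3_basis (hC : Chart D t) :
    ∃ E : Fin (Module.finrank K⟮t⟯ F) → F, (∀ i, E i ∈ D.O) ∧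
      LinearIndependent k⟮D.rd t⟯ (fun i => D.rd (E i)) := by
  obtain ⟨e, he⟩ := hC.deg
  choose E hE1 hE2 using fun i => RedData.exists_rd_eq (D := D) (e i)
  refine ⟨E, hE1, ?_⟩
  have : (fun i => D.rd (E i)) = e := funext hE2
  rw [this]
  exact he

/-- Orthonormal bases: a `K(t)`-basis of `F` contained in `O` whose reduction is a `k(tbar)`-basis
of `Fb`, and taking coordinates commutes with reduction. -/
theorem P3_core (h1 : Stmt_Gauss) (h2 : Stmt_Ortho) (hC : Chart D t) :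
    ∃ (bE : Module.Basis (Fin (Module.finrank K⟮t⟯ F)) K⟮t⟯ F)
      (be : Module.Basis (Fin (Module.finrank K⟮t⟯ F)) k⟮D.rd t⟯ Fb),
      (∀ i, bE i ∈ D.O) ∧ (∀ i, be i = D.rd (bE i)) ∧
      ∀ x ∈ D.O, ∀ i, ((bE.repr x i : K⟮t⟯) : F) ∈ D.O ∧
        ((be.repr (D.rd x) i : k⟮D.rd t⟯) : Fb) = D.rd ((bE.repr x i : K⟮t⟯) : F) := by
  obtain ⟨E, hE1, hli⟩ := P3_basis hC
  obtain ⟨hliF, horth⟩ := h2 K F k Fb D t hC.t_mem hC.trans _ E hE1 hli
  have hG5 := (h1 K F k Fb D t hC.t_mem hC.trans).2.2.2.2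
  have := hC.fin
  have hpos : 0 < Module.finrank K⟮t⟯ F := Module.finrank_pos
  have : Nonempty (Fin (Module.finrank K⟮t⟯ F)) := ⟨⟨0, hpos⟩⟩
  let bE : Module.Basis (Fin (Module.finrank K⟮t⟯ F)) K⟮t⟯ F :=
    basisOfLinearIndependentOfCardEqFinrank hliF (by simp)
  have hbE : ∀ i, bE i = E i := fun i => by
    simp [bE]
  -- expansion of an element
  have hexp : ∀ x : F, x = ∑ i, ((bE.repr x i : K⟮t⟯) : F) * E i := by
    intro x
    conv_lhs => rw [← bE.sum_repr x]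
    refine Finset.sum_congr rfl fun i _ => ?_
    rw [hbE, Algebra.smul_def]
    rfl
  have hmem : ∀ x ∈ D.O, ∀ i, ((bE.repr x i : K⟮t⟯) : F) ∈ D.O := by
    intro x hx
    refine horth (fun i => bE.repr x i) ?_
    rw [← hexp x]
    exact hx
  -- reduction of the expansion
  have hred : ∀ x (hx : x ∈ D.O), D.rd x = ∑ i,
      (⟨D.rd ((bE.repr x i : K⟮t⟯) : F), hG5 _ (hmem x hx i)⟩ : k⟮D.rd t⟯) • D.rd (E i) := by
    intro x hx
    conv_lhs => rw [hexp x]
    rw [RedData.rd_sum _ _ fun i _ => mul_mem (hmem x hx i) (hE1 i)]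
    refine Finset.sum_congr rfl fun i _ => ?_
    rw [RedData.rd_mul (hmem x hx i) (hE1 i), Algebra.smul_def]
    rfl
  have hspan : ⊤ ≤ Submodule.span k⟮D.rd t⟯ (Set.range fun i => D.rd (E i)) := by
    intro y _
    obtain ⟨x, hx, rfl⟩ := RedData.exists_rd_eq (D := D) y
    rw [hred x hx]
    exact Submodule.sum_mem _ fun i _ =>
      Submodule.smul_mem _ _ (Submodule.subset_span ⟨i, rfl⟩)
  let be : Module.Basis (Fin (Module.finrank K⟮t⟯ F)) k⟮D.rd t⟯ Fb := Module.Basis.mk hli hspan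
  have hbe : ∀ i, be i = D.rd (E i) := fun i => by
    simp [be]
  refine ⟨bE, be, fun i => by rw [hbE]; exact hE1 i, fun i => by rw [hbe, hbE], ?_⟩
  intro x hx i
  refine ⟨hmem x hx i, ?_⟩
  have h3 : D.rd x = ∑ i,
      (⟨D.rd ((bE.repr x i : K⟮t⟯) : F), hG5 _ (hmem x hx i)⟩ : k⟮D.rd t⟯) • be i := by
    rw [hred x hx]
    exact Finset.sum_congr rfl fun i _ => by rw [hbe]
  rw [h3, Module.Basis.repr_sum_self]

theorem P3_finite (h1 : Stmt_Gauss) (h2 : Stmt_Ortho) (hC : Chart D t) :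
    FiniteDimensional k⟮D.rd t⟯ Fb := by
  obtain ⟨_, be, _⟩ := P3_core h1 h2 hC
  exact Module.Finite.of_basis be

theorem P3_finrank (h1 : Stmt_Gauss) (h2 : Stmt_Ortho) (hC : Chart D t) :
    Module.finrank k⟮D.rd t⟯ Fb = Module.finrank K⟮t⟯ F := by
  obtain ⟨_, be, _⟩ := P3_core h1 h2 hC
  rw [Module.finrank_eq_card_basis be, Fintype.card_fin]

end

theorem stmt_Trace (h1 : Stmt_Gauss) (h2 : Stmt_Ortho) : Stmt_Trace := by
  intro K F k Fb _ _ _ _ _ _ D t hC
  refine ⟨P3_finrank h1 h2 hC, fun x hx => ?_⟩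
  obtain ⟨bE, be, hbO, hbe, hco⟩ := P3_core h1 h2 hC
  have hxb : ∀ i, x * bE i ∈ D.O := fun i => mul_mem hx (hbO i)
  have htr : algebraMap K⟮t⟯ F (Algebra.trace K⟮t⟯ F x)
      = ∑ i, ((bE.repr (x * bE i) i : K⟮t⟯) : F) := by
    rw [Algebra.trace_eq_matrix_trace bE, Matrix.trace, map_sum]
    refine Finset.sum_congr rfl fun i _ => ?_
    rw [Matrix.diag_apply, Algebra.leftMulMatrix_eq_repr_mul]
    rfl
  have htr' : algebraMap k⟮D.rd t⟯ Fb (Algebra.trace k⟮D.rd t⟯ Fb (D.rd x))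
      = ∑ i, ((be.repr (D.rd x * be i) i : k⟮D.rd t⟯) : Fb) := by
    rw [Algebra.trace_eq_matrix_trace be, Matrix.trace, map_sum]
    refine Finset.sum_congr rfl fun i _ => ?_
    rw [Matrix.diag_apply, Algebra.leftMulMatrix_eq_repr_mul]
    rfl
  rw [htr, htr']
  refine ⟨RedData.sum_mem _ _ fun i _ => (hco _ (hxb i) i).1, ?_⟩
  rw [RedData.rd_sum _ _ fun i _ => (hco _ (hxb i) i).1]
  refine Finset.sum_congr rfl fun i _ => ?_
  rw [← (hco _ (hxb i) i).2, RedData.rd_mul hx (hbO i), hbe]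

end Fermat.Agent.INJ
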