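import Fermat.Agent.INJ.P3

/-!
# INJ, package P4 : elements of `B ∩ O` reduce to elements integral over `k[tbar]`
-/

set_option autoImplicit false

namespace Fermat.Agent.INJ

open Polynomial IntermediateField
open scoped IntermediateField.algebraAdjoinAdjoin

theorem P4_isIntegral_of_relation {R S : Type*} [CommRing R] [CommRing S] [Algebra R S] (y : S)
    (d : ℕ) (c : Fin d → R)
    (h : y ^ d + ∑ i : Fin d, algebraMap R S (c i) * y ^ (i : ℕ) = 0) : IsIntegral R y := by
  refine ⟨X ^ d + ∑ i : Fin d, C (c i) * X ^ (i : ℕ), monic_X_pow_add (degree_sum_fin_lt c), ?_⟩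
  simpa [eval₂_add, eval₂_finsetSum] using h

section

variable {K F : Type} [Field K] [Field F] [Algebra K F]

theorem P4_pid {t : F} (ht : Transcendental K t) :
    IsPrincipalIdealRing (Algebra.adjoin K {t}) :=
  IsPrincipalIdealRing.of_surjective
    (Polynomial.algEquivOfTranscendental K t ht).toRingEquiv.toRingHom
    (Polynomial.algEquivOfTranscendental K t ht).surjective

theorem P4_isIntegral_field {t x : F} (hx : IsInt K t x) : IsIntegral K⟮t⟯ x :=
  IsIntegral.tower_top (A := K⟮t⟯) hx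

/-- the coefficients of the minimal polynomial over `K(t)` of an element integral over `K[t]` are
polynomials in `t`. -/
theorem P4_coeff_poly {t x : F} (ht : Transcendental K t) (hx : IsInt K t x) (i : ℕ) :
    ∃ P : K[X], (((minpoly K⟮t⟯ x).coeff i : K⟮t⟯) : F) = aeval t P := by
  have := P4_pid ht
  have hint := P4_isIntegral_field hx
  obtain ⟨p, hp, hpx⟩ := hx
  have hdvd : minpoly K⟮t⟯ x ∣ p.map (algebraMap (Algebra.adjoin K {t}) K⟮t⟯) := by
    apply minpoly.dvd
    rw [aeval_map_algebraMap]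
    exact hpx
  have h1 := isIntegral_coeff_of_dvd p (minpoly K⟮t⟯ x) hp (minpoly.monic hint) hdvd i
  obtain ⟨y, hy⟩ := IsIntegrallyClosed.isIntegral_iff.mp h1
  have hy2 : (y : F) ∈ (aeval t : K[X] →ₐ[K] F).range := by
    rw [← Algebra.adjoin_singleton_eq_range_aeval]
    exact y.2
  obtain ⟨P, hP⟩ := hy2
  refine ⟨P, ?_⟩
  rw [← hy]
  exact hP.symm

/-- the relation given by the minimal polynomial. -/
theorem P4_relation {t x : F} (hx : IsIntegral K⟮t⟯ x) :
    x ^ (minpoly K⟮t⟯ x).natDegree + ∑ i : Fin (minpoly K⟮t⟯ x).natDegree,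
      (((minpoly K⟮t⟯ x).coeff i : K⟮t⟯) : F) * x ^ (i : ℕ) = 0 := by
  have h := minpoly.aeval K⟮t⟯ x
  rw [(minpoly.monic hx).as_sum] at h
  simp only [map_add, map_pow, aeval_X, map_sum, map_mul, aeval_C] at h
  rw [Finset.sum_range] at h
  exact h

end

section

variable {K F k Fb : Type} [Field K] [Field F] [Algebra K F] [Field k] [Field Fb] [Algebra k Fb]
  {D : RedData K F k Fb} {t : F}

/-- the coefficients of the minimal polynomial over `K(t)` of an element of `O` lie in `O`. -/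
theorem P4_coeff_mem (h1 : Stmt_Gauss) (h2 : Stmt_Ortho) (hC : Chart D t) {x : F} (hx : x ∈ D.O)
    (i : ℕ) : (((minpoly K⟮t⟯ x).coeff i : K⟮t⟯) : F) ∈ D.O := by
  classical
  obtain ⟨bE, be, hbO, hbe, hco⟩ := P3_core h1 h2 hC
  have := hC.fin
  have hint : IsIntegral K⟮t⟯ x := Algebra.IsIntegral.isIntegral x
  let OG : ValuationSubring K⟮t⟯ := D.O.comap (algebraMap K⟮t⟯ F)
  let M := Algebra.leftMulMatrix bE x
  have hM : ∀ a b, M a b ∈ OG := by
    intro a b
    have hab : M a b = bE.repr (x * bE b) a := Algebra.leftMulMatrix_eq_repr_mul bE x a b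
    show algebraMap K⟮t⟯ F (M a b) ∈ D.O
    rw [hab]
    exact (hco _ (mul_mem hx (hbO b)) a).1
  let M0 : Matrix (Fin (Module.finrank K⟮t⟯ F)) (Fin (Module.finrank K⟮t⟯ F)) OG :=
    fun a b => ⟨M a b, hM a b⟩
  have hMM : M = M0.map (algebraMap OG K⟮t⟯) := by
    ext a b
    rfl
  have hzero : aeval x M.charpoly = 0 := by
    apply Algebra.leftMulMatrix_injective bE
    rw [← Polynomial.aeval_algHom_apply, map_zero]
    exact Matrix.aeval_self_charpoly M
  have hdvd : minpoly K⟮t⟯ x ∣ M0.charpoly.map (algebraMap OG K⟮t⟯) := by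
    rw [← Matrix.charpoly_map, ← hMM]
    exact minpoly.dvd _ _ hzero
  have h3 := isIntegral_coeff_of_dvd M0.charpoly (minpoly K⟮t⟯ x) (Matrix.charpoly_monic M0)
    (minpoly.monic hint) hdvd i
  obtain ⟨y, hy⟩ := IsIntegrallyClosed.isIntegral_iff.mp h3
  rw [← hy]
  exact y.2

end

theorem stmt_IntRed (h1 : Stmt_Gauss) (h2 : Stmt_Ortho) : Stmt_IntRed := by
  intro K F k Fb _ _ _ _ _ _ D t hC x hx hxi
  obtain ⟨hG1, hG2, -, hG4, -⟩ := h1 K F k Fb D t hC.t_mem hC.trans
  have hint := P4_isIntegral_field hxi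
  set q := minpoly K⟮t⟯ x with hq
  -- the coefficients
  have hcoef : ∀ i : ℕ, ∃ c : Algebra.adjoin k {D.rd t},
      D.rd ((q.coeff i : K⟮t⟯) : F) = algebraMap (Algebra.adjoin k {D.rd t}) Fb c := by
    intro i
    obtain ⟨P, hP⟩ := P4_coeff_poly hG4 hxi i
    have hmem := P4_coeff_mem h1 h2 hC hx i
    rw [hP] at hmem
    obtain ⟨Q, rfl⟩ := hG2 P hmem
    refine ⟨⟨aeval (D.rd t) (Q.map D.rA), ?_⟩, ?_⟩
    · rw [Algebra.adjoin_singleton_eq_range_aeval]
      exact ⟨_, rfl⟩
    · rw [hq, hP, (hG1 Q).2]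
      rfl
  choose c hc using hcoef
  have hrel := P4_relation hint
  have hterm : ∀ i : Fin q.natDegree, ((q.coeff i : K⟮t⟯) : F) * x ^ (i : ℕ) ∈ D.O :=
    fun i => mul_mem (P4_coeff_mem h1 h2 hC hx i) (pow_mem hx _)
  refine P4_isIntegral_of_relation (D.rd x) q.natDegree (fun i => c i) ?_
  have h3 := congrArg D.rd hrel
  rw [RedData.rd_zero, RedData.rd_add (pow_mem hx _) (RedData.sum_mem _ _ fun i _ => hterm i),
    RedData.rd_pow hx, RedData.rd_sum _ _ fun i _ => hterm i] at h3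
  rw [← h3]
  congr 1
  refine Finset.sum_congr rfl fun i _ => ?_
  rw [RedData.rd_mul (P4_coeff_mem h1 h2 hC hx i) (pow_mem hx _), RedData.rd_pow hx, hc]

end Fermat.Agent.INJ
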