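import Fermat.Agent.INJ.Interface

/-!
# INJ / P5 : lifting of lattices (freeness over `A[t]`)
-/

set_option autoImplicit false

namespace Fermat.Agent.INJ

open Polynomial IntermediateField

section P5gen

variable {K F : Type*} [Field K] [Field F] [Algebra K F]

theorem P5_mem_span_iff (t : F) {n : ℕ} (l : Fin n → F) (x : F) :
    x ∈ Submodule.span (Algebra.adjoin K {t}) (Set.range l) ↔
      ∃ P : Fin n → K[X], x = ∑ j, aeval t (P j) * l j := by
  rw [Submodule.mem_span_range_iff_exists_fun]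
  constructor
  · rintro ⟨c, rfl⟩
    have h : ∀ j, ∃ P : K[X], aeval t P = (c j : F) := by
      intro j
      obtain ⟨x, hx⟩ := c j
      rw [Algebra.adjoin_singleton_eq_range_aeval] at hx
      exact hx
    choose P hP using h
    exact ⟨P, Finset.sum_congr rfl fun j _ => by rw [hP, Subalgebra.smul_def]; rfl⟩
  · rintro ⟨P, rfl⟩
    refine ⟨fun j => ⟨aeval t (P j), ?_⟩, ?_⟩
    · rw [Algebra.adjoin_singleton_eq_range_aeval]; exact ⟨P j, rfl⟩
    · rfl

theorem P5_aeval_mem (t : F) (P : K[X]) : aeval t P ∈ K⟮t⟯ :=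
  (IntermediateField.algebra_adjoin_le_adjoin K {t}) (Polynomial.aeval_mem_adjoin_singleton K t)

theorem P5_span_le (t : F) {n : ℕ} (w : Fin n → F) {x : F}
    (hx : x ∈ Submodule.span (Algebra.adjoin K {t}) (Set.range w)) :
    x ∈ Submodule.span K⟮t⟯ (Set.range w) := by
  obtain ⟨P, rfl⟩ := (P5_mem_span_iff t w x).1 hx
  refine Submodule.sum_mem _ fun j _ => ?_
  have h : aeval t (P j) * w j = (⟨aeval t (P j), P5_aeval_mem t (P j)⟩ : K⟮t⟯) • w j := rfl
  rw [h]
  exact Submodule.smul_mem _ _ (Submodule.subset_span ⟨j, rfl⟩)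

theorem P5_linearIndependent_of_span_eq (t : F) {n : ℕ} (w eb : Fin n → F)
    (heb : LinearIndependent K⟮t⟯ eb)
    (h : Submodule.span (Algebra.adjoin K {t}) (Set.range w) =
      Submodule.span (Algebra.adjoin K {t}) (Set.range eb)) :
    LinearIndependent K⟮t⟯ w := by
  have hs : Submodule.span K⟮t⟯ (Set.range w) = Submodule.span K⟮t⟯ (Set.range eb) := by
    apply le_antisymm
    · rw [Submodule.span_le]
      rintro _ ⟨i, rfl⟩
      apply P5_span_le
      rw [← h]
      exact Submodule.subset_span ⟨i, rfl⟩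
    · rw [Submodule.span_le]
      rintro _ ⟨i, rfl⟩
      apply P5_span_le
      rw [h]
      exact Submodule.subset_span ⟨i, rfl⟩
  rw [linearIndependent_iff_card_eq_finrank_span] at heb ⊢
  rw [heb, Set.finrank, Set.finrank, hs]

theorem P5_sum_vecMul (t : F) {n : ℕ} (l e : Fin n → F) (T : Matrix (Fin n) (Fin n) K[X])
    (hT : ∀ i, e i = ∑ j, aeval t (T i j) * l j) (c : Fin n → K[X]) :
    ∑ i, aeval t (c i) * e i = ∑ j, aeval t (∑ i, c i * T i j) * l j := by
  calc ∑ i, aeval t (c i) * e i = ∑ i, ∑ j, aeval t (c i * T i j) * l j := by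
        refine Finset.sum_congr rfl fun i _ => ?_
        rw [hT i, Finset.mul_sum]
        refine Finset.sum_congr rfl fun j _ => ?_
        rw [map_mul, mul_assoc]
    _ = ∑ j, ∑ i, aeval t (c i * T i j) * l j := Finset.sum_comm
    _ = ∑ j, aeval t (∑ i, c i * T i j) * l j := by
        refine Finset.sum_congr rfl fun j _ => ?_
        rw [map_sum, Finset.sum_mul]

theorem P5_det_ne_zero (t : F) (ht : Transcendental K t) {n : ℕ} (l e : Fin n → F)
    (T : Matrix (Fin n) (Fin n) K[X]) (hT : ∀ i, e i = ∑ j, aeval t (T i j) * l j)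
    (he : LinearIndependent K⟮t⟯ e) : T.det ≠ 0 := by
  intro h0
  obtain ⟨v, hv, hvT⟩ := Matrix.exists_vecMul_eq_zero_iff.2 h0
  have h1 : ∑ i, aeval t (v i) * e i = 0 := by
    rw [P5_sum_vecMul t l e T hT v]
    refine Finset.sum_eq_zero fun j _ => ?_
    have : ∑ i, v i * T i j = 0 := congrFun hvT j
    rw [this, map_zero, zero_mul]
  have h2 := Fintype.linearIndependent_iff.1 he
    (fun i => (⟨aeval t (v i), P5_aeval_mem t (v i)⟩ : K⟮t⟯)) h1
  apply hv
  funext i
  have h3 : aeval t (v i) = 0 := congrArg Subtype.val (h2 i)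
  exact transcendental_iff.1 ht _ h3

theorem P5_scale (A : ValuationSubring K) {n : ℕ} (β : Fin n → K) (hβ : β ≠ 0) :
    ∃ (i0 : Fin n) (c : K), c ≠ 0 ∧ (∀ i, c * β i ∈ A) ∧ c * β i0 = 1 := by
  obtain ⟨i1, hi1⟩ : ∃ i1, β i1 ≠ 0 := by
    by_contra h
    exact hβ (funext fun i => by_contra fun hi => h ⟨i, hi⟩)
  obtain ⟨i0, -, hi0⟩ := Finset.exists_max_image Finset.univ (fun i => A.valuation (β i))
    ⟨i1, Finset.mem_univ _⟩
  have h0 : β i0 ≠ 0 := by
    intro h
    have := hi0 i1 (Finset.mem_univ _)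
    rw [h, map_zero] at this
    exact hi1 ((map_eq_zero _).1 (le_antisymm this zero_le))
  refine ⟨i0, (β i0)⁻¹, inv_ne_zero h0, fun i => ?_, inv_mul_cancel₀ h0⟩
  rw [← A.valuation_le_one_iff, map_mul, map_inv₀, mul_comm, ← div_eq_mul_inv]
  exact div_le_one_of_le₀ (hi0 i (Finset.mem_univ _)) zero_le

end P5gen

section P5main

variable {K F k Fb : Type} [Field K] [Field F] [Algebra K F] [Field k] [Field Fb] [Algebra k Fb]

/-- a good family together with its coordinate matrix. -/
structure P5_Good (D : RedData K F k Fb) (t : F) {n : ℕ} (l : Fin n → F) (eb : Fin n → Fb)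
    (e : Fin n → F) (T : Matrix (Fin n) (Fin n) K[X]) : Prop where
  memO : ∀ i, e i ∈ D.O
  eq : ∀ i, e i = ∑ j, aeval t (T i j) * l j
  span : Submodule.span (Algebra.adjoin k {D.rd t}) (Set.range fun i => D.rd (e i)) =
    Submodule.span (Algebra.adjoin k {D.rd t}) (Set.range eb)

/-- degree zero determinant: the family spans. -/
theorem P5_span_of_natDegree_eq_zero (t : F) {n : ℕ} (l e : Fin n → F)
    (T : Matrix (Fin n) (Fin n) K[X]) (hT : ∀ i, e i = ∑ j, aeval t (T i j) * l j)
    (h0 : T.det ≠ 0) (hd : T.det.natDegree = 0) :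
    Submodule.span (Algebra.adjoin K {t}) (Set.range e) =
      Submodule.span (Algebra.adjoin K {t}) (Set.range l) := by
  apply le_antisymm
  · rw [Submodule.span_le]
    rintro _ ⟨i, rfl⟩
    exact (P5_mem_span_iff t l (e i)).2 ⟨T i, hT i⟩
  · rw [Submodule.span_le]
    rintro _ ⟨j, rfl⟩
    have hu : IsUnit T.det := by
      rw [Polynomial.eq_C_of_natDegree_eq_zero hd] at h0 ⊢
      exact Polynomial.isUnit_C.2 (isUnit_iff_ne_zero.2 fun h => h0 (by rw [h, map_zero]))
    refine (P5_mem_span_iff t e (l j)).2 ⟨T⁻¹ j, ?_⟩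
    rw [P5_sum_vecMul t l e T hT (T⁻¹ j)]
    have h1 : ∀ j', ∑ i, T⁻¹ j i * T i j' = (1 : Matrix (Fin n) (Fin n) K[X]) j j' := by
      intro j'
      rw [← Matrix.nonsing_inv_mul T hu, Matrix.mul_apply]
    simp only [h1, Matrix.one_apply]
    rw [Finset.sum_eq_single j]
    · simp
    · intro b _ hb
      rw [if_neg (Ne.symm hb), map_zero, zero_mul]
    · intro h; exact absurd (Finset.mem_univ j) h

theorem P5_aeval_mul_mem {K F : Type*} [Field K] [Field F] [Algebra K F] (t : F)
    (N : Submodule (Algebra.adjoin K {t}) F) (P : K[X]) {x : F} (hx : x ∈ N) :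
    aeval t P * x ∈ N :=
  N.smul_mem (⟨aeval t P, Polynomial.aeval_mem_adjoin_singleton K t⟩ : Algebra.adjoin K {t}) hx

theorem P5_step [IsAlgClosed K] (h1 : Stmt_Gauss) (h2 : Stmt_Ortho) (D : RedData K F k Fb) (t : F)
    (htO : t ∈ D.O) (htr : Transcendental k (D.rd t)) {n : ℕ} (l : Fin n → F) (eb : Fin n → Fb)
    (heb : LinearIndependent k⟮D.rd t⟯ eb)
    (hred : ∀ x ∈ Submodule.span (Algebra.adjoin K {t}) (Set.range l), x ∈ D.O →
        D.rd x ∈ Submodule.span (Algebra.adjoin k {D.rd t}) (Set.range eb))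
    (e : Fin n → F) (T : Matrix (Fin n) (Fin n) K[X]) (hg : P5_Good D t l eb e T)
    (hd : T.det.natDegree ≠ 0) :
    ∃ (e' : Fin n → F) (T' : Matrix (Fin n) (Fin n) K[X]), P5_Good D t l eb e' T' ∧
      T'.det.natDegree < T.det.natDegree := by
  have htK : Transcendental K t := (h1 K F k Fb D t htO htr).2.2.2.1
  have hw : LinearIndependent k⟮D.rd t⟯ (fun i => D.rd (e i)) :=
    P5_linearIndependent_of_span_eq (D.rd t) _ eb heb hg.span
  have he : LinearIndependent K⟮t⟯ e := (h2 K F k Fb D t htO htr (Fin n) e hg.memO hw).1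
  have hdet : T.det ≠ 0 := P5_det_ne_zero t htK l e T hg.eq he
  obtain ⟨γ, hγ⟩ := IsAlgClosed.exists_root T.det (by
    intro h
    exact hd (natDegree_eq_zero_iff_degree_le_zero.2 (le_of_eq h)))
  have hsing : (T.map (eval γ)).det = 0 := by
    have h := RingHom.map_det (evalRingHom γ) T
    rw [coe_evalRingHom] at h
    have h' : (evalRingHom γ).mapMatrix T = T.map (eval γ) := rfl
    rw [h'] at h
    rw [← h]
    exact hγ
  obtain ⟨β0, hβ0, hβT⟩ := Matrix.exists_vecMul_eq_zero_iff.2 hsing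
  obtain ⟨i0, c, hc, hβA, hβ1⟩ := P5_scale D.A β0 hβ0
  obtain ⟨β, hβdef⟩ : ∃ β : Fin n → K, β = fun i => c * β0 i := ⟨_, rfl⟩
  have hβA : ∀ i, β i ∈ D.A := by rw [hβdef]; exact hβA
  have hβ1 : β i0 = 1 := by rw [hβdef]; exact hβ1
  have hR : ∀ j, (∑ i, C (β i) * T i j).eval γ = 0 := by
    intro j
    have h : ∑ i, β0 i * (T i j).eval γ = 0 := congrFun hβT j
    rw [eval_finsetSum]
    simp only [eval_mul, eval_C, hβdef, mul_assoc]
    rw [← Finset.mul_sum, h, mul_zero]
  have hS : ∀ j, ∃ S : K[X], ∑ i, C (β i) * T i j = (X - C γ) * S :=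
    fun j => dvd_iff_isRoot.2 (hR j)
  choose S hS using hS
  obtain ⟨y, hy⟩ : ∃ y : F, y = ∑ i, algebraMap K F (β i) * e i := ⟨_, rfl⟩
  obtain ⟨x1, hx1⟩ : ∃ x1 : F, x1 = ∑ j, aeval t (S j) * l j := ⟨_, rfl⟩
  have hyx : y = (t - algebraMap K F γ) * x1 := by
    have h := P5_sum_vecMul t l e T hg.eq (fun i => C (β i))
    simp only [aeval_C] at h
    rw [hy, h, hx1, Finset.mul_sum]
    refine Finset.sum_congr rfl fun j _ => ?_
    rw [hS j, map_mul, map_sub, aeval_X, aeval_C, mul_assoc]
  have hyO : y ∈ D.O := by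
    rw [hy]
    exact RedData.sum_mem _ _ fun i _ => mul_mem (RedData.algebraMap_mem (hβA i)) (hg.memO i)
  have hyrd : D.rd y = ∑ i, algebraMap k Fb (D.ra (β i)) * D.rd (e i) := by
    rw [hy, RedData.rd_sum _ _ (fun i _ => mul_mem (RedData.algebraMap_mem (hβA i)) (hg.memO i))]
    refine Finset.sum_congr rfl fun i _ => ?_
    rw [RedData.rd_mul (RedData.algebraMap_mem (hβA i)) (hg.memO i), RedData.rd_algebraMap (hβA i)]
  have hra1 : D.ra (β i0) = 1 := by
    rw [hβ1, RedData.ra_of_mem D.A.one_mem]; exact map_one D.rA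
  have hx1Λ : x1 ∈ Submodule.span (Algebra.adjoin K {t}) (Set.range l) :=
    (P5_mem_span_iff t l x1).2 ⟨S, hx1⟩
  by_cases hγA : γ ∈ D.A
  · exfalso
    have hrt : D.rd (t - algebraMap K F γ) = D.rd t - algebraMap k Fb (D.ra γ) := by
      rw [RedData.rd_sub htO (RedData.algebraMap_mem hγA), RedData.rd_algebraMap hγA]
    have hne : D.rd (t - algebraMap K F γ) ≠ 0 := by
      rw [hrt]
      intro h
      have h' := transcendental_iff.1 htr (X - C (D.ra γ)) (by
        rw [map_sub, aeval_X, aeval_C]; exact h)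
      exact X_sub_C_ne_zero _ h'
    have hne' : t - algebraMap K F γ ≠ 0 := by
      intro h; rw [h] at hne; exact hne RedData.rd_zero
    have hx1y : x1 = y / (t - algebraMap K F γ) := by
      rw [hyx, mul_div_cancel_left₀ _ hne']
    have hx1O : x1 ∈ D.O := by rw [hx1y]; exact RedData.div_mem hyO hne
    have hx1rd : D.rd y = (D.rd t - algebraMap k Fb (D.ra γ)) * D.rd x1 := by
      rw [hyx, RedData.rd_mul (sub_mem htO (RedData.algebraMap_mem hγA)) hx1O, hrt]
    have hmem := hred x1 hx1Λ hx1O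
    rw [← hg.span] at hmem
    obtain ⟨Q, hQ⟩ := (P5_mem_span_iff (D.rd t) _ _).1 hmem
    have hz : ∑ i, aeval (D.rd t) ((X - C (D.ra γ)) * Q i - C (D.ra (β i))) * D.rd (e i) = 0 := by
      have hz1 : ∀ i, aeval (D.rd t) ((X - C (D.ra γ)) * Q i - C (D.ra (β i))) * D.rd (e i) =
          (D.rd t - algebraMap k Fb (D.ra γ)) * (aeval (D.rd t) (Q i) * D.rd (e i)) -
            algebraMap k Fb (D.ra (β i)) * D.rd (e i) := by
        intro i
        rw [map_sub, map_mul, map_sub, aeval_X, aeval_C, aeval_C]; ring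
      simp only [hz1, Finset.sum_sub_distrib]
      rw [← hyrd, hx1rd, hQ, Finset.mul_sum, sub_self]
    have h3 := Fintype.linearIndependent_iff.1 hw
      (fun i => (⟨aeval (D.rd t) ((X - C (D.ra γ)) * Q i - C (D.ra (β i))),
        P5_aeval_mem _ _⟩ : k⟮D.rd t⟯)) hz i0
    have h4 : aeval (D.rd t) ((X - C (D.ra γ)) * Q i0 - C (D.ra (β i0))) = 0 :=
      congrArg Subtype.val h3
    have h5 := transcendental_iff.1 htr _ h4
    have h6 := congrArg (eval (D.ra γ)) h5
    simp [hra1] at h6
  · obtain ⟨g, hgdef⟩ : ∃ g : F, g = algebraMap K F γ := ⟨_, rfl⟩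
    have hgO : g ∉ D.O := fun h => hγA ((D.mem_iff γ).1 (hgdef ▸ h))
    obtain ⟨hgi, hgi0⟩ := RedData.inv_mem_of_not_mem hgO
    have hγ0 : γ ≠ 0 := by rintro rfl; exact hγA D.A.zero_mem
    have hg0 : g ≠ 0 := by rw [hgdef]; exact (_root_.map_ne_zero _).2 hγ0
    have hu : D.rd (1 - g⁻¹ * t) = 1 := by
      rw [RedData.rd_sub D.O.one_mem (mul_mem hgi htO), RedData.rd_mul hgi htO, hgi0,
        RedData.rd_one, zero_mul, sub_zero]
    obtain ⟨x2, hx2⟩ : ∃ x2 : F, x2 = ∑ j, aeval t (C (-γ) * S j) * l j := ⟨_, rfl⟩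
    have hx2x1 : x2 = -g * x1 := by
      rw [hx2, hx1, Finset.mul_sum]
      refine Finset.sum_congr rfl fun j _ => ?_
      rw [map_mul, aeval_C, map_neg, mul_assoc, hgdef]
    have hu' : D.rd (1 - g⁻¹ * t) ≠ 0 := by rw [hu]; exact one_ne_zero
    have hyx2 : x2 = y / (1 - g⁻¹ * t) := by
      have h : (1 - g⁻¹ * t) ≠ 0 := by
        intro h; rw [h, RedData.rd_zero] at hu; exact zero_ne_one hu
      rw [eq_div_iff h, hx2x1, hyx, ← hgdef]
      field_simp
      ring
    have hx2O : x2 ∈ D.O := by rw [hyx2]; exact RedData.div_mem hyO hu'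
    have hx2rd : D.rd x2 = D.rd y := by rw [hyx2, RedData.rd_div hyO hu', hu, div_one]
    refine ⟨Function.update e i0 x2, T.updateRow i0 (fun j => C (-γ) * S j), ⟨?_, ?_, ?_⟩, ?_⟩
    · intro i
      by_cases h : i = i0
      · subst h; rw [Function.update_self]; exact hx2O
      · rw [Function.update_of_ne h]; exact hg.memO i
    · intro i
      by_cases h : i = i0
      · subst h
        rw [Function.update_self, hx2]
        refine Finset.sum_congr rfl fun j _ => ?_
        rw [Matrix.updateRow_self]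
      · rw [Function.update_of_ne h, hg.eq i]
        refine Finset.sum_congr rfl fun j _ => ?_
        rw [Matrix.updateRow_ne h]
    · rw [← hg.span]
      apply le_antisymm
      · rw [Submodule.span_le]
        rintro _ ⟨i, rfl⟩
        by_cases h : i = i0
        · subst h
          simp only [Function.update_self]
          rw [hx2rd, hyrd]
          exact (P5_mem_span_iff _ _ _).2 ⟨fun i => C (D.ra (β i)), by simp only [aeval_C]⟩
        · simp only [Function.update_of_ne h]
          exact Submodule.subset_span ⟨i, rfl⟩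
      · rw [Submodule.span_le]
        rintro _ ⟨i, rfl⟩
        by_cases h : i = i0
        · subst h
          have hsplit : D.rd y = D.rd (e i) +
              ∑ j ∈ Finset.univ.erase i, algebraMap k Fb (D.ra (β j)) * D.rd (e j) := by
            rw [hyrd, ← Finset.add_sum_erase _ _ (Finset.mem_univ i), hra1, map_one, one_mul]
          have hei : D.rd (e i) = D.rd y -
              ∑ j ∈ Finset.univ.erase i, algebraMap k Fb (D.ra (β j)) * D.rd (e j) := by
            rw [hsplit]; ring
          show D.rd (e i) ∈ _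
          rw [hei]
          refine Submodule.sub_mem _ (Submodule.subset_span ⟨i, ?_⟩)
            (Submodule.sum_mem _ fun j hj => ?_)
          · simp only [Function.update_self]; exact hx2rd
          · have hj' : j ≠ i := Finset.ne_of_mem_erase hj
            rw [← aeval_C (D.rd t)]
            refine P5_aeval_mul_mem _ _ _ (Submodule.subset_span ⟨j, ?_⟩)
            simp only [Function.update_of_ne hj']
        · exact Submodule.subset_span ⟨i, by simp only [Function.update_of_ne h]⟩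
    · have hdet' : (X - C γ) * (T.updateRow i0 (fun j => C (-γ) * S j)).det = C (-γ) * T.det := by
        have e1 : (X - C γ) * (T.updateRow i0 (fun j => C (-γ) * S j)).det =
            (T.updateRow i0 ((X - C γ) • (fun j => C (-γ) * S j))).det :=
          (Matrix.det_updateRow_smul T i0 (X - C γ) _).symm
        have e2 : ((X - C γ) • (fun j => C (-γ) * S j)) = C (-γ) • (∑ i, C (β i) • T i) := by
          funext j
          simp only [Pi.smul_apply, Finset.sum_apply, smul_eq_mul]
          rw [hS j]; ring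
        rw [e1, e2, Matrix.det_updateRow_smul, Matrix.det_updateRow_sum, hβ1]
        simp
      have hT'0 : (T.updateRow i0 (fun j => C (-γ) * S j)).det ≠ 0 := by
        intro h
        rw [h, mul_zero] at hdet'
        exact (mul_ne_zero (C_ne_zero.2 (neg_ne_zero.2 hγ0)) hdet) hdet'.symm
      have h := congrArg natDegree hdet'
      rw [natDegree_mul (X_sub_C_ne_zero γ) hT'0, natDegree_X_sub_C,
        natDegree_C_mul (neg_ne_zero.2 hγ0)] at h
      omega

theorem stmt_Lift (h1 : Stmt_Gauss) (h2 : Stmt_Ortho) : Stmt_Lift := by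
  intro K F k Fb _ _ _ _ _ _ _ D t htO htr n Λ l hl _ eb heb hred hlift
  subst hl
  have htK : Transcendental K t := (h1 K F k Fb D t htO htr).2.2.2.1
  -- the induction
  have key : ∀ (d : ℕ) (e : Fin n → F) (T : Matrix (Fin n) (Fin n) K[X]),
      P5_Good D t l eb e T → T.det.natDegree = d →
      ∃ (e' : Fin n → F) (T' : Matrix (Fin n) (Fin n) K[X]), P5_Good D t l eb e' T' ∧
        T'.det.natDegree = 0 := by
    intro d
    induction d using Nat.strong_induction_on with
    | _ d ih =>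
      intro e T hg hd
      by_cases h0 : T.det.natDegree = 0
      · exact ⟨e, T, hg, h0⟩
      · obtain ⟨e', T', hg', hlt⟩ := P5_step h1 h2 D t htO htr l eb heb hred e T hg h0
        exact ih _ (hd ▸ hlt) e' T' hg' rfl
  choose e0 he0Λ he0O he0rd using hlift
  have hT : ∀ i, ∃ P : Fin n → K[X], e0 i = ∑ j, aeval t (P j) * l j :=
    fun i => (P5_mem_span_iff t l (e0 i)).1 (he0Λ i)
  choose T0 hT0 using hT
  have hg0 : P5_Good D t l eb e0 (Matrix.of T0) :=
    ⟨he0O, hT0, by simp only [he0rd]⟩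
  obtain ⟨e, T, hg, hd⟩ := key _ e0 (Matrix.of T0) hg0 rfl
  have hw : LinearIndependent k⟮D.rd t⟯ (fun i => D.rd (e i)) :=
    P5_linearIndependent_of_span_eq (D.rd t) _ eb heb hg.span
  have he : LinearIndependent K⟮t⟯ e := (h2 K F k Fb D t htO htr (Fin n) e hg.memO hw).1
  have hdet : T.det ≠ 0 := P5_det_ne_zero t htK l e T hg.eq he
  exact ⟨e, hg.memO, P5_span_of_natDegree_eq_zero t l e T hg.eq hdet hd, hw, hg.span⟩

end P5main

end Fermat.Agent.INJ
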