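import Fermat.Agent.INJ.Interface

/-!
# INJ, package P6 : an orthonormal `A[t]`-basis of `BB = B ∩ O`
-/

set_option autoImplicit false

namespace Fermat.Agent.INJ

open Polynomial IntermediateField
open scoped IntermediateField.algebraAdjoinAdjoin

section Generic

variable {K F : Type} [Field K] [Field F] [Algebra K F]

theorem P6_pid {x : F} (hx : Transcendental K x) :
    IsPrincipalIdealRing (Algebra.adjoin K {x}) :=
  IsPrincipalIdealRing.of_surjective
    (Polynomial.algEquivOfTranscendental K x hx).toRingEquiv.toRingHom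
    (Polynomial.algEquivOfTranscendental K x hx).surjective

theorem P6_li_iff (x : F) {ι : Type} (v : ι → F) :
    LinearIndependent (Algebra.adjoin K {x}) v ↔ LinearIndependent K⟮x⟯ v :=
  LinearIndependent.iff_fractionRing (Algebra.adjoin K {x}) K⟮x⟯

/-- the family of values of a basis of a submodule -/
theorem P6_span_coe {R M : Type} [CommRing R] [AddCommGroup M] [Module R M] (N : Submodule R M)
    {ι : Type} (b : Module.Basis ι R N) :
    Submodule.span R (Set.range fun i => (b i : M)) = N := by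
  have h1 : (Set.range fun i => (b i : M)) = N.subtype '' (Set.range b) := by
    rw [← Set.range_comp]; rfl
  rw [h1, Submodule.span_image, b.span_eq, Submodule.map_top, Submodule.range_subtype]

theorem P6_li_coe {R M : Type} [CommRing R] [AddCommGroup M] [Module R M] (N : Submodule R M)
    {ι : Type} (b : Module.Basis ι R N) :
    LinearIndependent R (fun i => (b i : M)) :=
  b.linearIndependent.map' N.subtype (Submodule.ker_subtype N)

theorem P6_intBasis {x : F} (hx : Transcendental K x) [FiniteDimensional K⟮x⟯ F]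
    [Algebra.IsSeparable K⟮x⟯ F] :
    ∃ l : Fin (Module.finrank K⟮x⟯ F) → F,
      Submodule.span (Algebra.adjoin K {x}) (Set.range l) =
        Subalgebra.toSubmodule (integralClosure (Algebra.adjoin K {x}) F) ∧
      LinearIndependent K⟮x⟯ l := by
  have := P6_pid hx
  have h1 : Module.Finite (Algebra.adjoin K {x}) (integralClosure (Algebra.adjoin K {x}) F) :=
    IsIntegralClosure.finite (Algebra.adjoin K {x}) K⟮x⟯ F _
  have h2 : Module.Free (Algebra.adjoin K {x}) (integralClosure (Algebra.adjoin K {x}) F) :=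
    IsIntegralClosure.module_free (Algebra.adjoin K {x}) K⟮x⟯ F _
  have h3 : Module.finrank (Algebra.adjoin K {x}) (integralClosure (Algebra.adjoin K {x}) F) =
      Module.finrank K⟮x⟯ F :=
    IsIntegralClosure.rank (Algebra.adjoin K {x}) K⟮x⟯ F _
  let b : Module.Basis (Fin (Module.finrank K⟮x⟯ F)) (Algebra.adjoin K {x})
      (Subalgebra.toSubmodule (integralClosure (Algebra.adjoin K {x}) F)) :=
    Module.finBasisOfFinrankEq _ _ h3
  exact ⟨fun i => (b i : F), P6_span_coe _ b, (P6_li_iff x _).1 (P6_li_coe _ b)⟩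

end Generic

section Main

variable {K F k Fb : Type} [Field K] [Field F] [Algebra K F] [Field k] [Field Fb] [Algebra k Fb]
  {D : RedData K F k Fb} {t : F}

/-- every element of `k[tbar]` is the reduction of an element of `K[t] ∩ O`. -/
theorem P6_lift_scalar (h1 : Stmt_Gauss) (ht : t ∈ D.O) (htr : Transcendental k (D.rd t)) (c : Fb)
    (hc : c ∈ Algebra.adjoin k {D.rd t}) :
    ∃ p ∈ Algebra.adjoin K {t}, p ∈ D.O ∧ D.rd p = c := by
  rw [Algebra.adjoin_singleton_eq_range_aeval] at hc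
  obtain ⟨Pb, rfl⟩ := hc
  obtain ⟨Q, rfl⟩ := Polynomial.map_surjective D.rA D.rA_surj Pb
  obtain ⟨hQ1, hQ2⟩ := (h1 K F k Fb D t ht htr).1 Q
  refine ⟨aeval t (Q.map D.A.subtype), ?_, hQ1, hQ2⟩
  rw [Algebra.adjoin_singleton_eq_range_aeval]
  exact ⟨_, rfl⟩

theorem P6_isInt_of_mem {p : F} (hp : p ∈ Algebra.adjoin K {t}) : IsInt K t p :=
  isIntegral_algebraMap (x := (⟨p, hp⟩ : Algebra.adjoin K {t}))

/-- `Bbar = rd (B ∩ O)` as a `k[tbar]`-module. -/
def P6_Bbar (h1 : Stmt_Gauss) (ht : t ∈ D.O) (htr : Transcendental k (D.rd t)) :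
    Submodule (Algebra.adjoin k {D.rd t}) Fb where
  carrier := {y | ∃ x, IsInt K t x ∧ x ∈ D.O ∧ D.rd x = y}
  zero_mem' := ⟨0, isIntegral_zero, D.O.zero_mem, RedData.rd_zero⟩
  add_mem' := by
    rintro _ _ ⟨x, hx1, hx2, rfl⟩ ⟨y, hy1, hy2, rfl⟩
    exact ⟨x + y, hx1.add hy1, add_mem hx2 hy2, RedData.rd_add hx2 hy2⟩
  smul_mem' := by
    rintro ⟨c, hc⟩ _ ⟨x, hx1, hx2, rfl⟩
    obtain ⟨p, hp1, hp2, hp3⟩ := P6_lift_scalar h1 ht htr c hc
    refine ⟨p * x, (P6_isInt_of_mem hp1).mul hx1, mul_mem hp2 hx2, ?_⟩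
    rw [RedData.rd_mul hp2 hx2, hp3]
    rfl

theorem P6_mem_Bbar (h1 : Stmt_Gauss) (ht : t ∈ D.O) (htr : Transcendental k (D.rd t)) (y : Fb) :
    y ∈ P6_Bbar h1 ht htr ↔ ∃ x, IsInt K t x ∧ x ∈ D.O ∧ D.rd x = y := Iff.rfl

/-- every element of `Fb` has a nonzero `k[tbar]`-multiple in `Bbar`. -/
theorem P6_exists_mul_mem (h1 : Stmt_Gauss) (ht : t ∈ D.O) (htr : Transcendental k (D.rd t))
    [FiniteDimensional K⟮t⟯ F] (yb : Fb) :
    ∃ c ∈ Algebra.adjoin k {D.rd t}, c ≠ 0 ∧ c * yb ∈ P6_Bbar h1 ht htr := by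
  obtain ⟨y, hy, rfl⟩ := RedData.exists_rd_eq (D := D) yb
  have halg : IsAlgebraic (Algebra.adjoin K {t}) y :=
    (IsFractionRing.isAlgebraic_iff (Algebra.adjoin K {t}) K⟮t⟯ F).2
      (Algebra.IsAlgebraic.isAlgebraic y)
  obtain ⟨⟨r, hr⟩, hr0, hint⟩ := halg.exists_integral_multiple
  have hr' := hr
  rw [Algebra.adjoin_singleton_eq_range_aeval] at hr'
  obtain ⟨P, hP⟩ := hr'
  have hP' : aeval t P = r := hP
  have hP0 : P ≠ 0 := by
    rintro rfl
    apply hr0
    apply Subtype.ext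
    show r = 0
    rw [← hP']
    simp
  obtain ⟨a, Q, ha, hPQ, hQ⟩ := (h1 K F k Fb D t ht htr).2.2.1 P hP0
  obtain ⟨hQ1, hQ2⟩ := (h1 K F k Fb D t ht htr).1 Q
  refine ⟨aeval (D.rd t) (Q.map D.rA), ?_, ?_, ?_⟩
  · rw [Algebra.adjoin_singleton_eq_range_aeval]
    exact ⟨_, rfl⟩
  · intro h0
    exact hQ ((transcendental_iff.1 htr) _ h0)
  · refine ⟨aeval t (Q.map D.A.subtype) * y, ?_, mul_mem hQ1 hy, ?_⟩
    · have e1 : aeval t (Q.map D.A.subtype) * y = algebraMap K F a⁻¹ * (r * y) := by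
        rw [← hP', hPQ, map_mul, aeval_C, ← mul_assoc, ← mul_assoc, ← map_mul,
          inv_mul_cancel₀ ha, map_one, one_mul]
      rw [e1]
      refine IsIntegral.mul (P6_isInt_of_mem (Subalgebra.algebraMap_mem _ _)) ?_
      exact hint
    · rw [RedData.rd_mul hQ1 hy, hQ2]

end Main

theorem stmt_BBasis (h1 : Stmt_Gauss) (_h2 : Stmt_Ortho) (h3 : Stmt_Trace) (h4 : Stmt_IntRed)
    (h5 : Stmt_Lift) : Stmt_BBasis := by
  intro K F k Fb _ _ _ _ _ _ _ _ D t hC
  have ht := hC.t_mem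
  have htr := hC.trans
  have hfin := hC.fin
  have hsepb := hC.sep
  have htK : Transcendental K t := (h1 K F k Fb D t ht htr).2.2.2.1
  have hnpos : 0 < Module.finrank K⟮t⟯ F := Module.finrank_pos
  have hrank : Module.finrank k⟮D.rd t⟯ Fb = Module.finrank K⟮t⟯ F := (h3 K F k Fb D t hC).1
  have hfinb : FiniteDimensional k⟮D.rd t⟯ Fb :=
    Module.finite_of_finrank_pos (by rw [hrank]; exact hnpos)
  have : CharZero F := charZero_of_injective_algebraMap (algebraMap K F).injective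
  have : CharZero K⟮t⟯ := charZero_of_injective_algebraMap (algebraMap K K⟮t⟯).injective
  have hsep : Algebra.IsSeparable K⟮t⟯ F := inferInstance
  obtain ⟨l, hl1, hl2⟩ := P6_intBasis htK
  have hpid := P6_pid htr
  have hle : P6_Bbar h1 ht htr ≤
      Subalgebra.toSubmodule (integralClosure (Algebra.adjoin k {D.rd t}) Fb) := by
    rintro _ ⟨x, hx1, hx2, rfl⟩
    exact h4 K F k Fb D t hC x hx2 hx1
  have hfinBt : Module.Finite (Algebra.adjoin k {D.rd t})
      (integralClosure (Algebra.adjoin k {D.rd t}) Fb) :=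
    IsIntegralClosure.finite (Algebra.adjoin k {D.rd t}) k⟮D.rd t⟯ Fb _
  have hfg : (P6_Bbar h1 ht htr).FG := Submodule.FG.of_le (Module.Finite.iff_fg.1 hfinBt) hle
  have hfinBb : Module.Finite (Algebra.adjoin k {D.rd t}) (P6_Bbar h1 ht htr) :=
    Module.Finite.iff_fg.2 hfg
  obtain ⟨r, bb⟩ := Module.basisOfFiniteTypeTorsionFree' (R := Algebra.adjoin k {D.rd t})
    (M := P6_Bbar h1 ht htr)
  have hspanR := P6_span_coe _ bb
  have hli : LinearIndependent k⟮D.rd t⟯ (fun i => (bb i : Fb)) :=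
    (P6_li_iff (D.rd t) _).1 (P6_li_coe _ bb)
  have htop : Submodule.span k⟮D.rd t⟯ (Set.range fun i => (bb i : Fb)) = ⊤ := by
    rw [eq_top_iff]
    intro yb _
    obtain ⟨c, hc, hc0, hcy⟩ := P6_exists_mul_mem h1 ht htr yb
    rw [← hspanR] at hcy
    have h6 := Submodule.span_le_restrictScalars (Algebra.adjoin k {D.rd t}) k⟮D.rd t⟯ _ hcy
    have h7 : c * yb ∈ Submodule.span k⟮D.rd t⟯ (Set.range fun i => (bb i : Fb)) := h6
    have hck : c ∈ k⟮D.rd t⟯ := IntermediateField.algebra_adjoin_le_adjoin k {D.rd t} hc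
    have h8 := Submodule.smul_mem _ ((⟨c, hck⟩ : k⟮D.rd t⟯)⁻¹) h7
    have e1 : ((⟨c, hck⟩ : k⟮D.rd t⟯)⁻¹) • (c * yb) = yb := by
      rw [Algebra.smul_def]
      show c⁻¹ * (c * yb) = yb
      rw [← mul_assoc, inv_mul_cancel₀ hc0, one_mul]
    rwa [e1] at h8
  have hr : r = Module.finrank K⟮t⟯ F := by
    rw [← hrank]
    apply le_antisymm
    · simpa using hli.fintype_card_le_finrank
    · simpa using finrank_le_of_span_eq_top htop
  subst hr
  obtain ⟨e, he1, he2, he3, -⟩ := h5 K F k Fb D t ht htr _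
    (Subalgebra.toSubmodule (integralClosure (Algebra.adjoin K {t}) F)) l hl1 hl2
    (fun i => (bb i : Fb)) hli
    (by
      intro x hx hxO
      rw [hspanR]
      exact ⟨x, hx, hxO, rfl⟩)
    (by
      intro i
      obtain ⟨x, hx1, hx2, hx3⟩ := (bb i).2
      exact ⟨x, hx1, hx2, hx3⟩)
  refine ⟨e, fun i => ⟨he1 i, ?_⟩, fun x hx => ?_, he3⟩
  · have : e i ∈ Subalgebra.toSubmodule (integralClosure (Algebra.adjoin K {t}) F) := by
      rw [← he2]
      exact Submodule.subset_span ⟨i, rfl⟩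
    exact this
  · rw [he2]
    exact hx

end Fermat.Agent.INJ
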