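import Fermat.Agent.INJ.Interface

/-!
# INJ, package P7 : normality of the special fibre
-/

set_option autoImplicit false

namespace Fermat.Agent.INJ

open Polynomial IntermediateField

section P7

/-! ### generalities -/

theorem P7_trace_eq_repr {E L : Type} [Field E] [Field L] [Algebra E L] {n : ℕ}
    (B : Module.Basis (Fin n) E L) (d : L) (i : Fin n)
    (hd : ∀ j, Algebra.trace E L (d * B j) = if j = i then 1 else 0) (y : L) :
    Algebra.trace E L (d * y) = B.repr y i := by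
  conv_lhs => rw [← B.sum_repr y]
  rw [Finset.mul_sum, map_sum]
  simp only [mul_smul_comm, map_smul, hd, smul_eq_mul, mul_ite, mul_one, mul_zero,
    Finset.sum_ite_eq', Finset.mem_univ, if_true]

variable {K F k Fb : Type} [Field K] [Field F] [Algebra K F] [Field k] [Field Fb] [Algebra k Fb]

theorem P7_isInt_of_mem {t x : F} (h : x ∈ Algebra.adjoin K {t}) : IsInt K t x :=
  isIntegral_algebraMap (R := Algebra.adjoin K {t}) (A := F) (x := ⟨x, h⟩)

theorem P7_isInt_aeval (t : F) (P : K[X]) : IsInt K t (aeval t P) :=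
  P7_isInt_of_mem (aeval_mem_adjoin_singleton K t)

theorem P7_isInt_sub_const (t : F) (c : K) : IsInt K t (t - algebraMap K F c) := by
  have := P7_isInt_aeval (K := K) t (X - C c)
  simpa using this

variable (D : RedData K F k Fb)

theorem P7_ra_ne {c c' : K} (hc : c ∈ D.A) (hc' : c' ∈ D.A) (hne : c ≠ c')
    (h : (c - c')⁻¹ ∈ D.A) : D.ra c ≠ D.ra c' := by
  intro heq
  rw [RedData.ra_of_mem hc, RedData.ra_of_mem hc'] at heq
  have h0 : D.rA (⟨c - c', sub_mem hc hc'⟩ : D.A) = 0 := by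
    have : (⟨c - c', sub_mem hc hc'⟩ : D.A) = ⟨c, hc⟩ - ⟨c', hc'⟩ := rfl
    rw [this, map_sub, heq, sub_self]
  have h1 : (⟨c - c', sub_mem hc hc'⟩ : D.A) * ⟨(c - c')⁻¹, h⟩ = 1 := by
    apply Subtype.ext
    exact mul_inv_cancel₀ (sub_ne_zero.2 hne)
  have h2 := congrArg D.rA h1
  rw [map_mul, h0, zero_mul, map_one] at h2
  exact zero_ne_one h2

theorem P7_sub_ne_zero {tb : Fb} (htb : Transcendental k tb) (c : k) :
    tb - algebraMap k Fb c ≠ 0 := by
  intro h
  apply htb
  rw [sub_eq_zero.1 h]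
  exact isAlgebraic_algebraMap c

theorem P7_beta_mem {t : F} (ht : t ∈ D.O) (S : Finset K) (hS : ∀ c ∈ S, c ∈ D.A) :
    beta t S ∈ D.O :=
  RedData.prod_mem S _ fun c hc => sub_mem ht (RedData.algebraMap_mem (hS c hc))

theorem P7_rd_beta {t : F} (ht : t ∈ D.O) (S : Finset K) (hS : ∀ c ∈ S, c ∈ D.A) :
    D.rd (beta t S) = ∏ c ∈ S, (D.rd t - algebraMap k Fb (D.ra c)) := by
  unfold beta
  rw [RedData.rd_prod S _ fun c hc => sub_mem ht (RedData.algebraMap_mem (hS c hc))]
  refine Finset.prod_congr rfl fun c hc => ?_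
  rw [RedData.rd_sub ht (RedData.algebraMap_mem (hS c hc)), RedData.rd_algebraMap (hS c hc)]

/-- the set `S` of the branch condition may be assumed nonempty. -/
theorem P7_branch_nonempty {t : F} (ht0 : t ≠ 0) (hB : Branch D t) :
    ∃ S : Finset K, S.Nonempty ∧ (∀ c ∈ S, c ∈ D.A) ∧
      (∀ c ∈ S, ∀ c' ∈ S, c ≠ c' → (c - c')⁻¹ ∈ D.A) ∧
      ∀ z : F, InDual K t z → ∃ m : ℕ, 0 < m ∧ IsInt K t ((z * beta t S) ^ m / beta t S) := by
  obtain ⟨S, h1, h2, h3⟩ := hB
  rcases S.eq_empty_or_nonempty with rfl | hne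
  · refine ⟨{0}, Finset.singleton_nonempty 0, ?_, ?_, ?_⟩
    · intro c hc
      rw [Finset.mem_singleton.1 hc]
      exact zero_mem _
    · intro c hc c' hc' hne
      rw [Finset.mem_singleton.1 hc, Finset.mem_singleton.1 hc'] at hne
      exact absurd rfl hne
    · intro z hz
      obtain ⟨m, hm, hint⟩ := h3 z hz
      refine ⟨m, hm, ?_⟩
      have hb0 : beta t (∅ : Finset K) = 1 := by simp [beta]
      have hb1 : beta t ({0} : Finset K) = t := by simp [beta]
      rw [hb0, mul_one, div_one] at hint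
      rw [hb1]
      obtain ⟨m', rfl⟩ : ∃ m', m = m' + 1 := ⟨m - 1, by omega⟩
      have e : (z * t) ^ (m' + 1) / t = z ^ (m' + 1) * t ^ m' := by
        field_simp
        ring
      rw [e]
      have ht : IsInt K t t := by
        have := P7_isInt_aeval (K := K) t X
        simpa using this
      exact hint.mul (ht.pow m')
  · exact ⟨S, hne, h1, h2, h3⟩

/-- a trace-dual element of an orthonormal basis lies in `O`. -/
theorem P7_dual_mem (h3 : Stmt_Trace) {t : F} (hC : Chart D t)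
    [FiniteDimensional k⟮D.rd t⟯ Fb] [Algebra.IsSeparable k⟮D.rd t⟯ Fb] {n : ℕ} (b : Fin n → F)
    (hbO : ∀ i, b i ∈ D.O) (Bb : Module.Basis (Fin n) k⟮D.rd t⟯ Fb)
    (hBb : ∀ i, Bb i = D.rd (b i)) (d : F) (i : Fin n) (hd0 : d ≠ 0)
    (hd : ∀ j, Algebra.trace K⟮t⟯ F (d * b j) = if j = i then 1 else 0) : d ∈ D.O := by
  obtain ⟨a, ha0, hz, hz'⟩ := D.unram d hd0
  set z := d * algebraMap K F a with hzdef
  have hz0 : z ≠ 0 := mul_ne_zero hd0 (by simpa using ha0)
  have hrz : D.rd z ≠ 0 := RedData.rd_ne_zero_of_inv_mem hz0 hz hz'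
  -- some `Tr (rd z * bb_j)` is nonzero
  obtain ⟨j, hj⟩ : ∃ j, Algebra.trace k⟮D.rd t⟯ Fb (D.rd z * Bb j) ≠ 0 := by
    by_contra hcon
    push Not at hcon
    apply hrz
    apply (traceForm_nondegenerate k⟮D.rd t⟯ Fb).1
    intro y
    have : (Algebra.traceForm k⟮D.rd t⟯ Fb) (D.rd z) = 0 := by
      apply Bb.ext
      intro j
      rw [Algebra.traceForm_apply, hcon j]
      rfl
    rw [this]
    rfl
  have htr := (h3 K F k Fb D t hC).2 (z * b j) (mul_mem hz (hbO j))
  rw [RedData.rd_mul hz (hbO j), ← hBb j] at htr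
  have hne : D.rd (algebraMap K⟮t⟯ F (Algebra.trace K⟮t⟯ F (z * b j))) ≠ 0 := by
    rw [htr.2]
    simpa using hj
  have hcomp : Algebra.trace K⟮t⟯ F (z * b j) = algebraMap K K⟮t⟯ a * (if j = i then 1 else 0) := by
    have e : z * b j = algebraMap K K⟮t⟯ a • (d * b j) := by
      rw [Algebra.smul_def, hzdef, ← IsScalarTower.algebraMap_apply K K⟮t⟯ F]
      ring
    rw [e, map_smul, hd j, smul_eq_mul]
  rw [hcomp] at hne
  by_cases hji : j = i
  · rw [if_pos hji, mul_one, ← IsScalarTower.algebraMap_apply K K⟮t⟯ F] at hne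
    have hinv := RedData.inv_mem_of_rd_ne_zero hne
    have : d = z * (algebraMap K F a)⁻¹ := by
      rw [hzdef, mul_assoc, mul_inv_cancel₀ (by simpa using ha0), mul_one]
    rw [this]
    exact mul_mem hz hinv
  · rw [if_neg hji, mul_zero, map_zero] at hne
    exact absurd RedData.rd_zero hne

end P7

/-- P7 : normality of the special fibre. -/
theorem stmt_Normal (h1 : Stmt_Gauss) (h2 : Stmt_Ortho) (h3 : Stmt_Trace) (h4 : Stmt_IntRed)
    (h6 : Stmt_BBasis) (h7 : Stmt_TraceNil) : Stmt_Normal := by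
  intro K F k Fb _ _ _ _ _ _ _ _ D t hC hBr yb hyb
  classical
  have htO := hC.t_mem
  have htr := hC.trans
  have := hC.fin
  have := hC.sep
  have hnpos : 0 < Module.finrank K⟮t⟯ F := Module.finrank_pos
  obtain ⟨hdeg, hTr⟩ := h3 K F k Fb D t hC
  have : FiniteDimensional k⟮D.rd t⟯ Fb :=
    Module.finite_of_finrank_pos (by rw [hdeg]; exact hnpos)
  obtain ⟨hG1, -, -, -, -⟩ := h1 K F k Fb D t htO htr
  obtain ⟨b, hb, hbspan, hbli⟩ := h6 K F k Fb D t hC
  obtain ⟨hbliK, -⟩ := h2 K F k Fb D t htO htr _ b (fun i => (hb i).1) hbli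
  have : Nonempty (Fin (Module.finrank K⟮t⟯ F)) := ⟨⟨0, hnpos⟩⟩
  let B : Module.Basis (Fin (Module.finrank K⟮t⟯ F)) K⟮t⟯ F :=
    basisOfLinearIndependentOfCardEqFinrank hbliK (by simp)
  have hBi : ∀ i, B i = b i := fun i => by
    simp only [B, coe_basisOfLinearIndependentOfCardEqFinrank]
  let Bb : Module.Basis (Fin (Module.finrank K⟮t⟯ F)) k⟮D.rd t⟯ Fb :=
    basisOfLinearIndependentOfCardEqFinrank hbli (by simp [hdeg])
  have hBbi : ∀ i, Bb i = D.rd (b i) := fun i => by
    simp only [Bb, coe_basisOfLinearIndependentOfCardEqFinrank]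
  -- the dual basis
  let dB := (Algebra.traceForm K⟮t⟯ F).dualBasis (traceForm_nondegenerate _ _) B
  have hd : ∀ i j, Algebra.trace K⟮t⟯ F (dB i * b j) = if j = i then 1 else 0 := by
    intro i j
    rw [← hBi j, ← Algebra.traceForm_apply]
    exact LinearMap.BilinForm.apply_dualBasis_left _ _ i j
  have hdO : ∀ i, dB i ∈ D.O := fun i =>
    P7_dual_mem D h3 hC b (fun i => (hb i).1) Bb hBbi (dB i) i (dB.ne_zero i) (hd i)
  have hdb : ∀ i j, Algebra.trace k⟮D.rd t⟯ Fb (D.rd (dB i) * Bb j) = if j = i then 1 else 0 := by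
    intro i j
    have h := (hTr (dB i * b j) (mul_mem (hdO i) (hb j).1)).2
    rw [hd i j, RedData.rd_mul (hdO i) (hb j).1, ← hBbi j] at h
    apply (algebraMap k⟮D.rd t⟯ Fb).injective
    rw [← h]
    split_ifs <;> simp
  -- the dual basis lies in the trace dual of `B`
  have hInDual : ∀ i, InDual K t (dB i) := by
    intro i y hy
    obtain ⟨p, hp⟩ := (Submodule.mem_span_range_iff_exists_fun _).1 (hbspan y hy)
    let p' : Fin (Module.finrank K⟮t⟯ F) → K⟮t⟯ :=
      fun j => ⟨(p j : F), algebra_adjoin_le_adjoin K {t} (p j).2⟩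
    have hy' : y = ∑ j, p' j • B j := by
      rw [← hp]
      refine Finset.sum_congr rfl fun j _ => ?_
      rw [hBi j]
      rfl
    have htrace : Algebra.trace K⟮t⟯ F (dB i * y) = p' i := by
      rw [P7_trace_eq_repr B (dB i) i (fun j => by rw [hBi j]; exact hd i j) y, hy',
        B.repr_sum_self]
    obtain ⟨P, hP⟩ : ∃ P : K[X], aeval t P = (p i : F) := by
      have hmem : (p i : F) ∈ (aeval (R := K) t).range := by
        rw [← Algebra.adjoin_singleton_eq_range_aeval]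
        exact (p i).2
      exact hmem
    exact ⟨P, by rw [htrace, hP]; rfl⟩
  -- the branch condition
  have ht0 : t ≠ 0 := by
    rintro rfl
    apply htr
    rw [RedData.rd_zero]
    exact isAlgebraic_zero
  obtain ⟨S, hSne, hSA, hSdist, hSbr⟩ := P7_branch_nonempty D ht0 hBr
  have hβO : beta t S ∈ D.O := P7_beta_mem D htO S hSA
  have hrβ := P7_rd_beta D htO S hSA
  have hrβ0 : D.rd (beta t S) ≠ 0 := by
    rw [hrβ]
    exact Finset.prod_ne_zero_iff.2 fun c _ => P7_sub_ne_zero htr _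
  have key : ∀ i, ∃ R : k[X], algebraMap k⟮D.rd t⟯ Fb
      (Algebra.trace k⟮D.rd t⟯ Fb (D.rd (dB i) * yb)) = aeval (D.rd t) R := by
    intro i
    obtain ⟨m, hm, hw⟩ := hSbr (dB i) (hInDual i)
    have hnum : (dB i * beta t S) ^ m ∈ D.O := pow_mem (mul_mem (hdO i) hβO) m
    have hwO : (dB i * beta t S) ^ m / beta t S ∈ D.O := RedData.div_mem hnum hrβ0
    have hrw : D.rd ((dB i * beta t S) ^ m / beta t S)
        = (D.rd (dB i) * D.rd (beta t S)) ^ m / D.rd (beta t S) := by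
      rw [RedData.rd_div hnum hrβ0, RedData.rd_pow (mul_mem (hdO i) hβO),
        RedData.rd_mul (hdO i) hβO]
    have hwint : IsInt k (D.rd t) (D.rd ((dB i * beta t S) ^ m / beta t S)) :=
      h4 K F k Fb D t hC _ hwO hw
    rw [hrw] at hwint
    have hdiv : ∀ c ∈ S, ∃ P : k[X], algebraMap k⟮D.rd t⟯ Fb
        (Algebra.trace k⟮D.rd t⟯ Fb (D.rd (dB i) * D.rd (beta t S) * yb))
          = (D.rd t - algebraMap k Fb (D.ra c)) * aeval (D.rd t) P := by
      intro c hc
      apply h7 k Fb (D.rd t) htr inferInstance inferInstance (D.ra c) _ m hm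
      have hne1 := P7_sub_ne_zero htr (D.ra c)
      have hne2 : ∏ c' ∈ S.erase c, (D.rd t - algebraMap k Fb (D.ra c')) ≠ 0 :=
        Finset.prod_ne_zero_iff.2 fun c _ => P7_sub_ne_zero htr _
      have hsplit : D.rd (beta t S) = (D.rd t - algebraMap k Fb (D.ra c)) *
          ∏ c' ∈ S.erase c, (D.rd t - algebraMap k Fb (D.ra c')) := by
        rw [hrβ, Finset.mul_prod_erase S (fun c' => D.rd t - algebraMap k Fb (D.ra c')) hc]
      have e : (D.rd (dB i) * D.rd (beta t S) * yb) ^ m / (D.rd t - algebraMap k Fb (D.ra c))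
          = (D.rd (dB i) * D.rd (beta t S)) ^ m / D.rd (beta t S) * yb ^ m *
            ∏ c' ∈ S.erase c, (D.rd t - algebraMap k Fb (D.ra c')) := by
        rw [hsplit]
        generalize ∏ c' ∈ S.erase c, (D.rd t - algebraMap k Fb (D.ra c')) = pp at hne2 ⊢
        generalize D.rd t - algebraMap k Fb (D.ra c) = ee at hne1 ⊢
        field_simp
        rw [mul_pow _ yb]
      rw [e]
      exact (hwint.mul (hyb.pow m)).mul
        (IsIntegral.prod _ fun c' _ => P7_isInt_sub_const (D.rd t) _)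
    obtain ⟨c0, hc0⟩ := hSne
    obtain ⟨P0', hP0'⟩ := hdiv c0 hc0
    have hP0 : algebraMap k⟮D.rd t⟯ Fb
        (Algebra.trace k⟮D.rd t⟯ Fb (D.rd (dB i) * D.rd (beta t S) * yb))
          = aeval (D.rd t) ((X - C (D.ra c0)) * P0') := by
      rw [hP0']
      simp
    have hdvd : ∏ c ∈ S, (X - C (D.ra c)) ∣ (X - C (D.ra c0)) * P0' := by
      apply Finset.prod_dvd_of_coprime
      · intro c hc c' hc' hne
        exact isCoprime_X_sub_C_of_isUnit_sub (sub_ne_zero.2
          (P7_ra_ne D (hSA c hc) (hSA c' hc') hne (hSdist c hc c' hc' hne))).isUnit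
      · intro c hc
        obtain ⟨P, hP⟩ := hdiv c hc
        refine ⟨P, ?_⟩
        apply transcendental_iff_injective.1 htr
        rw [← hP0, hP]
        simp
    obtain ⟨R, hR⟩ := hdvd
    refine ⟨R, ?_⟩
    have hβmem : D.rd (beta t S) ∈ k⟮D.rd t⟯ := by
      rw [hrβ]
      exact prod_mem fun c _ => sub_mem (mem_adjoin_simple_self k _) (IntermediateField.algebraMap_mem _ _)
    have hs : D.rd (dB i) * D.rd (beta t S) * yb
        = (⟨D.rd (beta t S), hβmem⟩ : k⟮D.rd t⟯) • (D.rd (dB i) * yb) := by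
      rw [Algebra.smul_def]
      show _ = D.rd (beta t S) * (D.rd (dB i) * yb)
      ring
    rw [hs, map_smul, smul_eq_mul, RingHom.map_mul, hR, map_mul (aeval (R := k) (D.rd t)),
      map_prod (aeval (R := k) (D.rd t))] at hP0
    have hβ' : algebraMap k⟮D.rd t⟯ Fb (⟨D.rd (beta t S), hβmem⟩ : k⟮D.rd t⟯)
        = D.rd (beta t S) := rfl
    have hprod : ∏ c ∈ S, aeval (D.rd t) (X - C (D.ra c)) = D.rd (beta t S) := by
      rw [hrβ]
      refine Finset.prod_congr rfl fun c _ => ?_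
      simp
    rw [hβ', hprod] at hP0
    exact mul_left_cancel₀ hrβ0 hP0
  choose R hR using key
  choose Q hQ using fun i => Polynomial.map_surjective D.rA D.rA_surj (R i)
  refine ⟨∑ i, aeval t ((Q i).map D.A.subtype) * b i, ?_, ?_, ?_⟩
  · exact RedData.sum_mem _ _ fun i _ => mul_mem (hG1 (Q i)).1 (hb i).1
  · exact IsIntegral.sum _ fun i _ => (P7_isInt_aeval t _).mul (hb i).2
  · rw [RedData.rd_sum _ _ fun i _ => mul_mem (hG1 (Q i)).1 (hb i).1]
    conv_rhs => rw [← Bb.sum_repr yb]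
    refine Finset.sum_congr rfl fun i _ => ?_
    rw [RedData.rd_mul (hG1 (Q i)).1 (hb i).1, (hG1 (Q i)).2, hQ i, ← hR i,
      P7_trace_eq_repr Bb _ i (hdb i) yb, Algebra.smul_def, hBbi i]

end Fermat.Agent.INJ
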