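import Fermat.Agent.INJ.Interface

/-! # INJ / P7a : the trace of an element which is nilpotent modulo `(tb - c)` -/

set_option autoImplicit false

namespace Fermat.Agent.INJ

open Polynomial IntermediateField
open scoped IntermediateField.algebraAdjoinAdjoin

theorem P7a_isPrincipalIdealRing {k Fb : Type} [Field k] [Field Fb] [Algebra k Fb] {tb : Fb}
    (htb : Transcendental k tb) : IsPrincipalIdealRing (Algebra.adjoin k {tb}) :=
  IsPrincipalIdealRing.of_surjective
    (Polynomial.algEquivOfTranscendental k tb htb).toRingEquiv.toRingHom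
    (Polynomial.algEquivOfTranscendental k tb htb).surjective

/-- `tb - c` as an element of `k[tb]`. -/
def P7a_pi {k Fb : Type} [Field k] [Field Fb] [Algebra k Fb] (tb : Fb) (c : k) :
    Algebra.adjoin k {tb} :=
  ⟨tb - algebraMap k Fb c,
    sub_mem (Algebra.self_mem_adjoin_singleton k tb) (Subalgebra.algebraMap_mem _ c)⟩

theorem P7a_pi_prime {k Fb : Type} [Field k] [Field Fb] [Algebra k Fb] {tb : Fb}
    (htb : Transcendental k tb) (c : k) : Prime (P7a_pi tb c) := by
  have h : Polynomial.algEquivOfTranscendental k tb htb (X - C c) = P7a_pi tb c := by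
    apply Subtype.ext
    simp [P7a_pi]
  rw [← h]
  exact (MulEquiv.prime_iff (Polynomial.algEquivOfTranscendental k tb htb).toMulEquiv).mpr
    (Polynomial.prime_X_sub_C c)

theorem stmt_TraceNil : Stmt_TraceNil := by
  intro k Fb _ _ _ tb htb hfin hsep c s m hm hint
  have hPID := P7a_isPrincipalIdealRing htb
  set R := Algebra.adjoin k {tb} with hR
  set L := k⟮tb⟯ with hL
  set π : R := P7a_pi tb c with hπdef
  have hπ : Prime π := P7a_pi_prime htb c
  have hπFb : (π : Fb) = tb - algebraMap k Fb c := rfl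
  have hπ0 : (tb - algebraMap k Fb c) ≠ 0 := by
    intro h
    apply hπ.ne_zero
    exact Subtype.ext h
  set w : Fb := s ^ m / (tb - algebraMap k Fb c) with hw
  have hsw : s ^ m = algebraMap R Fb π * w := by
    show s ^ m = (tb - algebraMap k Fb c) * w
    rw [hw]; field_simp
  have hwint : IsIntegral R w := hint
  have hsint : IsIntegral R s := by
    refine IsIntegral.of_pow hm ?_
    rw [hsw]
    exact isIntegral_algebraMap.mul hwint
  -- the big field
  let E := AlgebraicClosure L
  have hcomp : ∀ σ : Fb →ₐ[L] E, (algebraMap R E).comp (RingHom.id R) =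
      (σ : Fb →+* E).comp (algebraMap R Fb) := by
    intro σ
    ext x
    simp only [RingHom.comp_id, RingHom.comp_apply, RingHom.coe_coe]
    rw [IsScalarTower.algebraMap_apply R L E, IsScalarTower.algebraMap_apply R L Fb,
      AlgHom.commutes]
  have hσint : ∀ (σ : Fb →ₐ[L] E) {x : Fb}, IsIntegral R x → IsIntegral R (σ x) :=
    fun σ x hx => IsIntegral.map_of_comp_eq (RingHom.id R) (σ : Fb →+* E) (hcomp σ) hx
  let Ch := integralClosure R E
  let I : Ideal Ch := Ideal.span {algebraMap R Ch π}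
  have hrad : ∀ σ : Fb →ₐ[L] E, (⟨σ s, hσint σ hsint⟩ : Ch) ∈ I.radical := by
    intro σ
    refine ⟨m, ?_⟩
    rw [Ideal.mem_span_singleton]
    refine ⟨⟨σ w, hσint σ hwint⟩, ?_⟩
    apply Subtype.ext
    show (σ s) ^ m = algebraMap R E π * σ w
    rw [← map_pow, hsw, map_mul]
    congr 1
    exact (RingHom.congr_fun (hcomp σ) π).symm
  have hsum : (∑ σ : Fb →ₐ[L] E, (⟨σ s, hσint σ hsint⟩ : Ch)) ∈ I.radical :=
    Ideal.sum_mem _ fun σ _ => hrad σ
  obtain ⟨N, hN⟩ := hsum
  rw [Ideal.mem_span_singleton] at hN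
  obtain ⟨y, hy⟩ := hN
  set T : L := Algebra.trace L Fb s with hT
  have hTE : algebraMap L E T = ∑ σ : Fb →ₐ[L] E, σ s := trace_eq_sum_embeddings E
  have hyE : (algebraMap L E T) ^ N = algebraMap R E π * (y : E) := by
    have := congrArg (Subtype.val) hy
    rw [hTE]
    simpa using this
  -- `T` comes from `R`
  have hTint : IsIntegral R T := Algebra.isIntegral_trace hsint
  obtain ⟨T₀, hT₀⟩ := IsIntegrallyClosed.isIntegral_iff.1 hTint
  have hπL : algebraMap R L π ≠ 0 := by
    rw [Ne, map_eq_zero_iff _ (IsFractionRing.injective R L)]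
    exact hπ.ne_zero
  have hy' : algebraMap L E (T ^ N / algebraMap R L π) = (y : E) := by
    rw [map_div₀, map_pow, hyE, ← IsScalarTower.algebraMap_apply R L E]
    have : algebraMap R E π ≠ 0 := by
      rw [IsScalarTower.algebraMap_apply R L E]
      exact (_root_.map_ne_zero _).2 hπL
    rw [mul_div_assoc, mul_comm, div_mul_cancel₀ _ this]
  have hyint : IsIntegral R (T ^ N / algebraMap R L π) := by
    rw [← isIntegral_algebraMap_iff (algebraMap L E).injective, hy']
    exact y.2
  obtain ⟨y₁, hy₁⟩ := IsIntegrallyClosed.isIntegral_iff.1 hyint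
  have hdvd : π ∣ T₀ ^ N := by
    refine ⟨y₁, ?_⟩
    apply IsFractionRing.injective R L
    rw [map_pow, map_mul, hT₀, hy₁]
    field_simp
  obtain ⟨Q, hQ⟩ := hπ.dvd_of_dvd_pow hdvd
  have hQmem : (Q : Fb) ∈ (aeval tb : k[X] →ₐ[k] Fb).range := by
    rw [← Algebra.adjoin_singleton_eq_range_aeval]; exact Q.2
  obtain ⟨P, hP⟩ := hQmem
  refine ⟨P, ?_⟩
  have h1 : algebraMap L Fb T = (T₀ : Fb) := by
    rw [← hT₀]; rfl
  rw [h1, hQ]
  show (π : Fb) * (Q : Fb) = _
  rw [hπFb]
  congr 1
  exact hP.symm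

end Fermat.Agent.INJ
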