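import Fermat.Agent.INJ.Interface

/-!
# INJ, package P8 : the reduction of `M = {x : x^m u ∈ B}` is trivial (`Stmt_LocTriv`)
-/

set_option autoImplicit false

namespace Fermat.Agent.INJ

open Polynomial IntermediateField

open scoped IntermediateField.algebraAdjoinAdjoin

section Gen

variable {K F : Type*} [Field K] [Field F] [Algebra K F]

theorem P8_mem_adjoin_iff (t x : F) : x ∈ Algebra.adjoin K {t} ↔ ∃ P : K[X], aeval t P = x := by
  rw [Algebra.adjoin_singleton_eq_range_aeval]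
  exact Iff.rfl

theorem P8_mem_span_iff {ι : Type*} [Fintype ι] (t : F) (e : ι → F) (x : F) :
    x ∈ Submodule.span (Algebra.adjoin K {t}) (Set.range e) ↔
      ∃ P : ι → K[X], x = ∑ i, aeval t (P i) * e i := by
  rw [Submodule.mem_span_range_iff_exists_fun]
  constructor
  · rintro ⟨c, rfl⟩
    have h : ∀ i, ∃ P : K[X], aeval t P = (c i : F) := fun i => (P8_mem_adjoin_iff t _).1 (c i).2
    choose P hP using h
    refine ⟨P, Finset.sum_congr rfl fun i _ => ?_⟩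
    rw [hP]; rfl
  · rintro ⟨P, rfl⟩
    refine ⟨fun i => ⟨aeval t (P i), (P8_mem_adjoin_iff t _).2 ⟨_, rfl⟩⟩, rfl⟩

theorem P8_isInt_aeval (t : F) (P : K[X]) : IsInt K t (aeval t P) :=
  isIntegral_algebraMap (R := Algebra.adjoin K {t})
    (x := ⟨aeval t P, (P8_mem_adjoin_iff t _).2 ⟨_, rfl⟩⟩)

theorem P8_aeval_mem_field (t : F) (P : K[X]) : aeval t P ∈ K⟮t⟯ :=
  IntermediateField.algebra_adjoin_le_adjoin K {t} ((P8_mem_adjoin_iff t _).2 ⟨_, rfl⟩)

theorem P8_isInt_sum {ι : Type*} (s : Finset ι) (t : F) (f : ι → F)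
    (h : ∀ i ∈ s, IsInt K t (f i)) : IsInt K t (∑ i ∈ s, f i) :=
  IsIntegral.sum (R := Algebra.adjoin K {t}) f h

end Gen

section PID

/-- A submodule of full rank of a lattice over a PID has a basis with the right number of
elements. -/
theorem P8_exists_basis (R L V : Type*) [CommRing R] [IsDomain R] [IsPrincipalIdealRing R]
    [Field L] [Algebra R L] [IsFractionRing R L] [AddCommGroup V] [Module R V] [Module L V]
    [IsScalarTower R L V] (n : ℕ) (N : Submodule R V) (w v : Fin n → V)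
    (hw : LinearIndependent L w) (hN : N ≤ Submodule.span R (Set.range w))
    (hv : LinearIndependent L v) (hvN : ∀ i, v i ∈ N) :
    ∃ eb : Fin n → V, LinearIndependent L eb ∧ Submodule.span R (Set.range eb) = N := by
  have hwR : LinearIndependent R w := (LinearIndependent.iff_fractionRing R L).2 hw
  obtain ⟨n', bN⟩ := Submodule.basisOfPidOfLE hN (Module.Basis.span hwR)
  have hbR : LinearIndependent R (fun i => (bN i : V)) :=
    bN.linearIndependent.map' N.subtype (Submodule.ker_subtype N)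
  have hbL : LinearIndependent L (fun i => (bN i : V)) :=
    (LinearIndependent.iff_fractionRing R L).1 hbR
  have hspan : Submodule.span R (Set.range fun i => (bN i : V)) = N := by
    have h1 : (Set.range fun i => (bN i : V)) = N.subtype '' (Set.range bN) := by
      rw [← Set.range_comp]; rfl
    rw [h1, ← Submodule.map_span, bN.span_eq, Submodule.map_subtype_top]
  have key : ∀ (p q : ℕ) (a : Fin p → V) (c : Fin q → V), LinearIndependent L a →
      (∀ i, a i ∈ Submodule.span L (Set.range c)) → p ≤ q := by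
    intro p q a c ha hac
    have h1 : Submodule.span L (Set.range a) ≤ Submodule.span L (Set.range c) := by
      rw [Submodule.span_le]; rintro _ ⟨i, rfl⟩; exact hac i
    have : Module.Finite L (Submodule.span L (Set.range c)) :=
      Module.Finite.span_of_finite L (Set.finite_range c)
    have h2 := Submodule.finrank_mono h1
    rw [finrank_span_eq_card ha, Fintype.card_fin] at h2
    have h3 := finrank_range_le_card (R := L) c
    rw [Fintype.card_fin] at h3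
    exact h2.trans h3
  have hRL : ∀ (S : Set V), (Submodule.span R S : Set V) ⊆ Submodule.span L S := by
    intro S
    exact Submodule.span_le_restrictScalars R L S
  have h1 : n' ≤ n := key n' n _ w hbL fun i => hRL _ (hN (bN i).2)
  have h2 : n ≤ n' := key n n' v _ hv fun i => hRL _ (hspan ▸ hvN i)
  have h3 : n' = n := le_antisymm h1 h2
  subst h3
  exact ⟨_, hbL, hspan⟩

end PID

section Core

variable {K F k Fb : Type} [Field K] [Field F] [Algebra K F] [Field k] [Field Fb] [Algebra k Fb]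

/-- coordinates of an element of `O` with respect to an orthonormal family are in `A[t]`. -/
theorem P8_coord (h1 : Stmt_Gauss) (h2 : Stmt_Ortho) (D : RedData K F k Fb) (t : F)
    (ht : t ∈ D.O) (htr : Transcendental k (D.rd t)) {ι : Type} [Fintype ι] (e : ι → F)
    (he : ∀ i, e i ∈ D.O) (hli : LinearIndependent k⟮D.rd t⟯ (fun i => D.rd (e i)))
    (P : ι → K[X]) (hy : ∑ i, aeval t (P i) * e i ∈ D.O) :
    ∃ Q : ι → (D.A)[X], (∀ i, (Q i).map D.A.subtype = P i) ∧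
      D.rd (∑ i, aeval t (P i) * e i) = ∑ i, aeval (D.rd t) ((Q i).map D.rA) * D.rd (e i) := by
  obtain ⟨g1, g2, -, -, -⟩ := h1 K F k Fb D t ht htr
  obtain ⟨-, o2⟩ := h2 K F k Fb D t ht htr ι e he hli
  have hc := o2 (fun i => ⟨aeval t (P i), P8_aeval_mem_field t (P i)⟩) hy
  have hQ : ∀ i, ∃ Q : (D.A)[X], Q.map D.A.subtype = P i := fun i => g2 (P i) (hc i)
  choose Q hQ using hQ
  refine ⟨Q, hQ, ?_⟩
  rw [RedData.rd_sum _ _ fun i _ => mul_mem (hc i) (he i)]
  refine Finset.sum_congr rfl fun i _ => ?_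
  rw [RedData.rd_mul (hc i) (he i), ← hQ i, (g1 (Q i)).2]

/-- the reduction of a `K[t]`-submodule of `F`, as a `k[tbar]`-submodule of `Fb`. -/
def P8_Mbar (h1 : Stmt_Gauss) (D : RedData K F k Fb) (t : F)
    (ht : t ∈ D.O) (htr : Transcendental k (D.rd t)) (Λ : Submodule (Algebra.adjoin K {t}) F) :
    Submodule (Algebra.adjoin k {D.rd t}) Fb where
  carrier := {yb | ∃ x ∈ Λ, x ∈ D.O ∧ D.rd x = yb}
  zero_mem' := ⟨0, Λ.zero_mem, D.O.zero_mem, RedData.rd_zero⟩
  add_mem' := by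
    rintro _ _ ⟨x, hx, hxO, rfl⟩ ⟨y, hy, hyO, rfl⟩
    exact ⟨x + y, Λ.add_mem hx hy, add_mem hxO hyO, RedData.rd_add hxO hyO⟩
  smul_mem' := by
    rintro c _ ⟨x, hx, hxO, rfl⟩
    obtain ⟨g1, -, -, -, -⟩ := h1 K F k Fb D t ht htr
    obtain ⟨Pb, hPb⟩ := (P8_mem_adjoin_iff (D.rd t) _).1 c.2
    obtain ⟨Q, rfl⟩ := Polynomial.map_surjective D.rA D.rA_surj Pb
    refine ⟨aeval t (Q.map D.A.subtype) * x, ?_, mul_mem (g1 Q).1 hxO, ?_⟩
    · exact Λ.smul_mem ⟨aeval t (Q.map D.A.subtype), (P8_mem_adjoin_iff t _).2 ⟨_, rfl⟩⟩ hx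
    · rw [RedData.rd_mul (g1 Q).1 hxO, (g1 Q).2, hPb]; rfl

theorem P8_mem_Mbar (h1 : Stmt_Gauss) (D : RedData K F k Fb) (t : F)
    (ht : t ∈ D.O) (htr : Transcendental k (D.rd t)) (Λ : Submodule (Algebra.adjoin K {t}) F)
    (yb : Fb) : yb ∈ P8_Mbar h1 D t ht htr Λ ↔ ∃ x ∈ Λ, x ∈ D.O ∧ D.rd x = yb := Iff.rfl

/-- elements of `M_v ∩ O` reduce into `span_{k[tbar]} (rd b)`. -/
theorem P8_red_mem (h1 : Stmt_Gauss) (h2 : Stmt_Ortho) (h4 : Stmt_IntRed) (h7 : Stmt_Normal)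
    [IsAlgClosed K] [CharZero K] (D : RedData K F k Fb) (t : F) (hch : Chart D t)
    (hbr : Branch D t) {n : ℕ} (b : Fin n → F) (hb : ∀ i, b i ∈ D.O)
    (hbs : ∀ x, IsInt K t x → x ∈ Submodule.span (Algebra.adjoin K {t}) (Set.range b))
    (hbli : LinearIndependent k⟮D.rd t⟯ (fun i => D.rd (b i)))
    (v : F) (m : ℕ) (hm : 0 < m) (hv : D.rd v = 1) (x : F) (hx : x ∈ D.O)
    (hxi : IsInt K t (x ^ m * v)) :
    D.rd x ∈ Submodule.span (Algebra.adjoin k {D.rd t}) (Set.range fun i => D.rd (b i)) := by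
  have hvO : v ∈ D.O := RedData.mem_of_rd_ne_zero (by rw [hv]; exact one_ne_zero)
  have hi := h4 K F k Fb D t hch (x ^ m * v) (mul_mem (pow_mem hx m) hvO) hxi
  rw [RedData.rd_mul (pow_mem hx m) hvO, hv, mul_one, RedData.rd_pow hx] at hi
  have hi' : IsInt k (D.rd t) (D.rd x) := IsIntegral.of_pow hm hi
  obtain ⟨y, hyO, hyi, hyx⟩ := h7 K F k Fb D t hch hbr (D.rd x) hi'
  obtain ⟨P, hP⟩ := (P8_mem_span_iff t b y).1 (hbs y hyi)
  obtain ⟨Q, -, hQ⟩ := P8_coord h1 h2 D t hch.t_mem hch.trans b hb hbli P (hP ▸ hyO)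
  rw [← hyx, hP, hQ]
  exact (P8_mem_span_iff (D.rd t) _ _).2 ⟨_, rfl⟩

/-- a primitive denominator. -/
theorem P8_exists_den (h1 : Stmt_Gauss) (D : RedData K F k Fb) (t : F)
    (ht : t ∈ D.O) (htr : Transcendental k (D.rd t)) [FiniteDimensional K⟮t⟯ F] (v : F) :
    ∃ Q : (D.A)[X], Q.map D.rA ≠ 0 ∧ IsInt K t (aeval t (Q.map D.A.subtype) * v) := by
  obtain ⟨-, -, g3, -, -⟩ := h1 K F k Fb D t ht htr
  have ha : IsAlgebraic K⟮t⟯ v := Algebra.IsAlgebraic.isAlgebraic v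
  have ha' : IsAlgebraic (Algebra.adjoin K {t}) v :=
    (IsFractionRing.isAlgebraic_iff (Algebra.adjoin K {t}) K⟮t⟯ F).2 ha
  obtain ⟨y, hy0, hy⟩ := ha'.exists_integral_multiple
  obtain ⟨P, hP⟩ := (P8_mem_adjoin_iff t _).1 y.2
  have hP0 : P ≠ 0 := by
    rintro rfl
    apply hy0
    apply Subtype.ext
    rw [← hP]; simp
  obtain ⟨a, Q, ha0, hPQ, hQ⟩ := g3 P hP0
  refine ⟨Q, hQ, ?_⟩
  have h3 : aeval t (Q.map D.A.subtype) * v = aeval t (C a⁻¹ : K[X]) * (y • v) := by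
    have : y • v = aeval t P * v := by rw [hP]; rfl
    rw [this, hPQ, map_mul, aeval_C, aeval_C, ← mul_assoc, ← mul_assoc, ← map_mul,
      inv_mul_cancel₀ ha0, map_one, one_mul]
  rw [h3]
  exact IsIntegral.mul (P8_isInt_aeval t _) hy

theorem P8_pid {k Fb : Type*} [Field k] [Field Fb] [Algebra k Fb] {x : Fb}
    (hx : Transcendental k x) : IsPrincipalIdealRing (Algebra.adjoin k {x}) :=
  IsPrincipalIdealRing.of_surjective
    (Polynomial.algEquivOfTranscendental k x hx).toRingEquiv.toRingHom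
    (Polynomial.algEquivOfTranscendental k x hx).surjective

/-- `M_v` has a `K[t]`-basis in `O` whose reduction is a basis of the reduction of `M_v`. -/
theorem P8_lift_basis (h1 : Stmt_Gauss) (h2 : Stmt_Ortho) (h4 : Stmt_IntRed) (h5 : Stmt_Lift)
    (h7 : Stmt_Normal) (h8a : Stmt_MLattice)
    [IsAlgClosed K] [CharZero K] (D : RedData K F k Fb) (t : F) (hch : Chart D t)
    (hbr : Branch D t) (b : Fin (Module.finrank K⟮t⟯ F) → F) (hb : ∀ i, b i ∈ D.O)
    (hbi : ∀ i, IsInt K t (b i))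
    (hbs : ∀ x, IsInt K t x → x ∈ Submodule.span (Algebra.adjoin K {t}) (Set.range b))
    (hbli : LinearIndependent k⟮D.rd t⟯ (fun i => D.rd (b i)))
    (v : F) (m : ℕ) (hm : 0 < m) (hv : D.rd v = 1) :
    ∃ e : Fin (Module.finrank K⟮t⟯ F) → F, (∀ i, e i ∈ D.O) ∧
      (∀ z, z ∈ Submodule.span (Algebra.adjoin K {t}) (Set.range e) ↔ IsInt K t (z ^ m * v)) ∧
      LinearIndependent k⟮D.rd t⟯ (fun i => D.rd (e i)) ∧
      (∀ yb, yb ∈ Submodule.span (Algebra.adjoin k {D.rd t}) (Set.range fun i => D.rd (e i)) ↔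
        ∃ x ∈ D.O, IsInt K t (x ^ m * v) ∧ D.rd x = yb) := by
  have ht := hch.t_mem
  have htr := hch.trans
  have hfin := hch.fin
  obtain ⟨g1, -, -, g4, -⟩ := h1 K F k Fb D t ht htr
  have hv0 : v ≠ 0 := by
    rintro rfl
    rw [RedData.rd_zero] at hv
    exact zero_ne_one hv
  obtain ⟨Λ, l, hΛ, hl, hlli⟩ := h8a K F t v m g4 hfin hv0 hm
  -- the reduction of `Λ`
  set N := P8_Mbar h1 D t ht htr Λ with hN
  have hNle : N ≤ Submodule.span (Algebra.adjoin k {D.rd t}) (Set.range fun i => D.rd (b i)) := by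
    rintro _ ⟨x, hx, hxO, rfl⟩
    exact P8_red_mem h1 h2 h4 h7 D t hch hbr b hb hbs hbli v m hm hv x hxO ((hΛ x).1 hx)
  -- full rank
  obtain ⟨Q, hQ0, hQ⟩ := P8_exists_den h1 D t ht htr v
  have hQb : aeval (D.rd t) (Q.map D.rA) ≠ 0 := fun h => hQ0 (transcendental_iff.1 htr _ h)
  have hfam : ∀ i, aeval (D.rd t) (Q.map D.rA) * D.rd (b i) ∈ N := by
    intro i
    refine ⟨aeval t (Q.map D.A.subtype) * b i, (hΛ _).2 ?_, mul_mem (g1 Q).1 (hb i), ?_⟩
    · obtain ⟨m', rfl⟩ : ∃ m', m = m' + 1 := ⟨m - 1, by omega⟩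
      have : (aeval t (Q.map D.A.subtype) * b i) ^ (m' + 1) * v =
          aeval t (Q.map D.A.subtype) ^ m' * b i ^ (m' + 1) *
            (aeval t (Q.map D.A.subtype) * v) := by ring
      rw [this]
      exact IsIntegral.mul (IsIntegral.mul (IsIntegral.pow (P8_isInt_aeval t _) _)
        (IsIntegral.pow (hbi i) _)) hQ
    · rw [RedData.rd_mul (g1 Q).1 (hb i), (g1 Q).2]
  have hfamli : LinearIndependent k⟮D.rd t⟯
      (fun i => aeval (D.rd t) (Q.map D.rA) * D.rd (b i)) := by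
    let c : k⟮D.rd t⟯ := ⟨aeval (D.rd t) (Q.map D.rA), P8_aeval_mem_field _ _⟩
    have hc0 : c ≠ 0 := fun h => hQb (congrArg Subtype.val h)
    exact hbli.units_smul (fun _ => Units.mk0 c hc0)
  have hpid := P8_pid htr
  obtain ⟨eb, hebli, hebspan⟩ := P8_exists_basis (Algebra.adjoin k {D.rd t}) k⟮D.rd t⟯ Fb _ N
    (fun i => D.rd (b i)) _ hbli hNle hfamli hfam
  obtain ⟨e, heO, hespan, heli, hered⟩ := h5 K F k Fb D t ht htr _ Λ l hl hlli eb hebli
    (fun x hx hxO => hebspan ▸ (⟨x, hx, hxO, rfl⟩ : D.rd x ∈ N))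
    (fun i => by
      have : eb i ∈ N := hebspan ▸ Submodule.subset_span ⟨i, rfl⟩
      exact this)
  refine ⟨e, heO, fun z => by rw [hespan, hΛ], heli, fun yb => ?_⟩
  rw [hered, hebspan]
  constructor
  · rintro ⟨x, hx, hxO, rfl⟩
    exact ⟨x, hxO, (hΛ x).1 hx, rfl⟩
  · rintro ⟨x, hxO, hx, rfl⟩
    exact ⟨x, (hΛ x).2 hx, hxO, rfl⟩

/-- the transition matrix from an orthonormal basis `b` to a family `e ⊆ O` and its reduction. -/
theorem P8_matrix (h1 : Stmt_Gauss) (h2 : Stmt_Ortho) (D : RedData K F k Fb) (t : F)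
    (ht : t ∈ D.O) (htr : Transcendental k (D.rd t)) [FiniteDimensional K⟮t⟯ F]
    (b e : Fin (Module.finrank K⟮t⟯ F) → F) (hb : ∀ i, b i ∈ D.O)
    (hbli : LinearIndependent k⟮D.rd t⟯ (fun i => D.rd (b i))) (he : ∀ i, e i ∈ D.O)
    (heli : LinearIndependent k⟮D.rd t⟯ (fun i => D.rd (e i)))
    (hered : ∀ i, D.rd (e i) ∈
      Submodule.span (Algebra.adjoin k {D.rd t}) (Set.range fun i => D.rd (b i))) :
    ∃ (T : Matrix (Fin (Module.finrank K⟮t⟯ F)) (Fin (Module.finrank K⟮t⟯ F)) K⟮t⟯)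
      (P : Matrix (Fin (Module.finrank K⟮t⟯ F)) (Fin (Module.finrank K⟮t⟯ F)) k[X]),
      (∀ i, e i = ∑ j, (T i j : F) * b j) ∧
      (∀ i, D.rd (e i) = ∑ j, aeval (D.rd t) (P i j) * D.rd (b j)) ∧
      P.det ≠ 0 ∧ (T.det : F) ∈ D.O ∧ D.rd (T.det : F) = aeval (D.rd t) P.det := by
  obtain ⟨-, -, -, -, g5⟩ := h1 K F k Fb D t ht htr
  obtain ⟨o1, o2⟩ := h2 K F k Fb D t ht htr _ b hb hbli
  have htop : Submodule.span K⟮t⟯ (Set.range b) = ⊤ :=
    o1.span_eq_top_of_card_eq_finrank' (Fintype.card_fin _)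
  have hT : ∀ i, ∃ c : Fin (Module.finrank K⟮t⟯ F) → K⟮t⟯, ∑ j, c j • b j = e i := fun i =>
    (Submodule.mem_span_range_iff_exists_fun K⟮t⟯).1 (htop ▸ Submodule.mem_top)
  choose T hT using hT
  have hT' : ∀ i, e i = ∑ j, (T i j : F) * b j := fun i => (hT i).symm
  have hTO : ∀ i j, (T i j : F) ∈ D.O := fun i => o2 (T i) (hT' i ▸ he i)
  have hP : ∀ i, ∃ P : Fin (Module.finrank K⟮t⟯ F) → k[X],
      D.rd (e i) = ∑ j, aeval (D.rd t) (P j) * D.rd (b j) := fun i =>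
    (P8_mem_span_iff (D.rd t) _ _).1 (hered i)
  choose P hP using hP
  have hTP : ∀ i j, D.rd (T i j : F) = aeval (D.rd t) (P i j) := by
    intro i
    have h3 : D.rd (e i) = ∑ j, D.rd (T i j : F) * D.rd (b j) := by
      conv_lhs => rw [hT' i]
      rw [RedData.rd_sum _ _ fun j _ => mul_mem (hTO i j) (hb j)]
      exact Finset.sum_congr rfl fun j _ => RedData.rd_mul (hTO i j) (hb j)
    have h4 : ∑ j, ((⟨D.rd (T i j : F), g5 _ (hTO i j)⟩ : k⟮D.rd t⟯) -
        ⟨aeval (D.rd t) (P i j), P8_aeval_mem_field _ _⟩) • D.rd (b j) = 0 := by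
      have : ∀ j, ((⟨D.rd (T i j : F), g5 _ (hTO i j)⟩ : k⟮D.rd t⟯) -
          ⟨aeval (D.rd t) (P i j), P8_aeval_mem_field _ _⟩) • D.rd (b j) =
          D.rd (T i j : F) * D.rd (b j) - aeval (D.rd t) (P i j) * D.rd (b j) := by
        intro j
        rw [sub_smul]; rfl
      simp only [this, Finset.sum_sub_distrib]
      rw [← h3, ← hP i, sub_self]
    intro j
    have h5 := Fintype.linearIndependent_iff.1 hbli _ h4 j
    exact congrArg Subtype.val (sub_eq_zero.1 h5)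
  refine ⟨Matrix.of T, Matrix.of P, hT', hP, ?_, ?_⟩
  · intro hdet
    obtain ⟨w, hw0, hw⟩ := Matrix.exists_vecMul_eq_zero_iff.2 hdet
    apply hw0
    have h6 : ∑ i, (⟨aeval (D.rd t) (w i), P8_aeval_mem_field _ _⟩ : k⟮D.rd t⟯) • D.rd (e i)
        = 0 := by
      have : ∀ i, (⟨aeval (D.rd t) (w i), P8_aeval_mem_field _ _⟩ : k⟮D.rd t⟯) • D.rd (e i) =
          ∑ j, aeval (D.rd t) (w i * P i j) * D.rd (b j) := by
        intro i
        have : (⟨aeval (D.rd t) (w i), P8_aeval_mem_field _ _⟩ : k⟮D.rd t⟯) • D.rd (e i) =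
          aeval (D.rd t) (w i) * D.rd (e i) := rfl
        rw [this, hP i, Finset.mul_sum]
        exact Finset.sum_congr rfl fun j _ => by rw [map_mul, mul_assoc]
      simp only [this]
      rw [Finset.sum_comm]
      refine Finset.sum_eq_zero fun j _ => ?_
      rw [← Finset.sum_mul, ← map_sum]
      have h7 : ∑ i, w i * P i j = 0 := congrFun hw j
      rw [h7, map_zero, zero_mul]
    funext i
    have h8 := Fintype.linearIndependent_iff.1 heli _ h6 i
    exact transcendental_iff.1 htr _ (congrArg Subtype.val h8)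
  · let TO : Matrix (Fin (Module.finrank K⟮t⟯ F)) (Fin (Module.finrank K⟮t⟯ F)) D.O :=
      Matrix.of fun i j => ⟨(T i j : F), hTO i j⟩
    have h9 : ((Matrix.of T).det : F) = (TO.det : F) := by
      have e1 : ((Matrix.of T).det : F) = algebraMap K⟮t⟯ F (Matrix.of T).det := rfl
      have e2 : (TO.det : F) = D.O.subtype TO.det := rfl
      rw [e1, e2, RingHom.map_det, RingHom.map_det]
      rfl
    rw [h9]
    refine ⟨TO.det.2, ?_⟩
    rw [RedData.rd_of_mem TO.det.2]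
    have e3 : aeval (D.rd t) (Matrix.of P).det =
        (aeval (D.rd t) : k[X] →ₐ[k] Fb).toRingHom (Matrix.of P).det := rfl
    rw [e3, RingHom.map_det, RingHom.map_det]
    congr 1
    ext i j
    show D.rO ⟨(T i j : F), hTO i j⟩ = aeval (D.rd t) (P i j)
    rw [← hTP i j, RedData.rd_of_mem (hTO i j)]

theorem P8_locPow_inv (t u : F) (m : ℕ) (h : LocPow K t u m) : LocPow K t u⁻¹ m := by
  intro c
  obtain ⟨α, R, hα, hR, h1, h2⟩ := h c
  refine ⟨α⁻¹, R, inv_ne_zero hα, hR, ?_, ?_⟩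
  · have : α⁻¹ ^ m * u⁻¹ = (α ^ m * u)⁻¹ := by rw [mul_inv, inv_pow]
    rw [this]; exact h2
  · have : (α⁻¹ ^ m * u⁻¹)⁻¹ = α ^ m * u := by rw [mul_inv, inv_pow, inv_inv, inv_inv]
    rw [this]; exact h1

end Core

/-- **P8** : the reduction of `M` is trivial. -/
theorem stmt_LocTriv (h1 : Stmt_Gauss) (h2 : Stmt_Ortho) (h4 : Stmt_IntRed) (h5 : Stmt_Lift)
    (h6 : Stmt_BBasis) (h7 : Stmt_Normal) (h8a : Stmt_MLattice) (h8b : Stmt_DetConst) :
    Stmt_LocTriv := by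
  intro K F k Fb _ _ _ _ _ _ _ _ D t hch hbr u m hm hu hloc
  have ht := hch.t_mem
  have htr := hch.trans
  have hfin := hch.fin
  obtain ⟨-, -, -, g4, -⟩ := h1 K F k Fb D t ht htr
  obtain ⟨b, hb, hbs, hbli⟩ := h6 K F k Fb D t hch
  have hbO : ∀ i, b i ∈ D.O := fun i => (hb i).1
  have hbi : ∀ i, IsInt K t (b i) := fun i => (hb i).2
  have hu0 : u ≠ 0 := by
    rintro rfl
    rw [RedData.rd_zero] at hu
    exact zero_ne_one hu
  have hu' : D.rd u⁻¹ = 1 := by
    rw [RedData.rd_inv (by rw [hu]; exact one_ne_zero), hu, inv_one]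
  obtain ⟨x, hxO, hxspan, hxli, hxred⟩ :=
    P8_lift_basis h1 h2 h4 h5 h7 h8a D t hch hbr b hbO hbi hbs hbli u m hm hu
  obtain ⟨y, hyO, hyspan, hyli, hyred⟩ :=
    P8_lift_basis h1 h2 h4 h5 h7 h8a D t hch hbr b hbO hbi hbs hbli u⁻¹ m hm hu'
  have hxi : ∀ i, IsInt K t (x i ^ m * u) := fun i =>
    (hxspan _).1 (Submodule.subset_span ⟨i, rfl⟩)
  have hyi : ∀ i, IsInt K t (y i ^ m * u⁻¹) := fun i =>
    (hyspan _).1 (Submodule.subset_span ⟨i, rfl⟩)
  refine ⟨?_, x, fun i => ⟨hxO i, hxi i⟩, fun z hz => (hxspan z).2 hz, hxli⟩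
  -- transition matrices
  obtain ⟨TM, P, hTM, hP, hPdet, hTMO, hTMrd⟩ := P8_matrix h1 h2 D t ht htr b x hbO hbli hxO hxli
    (fun i => P8_red_mem h1 h2 h4 h7 D t hch hbr b hbO hbs hbli u m hm hu _ (hxO i) (hxi i))
  obtain ⟨TN, P', hTN, -, hPdet', hTNO, hTNrd⟩ :=
    P8_matrix h1 h2 D t ht htr b y hbO hbli hyO hyli
    (fun i => P8_red_mem h1 h2 h4 h7 D t hch hbr b hbO hbs hbli u⁻¹ m hm hu' _ (hyO i) (hyi i))
  obtain ⟨o1, -⟩ := h2 K F k Fb D t ht htr _ b hbO hbli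
  have hbspan : ∀ z, z ∈ Submodule.span (Algebra.adjoin K {t}) (Set.range b) ↔ IsInt K t z := by
    intro z
    refine ⟨fun hz => ?_, hbs z⟩
    obtain ⟨Q, rfl⟩ := (P8_mem_span_iff t b z).1 hz
    exact P8_isInt_sum _ t _ fun i _ => IsIntegral.mul (P8_isInt_aeval t _) (hbi i)
  obtain ⟨c, hc0, hc⟩ := h8b K F t u m g4 hfin hu0 hm hloc _ b x y o1 hbspan hxspan hyspan
    TM TN hTM hTN
  have hcF : (TM.det : F) * (TN.det : F) = algebraMap K F c := congrArg Subtype.val hc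
  have hcA : c ∈ D.A := (D.mem_iff c).1 (hcF ▸ mul_mem hTMO hTNO)
  have hdet : P.det * P'.det = C (D.ra c) := by
    apply transcendental_iff_injective.1 htr
    rw [map_mul, ← hTMrd, ← hTNrd, ← RedData.rd_mul hTMO hTNO, hcF, RedData.rd_algebraMap hcA,
      aeval_C]
  have hunit : IsUnit P.det := by
    have hne : D.ra c ≠ 0 := by
      intro h
      rw [h, C_0] at hdet
      exact (mul_ne_zero hPdet hPdet') hdet
    have : IsUnit (P.det * P'.det) := by
      rw [hdet]; exact Polynomial.isUnit_C.2 (isUnit_iff_ne_zero.2 hne)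
    exact isUnit_of_mul_isUnit_left this
  -- `rd b j` lies in the span of the `rd x i`
  have hbx : ∀ j, D.rd (b j) ∈
      Submodule.span (Algebra.adjoin k {D.rd t}) (Set.range fun i => D.rd (x i)) := by
    intro j
    refine (P8_mem_span_iff (D.rd t) _ _).2 ⟨fun i => P⁻¹ j i, ?_⟩
    have h3 : ∀ i, aeval (D.rd t) (P⁻¹ j i) * D.rd (x i) =
        ∑ l, aeval (D.rd t) (P⁻¹ j i * P i l) * D.rd (b l) := by
      intro i
      rw [hP i, Finset.mul_sum]
      exact Finset.sum_congr rfl fun l _ => by rw [map_mul, mul_assoc]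
    simp only [h3]
    rw [Finset.sum_comm]
    have h4 : ∀ l, ∑ i, aeval (D.rd t) (P⁻¹ j i * P i l) * D.rd (b l) =
        aeval (D.rd t) ((1 : Matrix _ _ k[X]) j l) * D.rd (b l) := by
      intro l
      rw [← Finset.sum_mul, ← map_sum, ← Matrix.nonsing_inv_mul P hunit, Matrix.mul_apply]
    simp only [h4, Matrix.one_apply]
    rw [Finset.sum_eq_single j]
    · simp
    · intro l _ hl
      rw [if_neg (Ne.symm hl)]; simp
    · intro h; exact absurd (Finset.mem_univ j) h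
  have hone : (1 : Fb) ∈
      Submodule.span (Algebra.adjoin k {D.rd t}) (Set.range fun i => D.rd (b i)) := by
    have := P8_red_mem h1 h2 h4 h7 D t hch hbr b hbO hbs hbli 1 1 one_pos RedData.rd_one 1
      D.O.one_mem (by
        rw [one_pow, one_mul]
        exact (isIntegral_one : IsIntegral (Algebra.adjoin K {t}) (1 : F)))
    rwa [RedData.rd_one] at this
  have hle : Submodule.span (Algebra.adjoin k {D.rd t}) (Set.range fun i => D.rd (b i)) ≤
      Submodule.span (Algebra.adjoin k {D.rd t}) (Set.range fun i => D.rd (x i)) := by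
    rw [Submodule.span_le]
    rintro _ ⟨j, rfl⟩
    exact hbx j
  obtain ⟨z, hzO, hzi, hz1⟩ := (hxred 1).1 (hle hone)
  exact ⟨z, hzO, hz1, hzi⟩


end Fermat.Agent.INJ
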