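import Fermat.Agent.INJ.Interface

/-!
# INJ, package P8a : `M_K(u) = {x : x ^ m * u integral over K[t]}` is a `K[t]`-lattice
-/

set_option autoImplicit false

namespace Fermat.Agent.INJ

open Polynomial IntermediateField

section Abstract

variable {R F : Type*} [CommRing R] [CommRing F] [Algebra R F]

theorem P8a_add_abs {x y u : F} {m : ℕ} (hx : IsIntegral R (x ^ m * u))
    (hy : IsIntegral R (y ^ m * u)) : IsIntegral R ((x + y) ^ m * u) := by
  rcases Nat.eq_zero_or_pos m with rfl | hm
  · simpa using hx
  rw [add_pow, Finset.sum_mul]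
  refine IsIntegral.sum _ fun i hi => ?_
  have hi' : i ≤ m := Nat.lt_succ_iff.mp (Finset.mem_range.mp hi)
  have h1 : IsIntegral R (x ^ i * y ^ (m - i) * u) := by
    apply IsIntegral.of_pow hm
    have e : (x ^ i * y ^ (m - i) * u) ^ m = (x ^ m * u) ^ i * (y ^ m * u) ^ (m - i) := by
      obtain ⟨j, rfl⟩ := Nat.exists_eq_add_of_le hi'
      rw [Nat.add_sub_cancel_left]
      ring
    rw [e]
    exact (hx.pow i).mul (hy.pow (m - i))
  have e2 : x ^ i * y ^ (m - i) * (m.choose i : F) * u =
      (m.choose i : F) * (x ^ i * y ^ (m - i) * u) := by ring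
  rw [e2]
  exact (isIntegral_natCast _).mul h1

theorem P8a_mul_abs {c x u : F} {m : ℕ} (hc : IsIntegral R c) (hx : IsIntegral R (x ^ m * u)) :
    IsIntegral R ((c * x) ^ m * u) := by
  have e : (c * x) ^ m * u = c ^ m * (x ^ m * u) := by ring
  rw [e]
  exact (hc.pow m).mul hx

theorem P8a_smul_abs (c : R) {x u : F} {m : ℕ} (hx : IsIntegral R (x ^ m * u)) :
    IsIntegral R ((c • x) ^ m * u) := by
  rw [Algebra.smul_def]
  exact P8a_mul_abs isIntegral_algebraMap hx

/-- the module `M(u) = {x : x ^ m * u integral}`. -/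
def P8a_M (R : Type*) {F : Type*} [CommRing R] [CommRing F] [Algebra R F] (u : F) (m : ℕ)
    (hm : 0 < m) : Submodule R F where
  carrier := {x | IsIntegral R (x ^ m * u)}
  zero_mem' := by
    show IsIntegral R ((0 : F) ^ m * u)
    rw [zero_pow hm.ne', zero_mul]
    exact isIntegral_zero
  add_mem' := fun hx hy => P8a_add_abs hx hy
  smul_mem' := fun c _ hx => P8a_smul_abs c hx

theorem P8a_mem_M {u : F} {m : ℕ} (hm : 0 < m) (x : F) :
    x ∈ P8a_M R u m hm ↔ IsIntegral R (x ^ m * u) := Iff.rfl

end Abstract

section AbstractLattice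

variable (R Q F : Type*) [CommRing R] [IsDomain R] [IsPrincipalIdealRing R] [Field Q] [Algebra R Q]
  [IsFractionRing R Q] [Field F] [Algebra R F] [Algebra Q F] [IsScalarTower R Q F]
  [FiniteDimensional Q F] [Algebra.IsSeparable Q F]

omit [IsPrincipalIdealRing R] [FiniteDimensional Q F] in
include Q in
theorem P8a_isAlgebraic : Algebra.IsAlgebraic R F := by
  have := IsLocalization.isAlgebraic Q (nonZeroDivisors R)
  exact Algebra.IsAlgebraic.trans R Q F

omit [IsDomain R] [IsPrincipalIdealRing R] [FiniteDimensional Q F] [Algebra.IsSeparable Q F] in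
include Q in
theorem P8a_injective : Function.Injective (algebraMap R F) := by
  rw [IsScalarTower.algebraMap_eq R Q F]
  exact (algebraMap Q F).injective.comp (IsFractionRing.injective R Q)

include Q in
theorem P8a_finite (u : F) (hu : u ≠ 0) (m : ℕ) (hm : 0 < m) :
    Module.Finite R (P8a_M R u m hm) := by
  have halg := P8a_isAlgebraic R Q F
  have hinj := P8a_injective R Q F
  obtain ⟨d, hd0, hd⟩ := (halg.isAlgebraic u⁻¹).exists_integral_multiple
  have hfin : Module.Finite R (integralClosure R F) :=
    IsIntegralClosure.finite R Q F (integralClosure R F)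
  have hnoeth : IsNoetherian R (integralClosure R F) := isNoetherian_of_isNoetherianRing_of_finite _ _
  have key : ∀ x : P8a_M R u m hm, IsIntegral R (d • (x : F)) := by
    intro x
    apply IsIntegral.of_pow hm
    have hx : IsIntegral R ((x : F) ^ m * u) := x.2
    have e : (d • (x : F)) ^ m = algebraMap R F d ^ (m - 1) * ((d • u⁻¹) * ((x : F) ^ m * u)) := by
      obtain ⟨j, rfl⟩ : ∃ j, m = j + 1 := ⟨m - 1, by omega⟩
      rw [Nat.add_sub_cancel, Algebra.smul_def, Algebra.smul_def]
      field_simp
      ring
    rw [e]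
    exact (isIntegral_algebraMap.pow _).mul (hd.mul hx)
  let φ : P8a_M R u m hm →ₗ[R] integralClosure R F :=
    { toFun := fun x => ⟨d • (x : F), key x⟩
      map_add' := fun x y => Subtype.ext (by simp [smul_add])
      map_smul' := fun c x => Subtype.ext (by simp [smul_comm d c]) }
  have hφ : Function.Injective φ := by
    intro x y hxy
    have h1 : d • (x : F) = d • (y : F) := congrArg Subtype.val hxy
    rw [Algebra.smul_def, Algebra.smul_def] at h1
    have hd' : algebraMap R F d ≠ 0 := by
      intro h
      exact hd0 (hinj (by rw [h, map_zero]))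
    exact Subtype.ext (mul_left_cancel₀ hd' h1)
  exact Module.Finite.of_injective φ hφ

theorem P8a_lattice_abs (u : F) (hu : u ≠ 0) (m : ℕ) (hm : 0 < m) :
    ∃ (Λ : Submodule R F) (l : Fin (Module.finrank Q F) → F),
      (∀ x, x ∈ Λ ↔ IsIntegral R (x ^ m * u)) ∧
      Submodule.span R (Set.range l) = Λ ∧ LinearIndependent Q l := by
  have halg := P8a_isAlgebraic R Q F
  have hinj := P8a_injective R Q F
  have hfin := P8a_finite R Q F u hu m hm
  have htf : Module.IsTorsionFree R F := by
    have : FaithfulSMul R F := (faithfulSMul_iff_algebraMap_injective R F).mpr hinj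
    infer_instance
  have htf' : Module.IsTorsionFree R (P8a_M R u m hm) := inferInstance
  obtain ⟨n, b⟩ := Module.basisOfFiniteTypeTorsionFree' (R := R) (M := P8a_M R u m hm)
  have hspan : Submodule.span R (Set.range fun i => ((b i : P8a_M R u m hm) : F)) =
      P8a_M R u m hm := by
    have h1 : (Set.range fun i => ((b i : P8a_M R u m hm) : F)) =
        (P8a_M R u m hm).subtype '' Set.range b := by
      rw [← Set.range_comp]; rfl
    rw [h1, Submodule.span_image, b.span_eq, Submodule.map_top, Submodule.range_subtype]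
  have hliR : LinearIndependent R (fun i => ((b i : P8a_M R u m hm) : F)) :=
    b.linearIndependent.map' (P8a_M R u m hm).subtype (Submodule.ker_subtype _)
  have hliQ : LinearIndependent Q (fun i => ((b i : P8a_M R u m hm) : F)) :=
    (LinearIndependent.iff_fractionRing R Q).mp hliR
  have htop : ⊤ ≤ Submodule.span Q (Set.range fun i => ((b i : P8a_M R u m hm) : F)) := by
    intro x _
    obtain ⟨r, hr0, hr⟩ := (halg.isAlgebraic (x ^ m * u)).exists_integral_multiple
    have hrx : r • x ∈ P8a_M R u m hm := by
      show IsIntegral R ((r • x) ^ m * u)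
      have e : (r • x) ^ m * u = algebraMap R F r ^ (m - 1) * (r • (x ^ m * u)) := by
        obtain ⟨j, rfl⟩ : ∃ j, m = j + 1 := ⟨m - 1, by omega⟩
        rw [Nat.add_sub_cancel, Algebra.smul_def, Algebra.smul_def]
        ring
      rw [e]
      exact (isIntegral_algebraMap.pow _).mul hr
    have h2 : r • x ∈ Submodule.span Q (Set.range fun i => ((b i : P8a_M R u m hm) : F)) := by
      rw [← hspan] at hrx
      exact Submodule.span_le_restrictScalars R Q _ hrx
    have hr' : algebraMap R Q r ≠ 0 := by
      intro h
      exact hr0 (IsFractionRing.injective R Q (by rw [h, map_zero]))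
    have h3 := Submodule.smul_mem _ (algebraMap R Q r)⁻¹ h2
    rwa [← algebraMap_smul Q r x, smul_smul, inv_mul_cancel₀ hr', one_smul] at h3
  have hn : Module.finrank Q F = n := by
    rw [Module.finrank_eq_card_basis (Module.Basis.mk hliQ htop), Fintype.card_fin]
  subst hn
  exact ⟨P8a_M R u m hm, fun i => ((b i : P8a_M R u m hm) : F), fun x => Iff.rfl, hspan, hliQ⟩

end AbstractLattice

section Concrete

open scoped IntermediateField.algebraAdjoinAdjoin

variable {K F : Type*} [Field K] [Field F] [Algebra K F]

/-- `M` is closed under addition. -/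
theorem P8a_add {t x y u : F} {m : ℕ} (hx : IsInt K t (x ^ m * u)) (hy : IsInt K t (y ^ m * u)) :
    IsInt K t ((x + y) ^ m * u) := P8a_add_abs hx hy

/-- `M` is closed under `K[t]`-scalars. -/
theorem P8a_smul {t x u : F} {m : ℕ} (c : Algebra.adjoin K {t}) (hx : IsInt K t (x ^ m * u)) :
    IsInt K t ((c • x) ^ m * u) := P8a_smul_abs c hx

/-- `M` is closed under multiplication by integral elements. -/
theorem P8a_smul_int {t c x u : F} {m : ℕ} (hc : IsInt K t c) (hx : IsInt K t (x ^ m * u)) :
    IsInt K t ((c * x) ^ m * u) := P8a_mul_abs hc hx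

theorem P8a_isPrincipalIdealRing {t : F} (ht : Transcendental K t) :
    IsPrincipalIdealRing (Algebra.adjoin K {t}) :=
  IsPrincipalIdealRing.of_surjective
    (Polynomial.algEquivOfTranscendental K t ht).toRingEquiv.toRingHom
    (Polynomial.algEquivOfTranscendental K t ht).surjective

theorem P8a_isSeparable [CharZero K] (t : F) [FiniteDimensional K⟮t⟯ F] :
    Algebra.IsSeparable K⟮t⟯ F := by
  have : CharZero F := charZero_of_injective_algebraMap (algebraMap K F).injective
  have : CharZero K⟮t⟯ := charZero_of_injective_algebraMap (algebraMap K K⟮t⟯).injective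
  infer_instance

end Concrete

open scoped IntermediateField.algebraAdjoinAdjoin in
theorem stmt_MLattice : Stmt_MLattice := by
  intro K F _ _ _ _ t u m ht hfin hu hm
  have := P8a_isPrincipalIdealRing ht
  have := P8a_isSeparable (K := K) t
  exact P8a_lattice_abs (Algebra.adjoin K {t}) K⟮t⟯ F u hu m hm

end Fermat.Agent.INJ

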