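import Fermat.Agent.INJ.Interface

/-! # INJ, package P8b : `[B : M_K(u)] · [B : M_K(u⁻¹)]` is a nonzero constant. -/

set_option autoImplicit false

namespace Fermat.Agent.INJ

open Polynomial IntermediateField

section P8b

variable {K F : Type} [Field K] [Field F] [Algebra K F]

theorem P8b_isInt_aeval (t : F) (P : K[X]) : IsInt K t (aeval t P) := by
  have h : aeval t P ∈ Algebra.adjoin K {t} := by
    rw [Algebra.adjoin_singleton_eq_range_aeval]; exact ⟨P, rfl⟩
  exact isIntegral_algebraMap (R := Algebra.adjoin K {t}) (x := ⟨_, h⟩)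

theorem P8b_mem_span_iff (t : F) {n : ℕ} (v : Fin n → F) (z : F) :
    z ∈ Submodule.span (Algebra.adjoin K {t}) (Set.range v) ↔
      ∃ P : Fin n → K[X], z = ∑ j, aeval t (P j) * v j := by
  rw [Submodule.mem_span_range_iff_exists_fun]
  constructor
  · rintro ⟨c, rfl⟩
    have : ∀ j, ∃ P : K[X], aeval t P = (c j : F) := fun j => by
      have h0 : ∀ w : F, w ∈ Algebra.adjoin K {t} → ∃ P : K[X], aeval t P = w := by
        intro w hw
        rw [Algebra.adjoin_singleton_eq_range_aeval] at hw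
        exact hw
      exact h0 _ (c j).2
    choose P hP using this
    exact ⟨P, Finset.sum_congr rfl fun j _ => by rw [hP]; rfl⟩
  · rintro ⟨P, rfl⟩
    refine ⟨fun j => ⟨aeval t (P j), ?_⟩, rfl⟩
    rw [Algebra.adjoin_singleton_eq_range_aeval]; exact ⟨P j, rfl⟩

/-- the ring homomorphism `K[X] → K(t)`. -/
noncomputable def P8b_phi (t : F) : K[X] →+* K⟮t⟯ := (aeval (AdjoinSimple.gen K t)).toRingHom

theorem P8b_coe_phi (t : F) (P : K[X]) : ((P8b_phi t P : K⟮t⟯) : F) = aeval t P := by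
  show ((aeval (AdjoinSimple.gen K t) P : K⟮t⟯) : F) = aeval t P
  rw [← IntermediateField.aeval_coe, AdjoinSimple.coe_gen]

theorem P8b_phi_injective {t : F} (ht : Transcendental K t) :
    Function.Injective (P8b_phi (K := K) t) := by
  intro P Q h
  have h2 : aeval t P = aeval t Q := by rw [← P8b_coe_phi, ← P8b_coe_phi, h]
  exact (transcendental_iff_injective.1 ht) h2

theorem P8b_matrix_ext {t : F} {n : ℕ} {b : Fin n → F} (hb : LinearIndependent K⟮t⟯ b)
    {M M' : Matrix (Fin n) (Fin n) K⟮t⟯}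
    (h : ∀ i, ∑ j, (M i j : F) * b j = ∑ j, (M' i j : F) * b j) : M = M' := by
  ext i j
  have h1 : ∑ j, (M i j - M' i j) • b j = 0 := by
    have : ∀ j, (M i j - M' i j) • b j = (M i j : F) * b j - (M' i j : F) * b j := by
      intro j
      rw [IntermediateField.smul_def, smul_eq_mul]
      push_cast
      ring
    rw [Finset.sum_congr rfl fun j _ => this j, Finset.sum_sub_distrib, h i, sub_self]
  have := Fintype.linearIndependent_iff.1 hb _ h1 j
  exact congrArg _ (sub_eq_zero.1 this)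

/-- LEMMA A : an element of `K(t)` which is a unit at every `c` is a nonzero constant. -/
theorem P8b_const [IsAlgClosed K] {t : F} (ht : Transcendental K t) (f : K⟮t⟯)
    (h : ∀ c : K, ∃ P Q : K[X], P.eval c ≠ 0 ∧ Q.eval c ≠ 0 ∧ f * P8b_phi t Q = P8b_phi t P) :
    ∃ c : K, c ≠ 0 ∧ f = algebraMap K K⟮t⟯ c := by
  have hinj := P8b_phi_injective ht
  obtain ⟨P₀, Q₀, hf⟩ := (mem_adjoin_simple_iff (F := K) (α := t) (f : F)).1 f.2
  have hf0 : f ≠ 0 := by
    rintro rfl
    obtain ⟨P, Q, hP, -, h1⟩ := h 0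
    rw [zero_mul] at h1
    have : P = 0 := hinj (by rw [← h1, map_zero])
    rw [this] at hP
    simp at hP
  have hf0' : (f : F) ≠ 0 := by
    intro h0
    exact hf0 (Subtype.ext h0)
  have hQ₀ : aeval t Q₀ ≠ 0 := by
    intro h0
    rw [h0, div_zero] at hf
    exact hf0' hf
  have hP₀ : aeval t P₀ ≠ 0 := by
    intro h0
    rw [h0, zero_div] at hf
    exact hf0' hf
  have hQ₀' : Q₀ ≠ 0 := by rintro rfl; simp at hQ₀
  have hP₀' : P₀ ≠ 0 := by rintro rfl; simp at hP₀
  have hroots : P₀.roots = Q₀.roots := by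
    classical
    refine Multiset.ext.2 fun c => ?_
    rw [count_roots, count_roots]
    obtain ⟨P, Q, hP, hQ, h1⟩ := h c
    have hP' : P ≠ 0 := by rintro rfl; simp at hP
    have hQ' : Q ≠ 0 := by rintro rfl; simp at hQ
    have h2 : P₀ * Q = P * Q₀ := by
      apply transcendental_iff_injective.1 ht
      have h3 : (f : F) * aeval t Q = aeval t P := by
        rw [← P8b_coe_phi, ← P8b_coe_phi, ← h1]; rfl
      rw [map_mul, map_mul, ← h3, hf]
      field_simp
    have h4 := congrArg (rootMultiplicity c) h2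
    rw [rootMultiplicity_mul (mul_ne_zero hP₀' hQ'), rootMultiplicity_mul (mul_ne_zero hP' hQ₀'),
      rootMultiplicity_eq_zero (p := Q) hQ, rootMultiplicity_eq_zero (p := P) hP] at h4
    simpa using h4
  have e1 := (IsAlgClosed.splits P₀).eq_prod_roots
  have e2 := (IsAlgClosed.splits Q₀).eq_prod_roots
  rw [hroots] at e1
  have hl1 : P₀.leadingCoeff ≠ 0 := leadingCoeff_ne_zero.2 hP₀'
  have hl2 : Q₀.leadingCoeff ≠ 0 := leadingCoeff_ne_zero.2 hQ₀'
  refine ⟨P₀.leadingCoeff / Q₀.leadingCoeff, div_ne_zero hl1 hl2, ?_⟩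
  apply Subtype.ext
  show (f : F) = algebraMap K F (P₀.leadingCoeff / Q₀.leadingCoeff)
  set W := (Q₀.roots.map (X - C ·)).prod with hW
  have hW0 : aeval t W ≠ 0 := by
    intro h0
    apply hQ₀
    rw [e2, map_mul, h0, mul_zero]
  have hl2' : algebraMap K F Q₀.leadingCoeff ≠ 0 := by
    simpa using hl2
  have e1' : aeval t P₀ = algebraMap K F P₀.leadingCoeff * aeval t W := by
    conv_lhs => rw [e1]
    rw [map_mul, aeval_C]
  have e2' : aeval t Q₀ = algebraMap K F Q₀.leadingCoeff * aeval t W := by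
    conv_lhs => rw [e2]
    rw [map_mul, aeval_C]
  rw [hf, e1', e2', map_div₀]
  field_simp

theorem P8b_coe_sum {t : F} {ι : Type*} (s : Finset ι) (g : ι → K⟮t⟯) :
    ((∑ i ∈ s, g i : K⟮t⟯) : F) = ∑ i ∈ s, (g i : F) :=
  map_sum (algebraMap K⟮t⟯ F) g s

/-- expansion of a product of matrices against a family of vectors. -/
theorem P8b_mul_expand {t : F} {n : ℕ} (M N : Matrix (Fin n) (Fin n) K⟮t⟯) (b : Fin n → F)
    (i : Fin n) :
    ∑ k, ((M * N) i k : F) * b k = ∑ j, (M i j : F) * ∑ k, (N j k : F) * b k := by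
  simp only [Matrix.mul_apply, P8b_coe_sum, Finset.sum_mul, Finset.mul_sum]
  rw [Finset.sum_comm]
  refine Finset.sum_congr rfl fun j _ => Finset.sum_congr rfl fun k _ => ?_
  push_cast
  ring

theorem P8b_half {t u α : F} {m : ℕ} (ht : Transcendental K t) (hu : u ≠ 0) (hm : 0 < m)
    (hα : α ≠ 0) (R : K[X]) (c : K) (hR : R.eval c ≠ 0)
    (h1 : IsInt K t (aeval t R * (α ^ m * u))) (h2 : IsInt K t (aeval t R * (α ^ m * u)⁻¹))
    {n : ℕ} (b x : Fin n → F) (hb : LinearIndependent K⟮t⟯ b)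
    (hB : ∀ z, z ∈ Submodule.span (Algebra.adjoin K {t}) (Set.range b) ↔ IsInt K t z)
    (hM : ∀ z, z ∈ Submodule.span (Algebra.adjoin K {t}) (Set.range x) ↔ IsInt K t (z ^ m * u))
    (TM : Matrix (Fin n) (Fin n) K⟮t⟯) (hTM : ∀ i, x i = ∑ j, (TM i j : F) * b j) :
    ∃ (PU : Matrix (Fin n) (Fin n) K[X]) (A : Matrix (Fin n) (Fin n) K⟮t⟯),
      PU.det.eval c ≠ 0 ∧ (∀ j, α * b j = ∑ k, (A j k : F) * b k) ∧
      P8b_phi t R • TM = PU.map (P8b_phi t) * A := by
  have hR0 : R ≠ 0 := by rintro rfl; simp at hR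
  set r : F := aeval t R with hr
  have hr0 : r ≠ 0 := by
    intro h0
    exact hR0 (transcendental_iff_injective.1 ht (by rw [← hr, h0, map_zero]))
  have hrI : IsInt K t r := P8b_isInt_aeval t R
  obtain ⟨m', rfl⟩ : ∃ m', m = m' + 1 := ⟨m - 1, by omega⟩
  -- (1)
  have hx : ∀ i, IsInt K t (x i ^ (m' + 1) * u) := fun i =>
    (hM _).1 (Submodule.subset_span ⟨i, rfl⟩)
  have hbI : ∀ j, IsInt K t (b j) := fun j => (hB _).1 (Submodule.subset_span ⟨j, rfl⟩)
  have k1 : ∀ i, IsInt K t (r * x i * α⁻¹) := by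
    intro i
    refine IsIntegral.of_pow hm ?_
    have e : (r * x i * α⁻¹) ^ (m' + 1)
        = r ^ m' * (x i ^ (m' + 1) * u) * (r * (α ^ (m' + 1) * u)⁻¹) := by
      rw [mul_pow, mul_pow, inv_pow, mul_inv, pow_succ r]
      field_simp
    rw [e]
    exact ((hrI.pow m').mul (hx i)).mul h2
  have k2 : ∀ j, IsInt K t ((r * α * b j) ^ (m' + 1) * u) := by
    intro j
    have e : (r * α * b j) ^ (m' + 1) * u
        = r ^ m' * b j ^ (m' + 1) * (r * (α ^ (m' + 1) * u)) := by
      ring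
    rw [e]
    exact ((hrI.pow m').mul ((hbI j).pow _)).mul h1
  have k1' : ∀ i, ∃ P : Fin n → K[X], r * x i * α⁻¹ = ∑ j, aeval t (P j) * b j := fun i =>
    (P8b_mem_span_iff t b _).1 ((hB _).2 (k1 i))
  have k2' : ∀ j, ∃ P : Fin n → K[X], r * α * b j = ∑ i, aeval t (P i) * x i := fun j =>
    (P8b_mem_span_iff t x _).1 ((hM _).2 (k2 j))
  choose PU hPU using k1'
  choose PU' hPU' using k2'
  set φ := P8b_phi (K := K) t with hφ
  have hφr : ((φ R : K⟮t⟯) : F) = r := P8b_coe_phi t R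
  have hφ0 : φ R ≠ 0 := by
    intro h0
    apply hr0
    rw [← hφr, h0]; rfl
  let MU : Matrix (Fin n) (Fin n) K[X] := Matrix.of PU
  let MU' : Matrix (Fin n) (Fin n) K[X] := Matrix.of PU'
  have cU : ∀ i j, ((MU.map φ i j : K⟮t⟯) : F) = aeval t (PU i j) := fun i j => P8b_coe_phi t _
  have cU' : ∀ i j, ((MU'.map φ i j : K⟮t⟯) : F) = aeval t (PU' i j) := fun i j => P8b_coe_phi t _
  -- the matrix of multiplication by `α`
  let A : Matrix (Fin n) (Fin n) K⟮t⟯ := (φ R)⁻¹ • (MU'.map φ * TM)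
  have hA : ∀ j, α * b j = ∑ k, (A j k : F) * b k := by
    intro j
    have e1 : ∑ k, ((MU'.map φ * TM) j k : F) * b k = r * α * b j := by
      rw [P8b_mul_expand, hPU' j]
      refine Finset.sum_congr rfl fun i _ => ?_
      rw [cU', hTM i]
    have e2 : ∀ k, ((A j k : K⟮t⟯) : F) = r⁻¹ * ((MU'.map φ * TM) j k : F) := by
      intro k
      show (((φ R)⁻¹ * (MU'.map φ * TM) j k : K⟮t⟯) : F) = _
      push_cast
      rw [hφr]
    simp only [e2, mul_assoc]
    rw [← Finset.mul_sum, e1]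
    field_simp
  -- `MU' * MU = R ^ 2`
  have hUU : (MU' * MU).map φ = (φ R) ^ 2 • (1 : Matrix (Fin n) (Fin n) K⟮t⟯) := by
    rw [Matrix.map_mul]
    apply P8b_matrix_ext hb
    intro j
    rw [P8b_mul_expand]
    have e1 : ∀ i, ∑ k, ((MU.map φ i k : K⟮t⟯) : F) * b k = r * x i * α⁻¹ := by
      intro i
      rw [hPU i]
      exact Finset.sum_congr rfl fun k _ => by rw [cU]
    simp only [e1, cU']
    have e3 : ∑ i, aeval t (PU' j i) * (r * x i * α⁻¹) = r ^ 2 * b j := by
      have : ∀ i, aeval t (PU' j i) * (r * x i * α⁻¹) = r * α⁻¹ * (aeval t (PU' j i) * x i) := by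
        intro i; ring
      simp only [this]
      rw [← Finset.mul_sum, ← hPU' j]
      field_simp
    rw [e3]
    have e4 : ∀ k, ((((φ R) ^ 2 • (1 : Matrix (Fin n) (Fin n) K⟮t⟯)) j k : K⟮t⟯) : F) * b k
        = if j = k then r ^ 2 * b k else 0 := by
      intro k
      rw [Matrix.smul_apply, Matrix.one_apply]
      split_ifs with hjk
      · rw [smul_eq_mul, mul_one]
        push_cast
        rw [hφr]
      · simp
    simp only [e4]
    simp
  have hdet : MU'.det * MU.det = R ^ (2 * n) := by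
    apply P8b_phi_injective ht
    rw [← Matrix.det_mul, ← hφ, RingHom.map_det, RingHom.mapMatrix_apply, hUU, Matrix.det_smul,
      Matrix.det_one, mul_one, map_pow, ← pow_mul]
    simp
  refine ⟨MU, A, ?_, hA, ?_⟩
  · intro h0
    have := congrArg (eval c) hdet
    rw [eval_mul, h0, mul_zero, eval_pow] at this
    exact pow_ne_zero _ hR this.symm
  · apply P8b_matrix_ext hb
    intro i
    rw [P8b_mul_expand]
    simp only [← hA, cU]
    have e5 : ∑ j, aeval t (PU i j) * (α * b j) = r * x i := by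
      have : ∀ j, aeval t (PU i j) * (α * b j) = α * (aeval t (PU i j) * b j) := by
        intro j; ring
      simp only [this]
      rw [← Finset.mul_sum, ← hPU i]
      field_simp
    rw [e5, hTM i, Finset.mul_sum]
    refine Finset.sum_congr rfl fun k _ => ?_
    rw [Matrix.smul_apply, smul_eq_mul]
    push_cast
    rw [hφr]
    ring

theorem stmt_DetConst : Stmt_DetConst := by
  intro K F _ _ _ _ _ t u m ht _ hu hm hloc n b x y hb hB hM hN TM TN hTM hTN
  apply P8b_const ht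
  intro c
  obtain ⟨α, R, hα, hR, h1, h2⟩ := hloc c
  obtain ⟨PU, A, hPU, hA, eU⟩ := P8b_half ht hu hm hα R c hR h1 h2 b x hb hB hM TM hTM
  have h1' : IsInt K t (aeval t R * (α⁻¹ ^ m * u⁻¹)) := by
    have : α⁻¹ ^ m * u⁻¹ = (α ^ m * u)⁻¹ := by rw [mul_inv, inv_pow]
    rw [this]; exact h2
  have h2' : IsInt K t (aeval t R * (α⁻¹ ^ m * u⁻¹)⁻¹) := by
    have : (α⁻¹ ^ m * u⁻¹)⁻¹ = α ^ m * u := by rw [mul_inv, inv_pow, inv_inv, inv_inv]
    rw [this]; exact h1
  obtain ⟨PV, A', hPV, hA', eV⟩ := P8b_half ht (inv_ne_zero hu) hm (inv_ne_zero hα) R c hR h1' h2'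
    b y hb hB hN TN hTN
  have hAA : A' * A = 1 := by
    apply P8b_matrix_ext hb
    intro j
    rw [P8b_mul_expand]
    simp only [← hA]
    have e1 : ∑ k, (A' j k : F) * (α * b k) = b j := by
      have : ∀ k, (A' j k : F) * (α * b k) = α * ((A' j k : F) * b k) := by intro k; ring
      simp only [this]
      rw [← Finset.mul_sum, ← hA' j]
      field_simp
    rw [e1]
    have e4 : ∀ k, (((1 : Matrix (Fin n) (Fin n) K⟮t⟯) j k : K⟮t⟯) : F) * b k
        = if j = k then b k else 0 := by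
      intro k
      rw [Matrix.one_apply]
      split_ifs with hjk <;> simp
    simp only [e4]
    simp
  have hdAA : A'.det * A.det = 1 := by rw [← Matrix.det_mul, hAA, Matrix.det_one]
  have dU := congrArg Matrix.det eU
  have dV := congrArg Matrix.det eV
  rw [Matrix.det_smul, Matrix.det_mul, Fintype.card_fin] at dU dV
  have mU : (PU.map (P8b_phi t)).det = P8b_phi t PU.det := by
    rw [RingHom.map_det]; rfl
  have mV : (PV.map (P8b_phi t)).det = P8b_phi t PV.det := by
    rw [RingHom.map_det]; rfl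
  rw [mU] at dU
  rw [mV] at dV
  refine ⟨PU.det * PV.det, R ^ n * R ^ n, ?_, ?_, ?_⟩
  · rw [eval_mul]; exact mul_ne_zero hPU hPV
  · rw [eval_mul, eval_pow]; exact mul_ne_zero (pow_ne_zero _ hR) (pow_ne_zero _ hR)
  · rw [map_mul, map_mul, map_pow]
    calc TM.det * TN.det * (P8b_phi t R ^ n * P8b_phi t R ^ n)
        = (P8b_phi t R ^ n * TM.det) * (P8b_phi t R ^ n * TN.det) := by ring
      _ = (P8b_phi t PU.det * A.det) * (P8b_phi t PV.det * A'.det) := by rw [dU, dV]
      _ = P8b_phi t PU.det * P8b_phi t PV.det * (A'.det * A.det) := by ring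
      _ = P8b_phi t PU.det * P8b_phi t PV.det := by rw [hdAA, mul_one]

end P8b

end Fermat.Agent.INJ
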