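import Fermat.Agent.INJ.Interface

/-! # INJ / P9 : bounded torsion of `H¹ = M₁₂ / (M₁ + M₂)`.  helper83. -/

set_option autoImplicit false

namespace Fermat.Agent.INJ

open Polynomial IntermediateField

section General

variable {K F : Type*} [Field K] [Field F] [Algebra K F]

theorem P9_isInt_of_mem {t x : F} (h : x ∈ Algebra.adjoin K {t}) : IsInt K t x :=
  isIntegral_algebraMap (R := Algebra.adjoin K {t}) (A := F) (x := ⟨x, h⟩)

theorem P9_isInt_aeval (t : F) (P : K[X]) : IsInt K t (aeval t P) :=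
  P9_isInt_of_mem (Polynomial.aeval_mem_adjoin_singleton K t)

theorem P9_isInt_algebraMap (t : F) (a : K) : IsInt K t (algebraMap K F a) := by
  simpa using P9_isInt_aeval t (C a)

theorem P9_isInt_pow_self (t : F) (j : ℕ) : IsInt K t (t ^ j) := by
  simpa using P9_isInt_aeval (K := K) t (X ^ j)

theorem P9_MK_zero (t u : F) {m : ℕ} (hm : 0 < m) : IsInt K t ((0 : F) ^ m * u) := by
  rw [zero_pow hm.ne', zero_mul]
  exact isIntegral_zero

theorem P9_MK_mul {t u b x : F} {m : ℕ} (hb : IsInt K t b) (hx : IsInt K t (x ^ m * u)) :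
    IsInt K t ((b * x) ^ m * u) := by
  have : (b * x) ^ m * u = b ^ m * (x ^ m * u) := by ring
  rw [this]
  exact (IsIntegral.pow hb m).mul hx

theorem P9_MK_add {t u x y : F} {m : ℕ} (hm : 0 < m) (hx : IsInt K t (x ^ m * u))
    (hy : IsInt K t (y ^ m * u)) : IsInt K t ((x + y) ^ m * u) := by
  rw [add_pow, Finset.sum_mul]
  refine IsIntegral.sum _ fun i hi => ?_
  have hi' : i ≤ m := Nat.lt_succ_iff.mp (Finset.mem_range.mp hi)
  have h1 : IsInt K t (x ^ i * y ^ (m - i) * u) := by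
    refine IsIntegral.of_pow hm ?_
    have : (x ^ i * y ^ (m - i) * u) ^ m = (x ^ m * u) ^ i * (y ^ m * u) ^ (m - i) := by
      have hu : u ^ m = u ^ i * u ^ (m - i) := by rw [← pow_add, Nat.add_sub_cancel' hi']
      rw [mul_pow, mul_pow, hu, mul_pow, mul_pow, ← pow_mul, ← pow_mul, ← pow_mul, ← pow_mul,
        mul_comm i m, mul_comm (m - i) m]
      ring
    rw [this]
    exact (IsIntegral.pow hx i).mul (IsIntegral.pow hy (m - i))
  have h2 : x ^ i * y ^ (m - i) * (m.choose i : F) * u =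
      (m.choose i : F) * (x ^ i * y ^ (m - i) * u) := by ring
  rw [h2]
  exact (isIntegral_natCast (R := Algebra.adjoin K {t}) (B := F) (a := m.choose i)).mul h1

theorem P9_MK_neg {t u x : F} {m : ℕ} (hx : IsInt K t (x ^ m * u)) :
    IsInt K t ((-x) ^ m * u) := by
  have : -x = (-1 : F) * x := by ring
  rw [this]
  exact P9_MK_mul (isIntegral_one.neg) hx

end General

section Mod

variable {K F k Fb : Type*} [Field K] [Field F] [Algebra K F] [Field k] [Field Fb] [Algebra k Fb]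

theorem P9_smul_def (D : RedData K F k Fb) (a : D.A) (x : F) :
    a • x = algebraMap K F (a : K) * x := by
  rw [Algebra.smul_def]
  rfl

/-- `M = {x ∈ O : x ^ m u integral over K[t]}` as an `A`-module. -/
noncomputable def P9_M (D : RedData K F k Fb) (t u : F) (m : ℕ) (hm : 0 < m) :
    Submodule D.A F where
  carrier := {x | x ∈ D.O ∧ IsInt K t (x ^ m * u)}
  add_mem' := fun hx hy => ⟨add_mem hx.1 hy.1, P9_MK_add hm hx.2 hy.2⟩
  zero_mem' := ⟨zero_mem _, P9_MK_zero t u hm⟩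
  smul_mem' := fun a x hx => by
    rw [P9_smul_def]
    exact ⟨mul_mem (RedData.algebraMap_mem a.2) hx.1, P9_MK_mul (P9_isInt_algebraMap t _) hx.2⟩

theorem P9_aeval_map (D : RedData K F k Fb) (t : F) (Q : (D.A)[X]) :
    aeval t (Q.map D.A.subtype) =
      ∑ j ∈ Finset.range (Q.natDegree + 1), algebraMap K F (Q.coeff j : K) * t ^ j := by
  rw [aeval_def, eval₂_map, eval₂_eq_sum_range]
  rfl

end Mod

theorem stmt_BT (h1 : Stmt_Gauss) (h2 : Stmt_Ortho) (h9a : Stmt_BT0) (h9b : Stmt_Clear) :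
    Stmt_BT := by
  intro K F k Fb _ _ _ _ _ _ _ D t htO htiO htr _hfin u m _hu hm n e he hspan hli
  classical
  have ht0 : t ≠ 0 := by
    rintro rfl
    apply htr
    rw [RedData.rd_zero]
    exact isAlgebraic_zero
  obtain ⟨-, hG2, -, -, -⟩ := h1 K F k Fb D t htO htr
  obtain ⟨-, hO2⟩ := h2 K F k Fb D t htO htr (Fin n) e (fun i => (he i).1) hli
  have smul_def : ∀ (a : D.A) (x : F), a • x = algebraMap K F (a : K) * x := P9_smul_def D
  set M1 : Submodule D.A F := P9_M D t u m hm with hM1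
  set M2 : Submodule D.A F := P9_M D t⁻¹ u m hm with hM2
  have mem1 : ∀ x, x ∈ M1 ↔ x ∈ D.O ∧ IsInt K t (x ^ m * u) := fun x => Iff.rfl
  have mem2 : ∀ x, x ∈ M2 ↔ x ∈ D.O ∧ IsInt K t⁻¹ (x ^ m * u) := fun x => Iff.rfl
  -- the exponent `c2`
  have hcl : ∀ i, ∃ c : ℕ, ∀ c' : ℕ, c ≤ c' → IsInt K t⁻¹ (t⁻¹ ^ c' * (e i ^ m * u)) := by
    intro i
    refine h9b K F t⁻¹ (e i ^ m * u) (inv_ne_zero ht0) ?_
    rw [inv_inv]
    exact (he i).2
  choose cc hcc using hcl
  set c2 : ℕ := Finset.univ.sup cc with hc2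
  have hM2e : ∀ (i : Fin n) (s : ℕ), c2 ≤ s → t⁻¹ ^ s * e i ∈ M2 := by
    intro i s hs
    refine (mem2 _).2 ⟨mul_mem (pow_mem htiO s) (he i).1, ?_⟩
    have h3 : (t⁻¹ ^ s * e i) ^ m * u = t⁻¹ ^ (s * m) * (e i ^ m * u) := by
      rw [mul_pow, ← pow_mul]; ring
    rw [h3]
    refine hcc i _ ?_
    calc cc i ≤ c2 := Finset.le_sup (Finset.mem_univ i)
      _ ≤ s := hs
      _ ≤ s * m := Nat.le_mul_of_pos_right s hm
  have hM1e : ∀ (i : Fin n) (s : ℕ), t ^ s * e i ∈ M1 := fun i s =>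
    (mem1 _).2 ⟨mul_mem (pow_mem htO s) (he i).1, P9_MK_mul (P9_isInt_pow_self t s) (he i).2⟩
  -- the finite family
  set g : Fin (c2 * n) → F := fun x =>
    t⁻¹ ^ ((finProdFinEquiv.symm x).1 : ℕ) * e (finProdFinEquiv.symm x).2 with hg
  set S : Submodule D.A F := M1 ⊔ M2 with hS
  set T : Submodule D.A F := S ⊔ Submodule.span D.A (Set.range g) with hT
  have hterm : ∀ (c j : ℕ) (i : Fin n), t⁻¹ ^ c * (t ^ j * e i) ∈ T := by
    intro c j i
    rcases le_total c j with hcj | hjc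
    · have : t⁻¹ ^ c * (t ^ j * e i) = t ^ (j - c) * e i := by
        obtain ⟨d, rfl⟩ := Nat.exists_eq_add_of_le hcj
        rw [Nat.add_sub_cancel_left, pow_add, inv_pow]
        field_simp
      rw [this]
      exact Submodule.mem_sup_left (Submodule.mem_sup_left (hM1e i _))
    · have : t⁻¹ ^ c * (t ^ j * e i) = t⁻¹ ^ (c - j) * e i := by
        obtain ⟨d, rfl⟩ := Nat.exists_eq_add_of_le hjc
        rw [Nat.add_sub_cancel_left, pow_add, inv_pow, inv_pow]
        field_simp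
      rw [this]
      rcases le_or_gt c2 (c - j) with h | h
      · exact Submodule.mem_sup_left (Submodule.mem_sup_right (hM2e i _ h))
      · refine Submodule.mem_sup_right (Submodule.subset_span ⟨finProdFinEquiv (⟨c - j, h⟩, i), ?_⟩)
        show t⁻¹ ^ ((finProdFinEquiv.symm (finProdFinEquiv ((⟨c - j, h⟩ : Fin c2), i))).1 : ℕ) *
          e (finProdFinEquiv.symm (finProdFinEquiv ((⟨c - j, h⟩ : Fin c2), i))).2 = _
        rw [Equiv.symm_apply_apply]
  obtain ⟨a₀, ha₀, hBT⟩ := h9a D.A F S (c2 * n) g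
  refine ⟨(a₀ : K), fun h => ha₀ (Subtype.ext h), a₀.2, ?_⟩
  intro x x' a ha hx hxi hx' hxi' hδO
  set δ : F := (x' - x) * (algebraMap K F a)⁻¹ with hδ
  have haF : algebraMap K F a ≠ 0 := by
    simpa using ha
  -- it is enough to show `a₀ • δ ∈ S`
  suffices hfin : a₀ • δ ∈ S by
    obtain ⟨μ, hμ, μ', hμ', hsum⟩ := Submodule.mem_sup.1 hfin
    exact ⟨μ, μ', ((mem1 μ).1 hμ).1, ((mem1 μ).1 hμ).2, ((mem2 μ').1 hμ').1, ((mem2 μ').1 hμ').2,
      by rw [hsum, smul_def]⟩
  have hxM1 : x ∈ M1 := (mem1 x).2 ⟨hx, hxi⟩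
  have hxM2 : x' ∈ M2 := (mem2 x').2 ⟨hx', hxi'⟩
  have hdiff : x' - x ∈ S := by
    rw [sub_eq_add_neg, add_comm]
    exact Submodule.add_mem_sup (M1.neg_mem hxM1) hxM2
  by_cases haA : a ∈ D.A
  · -- main case
    have hδT : δ ∈ T := by
      obtain ⟨c, hc⟩ := h9b K F t (x' ^ m * u) ht0 hxi'
      have e1 : IsInt K t ((t ^ c * x') ^ m * u) := by
        have h3 : (t ^ c * x') ^ m * u = t ^ (c * m) * (x' ^ m * u) := by
          rw [mul_pow, ← pow_mul]; ring
        rw [h3]
        exact hc _ (Nat.le_mul_of_pos_right c hm)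
      have e2 : IsInt K t ((t ^ c * x) ^ m * u) := P9_MK_mul (P9_isInt_pow_self t c) hxi
      have e3 : IsInt K t ((t ^ c * δ) ^ m * u) := by
        have h3 : t ^ c * δ = algebraMap K F a⁻¹ * (t ^ c * x' + -(t ^ c * x)) := by
          rw [hδ, map_inv₀]; ring
        rw [h3]
        exact P9_MK_mul (P9_isInt_algebraMap t _) (P9_MK_add hm e1 (P9_MK_neg e2))
      obtain ⟨cf, hcf⟩ := (Submodule.mem_span_range_iff_exists_fun _).1 (hspan _ e3)
      have hcf' : ∑ i, ((cf i : F)) * e i = t ^ c * δ := by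
        rw [← hcf]
        rfl
      have hP : ∀ i, ∃ P : K[X], aeval t P = (cf i : F) := by
        intro i
        have h5 : (cf i : F) ∈ (aeval (R := K) t).range := by
          rw [← Algebra.adjoin_singleton_eq_range_aeval]
          exact (cf i).2
        exact h5
      choose P hP using hP
      have hcO := hO2 (fun i => ⟨(cf i : F), IntermediateField.algebra_adjoin_le_adjoin K {t} (cf i).2⟩)
        (by
          show ∑ i, ((cf i : F)) * e i ∈ D.O
          rw [hcf']
          exact mul_mem (pow_mem htO c) hδO)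
      have hQ : ∀ i, ∃ Q : (D.A)[X], Q.map D.A.subtype = P i := by
        intro i
        refine hG2 (P i) ?_
        rw [hP i]
        exact hcO i
      choose Q hQ using hQ
      have hδ2 : δ = ∑ i, ∑ j ∈ Finset.range ((Q i).natDegree + 1),
          ((Q i).coeff j) • (t⁻¹ ^ c * (t ^ j * e i)) := by
        have h4 : δ = t⁻¹ ^ c * (t ^ c * δ) := by
          rw [inv_pow]; field_simp
        rw [h4, ← hcf', Finset.mul_sum]
        refine Finset.sum_congr rfl fun i _ => ?_
        rw [← hP i, ← hQ i, P9_aeval_map, Finset.sum_mul, Finset.mul_sum]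
        refine Finset.sum_congr rfl fun j _ => ?_
        rw [smul_def]
        ring
      rw [hδ2]
      exact Submodule.sum_mem _ fun i _ => Submodule.sum_mem _ fun j _ =>
        Submodule.smul_mem _ _ (hterm c j i)
    refine hBT δ hδT ⟨a, haA⟩ (fun h => ha (congrArg Subtype.val h)) ?_
    have : (⟨a, haA⟩ : D.A) • δ = x' - x := by
      rw [smul_def, hδ]
      field_simp
    rw [this]
    exact hdiff
  · -- `a⁻¹ ∈ A`
    have hai : a⁻¹ ∈ D.A := (D.A.mem_or_inv_mem a).resolve_left haA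
    have : δ = (⟨a⁻¹, hai⟩ : D.A) • (x' - x) := by
      rw [smul_def, hδ, map_inv₀]
      ring
    rw [this]
    exact S.smul_mem _ (S.smul_mem _ hdiff)

end Fermat.Agent.INJ
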