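import Fermat.Agent.INJ.Interface

/-! # INJ, package P9a: bounded torsion of finitely generated modules (`Stmt_BT0`).

The statement holds over every domain: filter by cyclic modules. -/

set_option autoImplicit false

namespace Fermat.Agent.INJ

/-- the property proved by induction on the finitely generated submodule `N`. -/
def P9a_Bdd (A : Type*) {V : Type*} [CommRing A] [AddCommGroup V] [Module A V]
    (N : Submodule A V) : Prop :=
  ∀ S : Submodule A V, ∃ a₀ : A, a₀ ≠ 0 ∧ ∀ v ∈ S ⊔ N, ∀ a : A, a ≠ 0 → a • v ∈ S → a₀ • v ∈ S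

theorem P9a_span_singleton {A V : Type*} [CommRing A] [IsDomain A] [AddCommGroup V] [Module A V]
    (x : V) : P9a_Bdd A (Submodule.span A {x}) := by
  intro S
  by_cases h : ∃ c : A, c ≠ 0 ∧ c • x ∈ S
  · obtain ⟨c, hc0, hc⟩ := h
    refine ⟨c, hc0, fun v hv a _ _ => ?_⟩
    obtain ⟨s, hs, y, hy, rfl⟩ := Submodule.mem_sup.mp hv
    obtain ⟨b, rfl⟩ := Submodule.mem_span_singleton.mp hy
    rw [smul_add, smul_comm]
    exact S.add_mem (S.smul_mem _ hs) (S.smul_mem _ hc)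
  · refine ⟨1, one_ne_zero, fun v hv a ha hav => ?_⟩
    obtain ⟨s, hs, y, hy, rfl⟩ := Submodule.mem_sup.mp hv
    obtain ⟨b, rfl⟩ := Submodule.mem_span_singleton.mp hy
    rw [one_smul]
    have h1 : (a * b) • x ∈ S := by
      have h2 : a • (s + b • x) - a • s ∈ S := S.sub_mem hav (S.smul_mem _ hs)
      rwa [smul_add, add_sub_cancel_left, smul_smul] at h2
    have hb : b = 0 := by
      by_contra hb
      exact h ⟨a * b, mul_ne_zero ha hb, h1⟩
    rw [hb, zero_smul, add_zero]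
    exact hs

theorem P9a_sup {A V : Type*} [CommRing A] [IsDomain A] [AddCommGroup V] [Module A V]
    (M₁ M₂ : Submodule A V) (h₁ : P9a_Bdd A M₁) (h₂ : P9a_Bdd A M₂) : P9a_Bdd A (M₁ ⊔ M₂) := by
  intro S
  obtain ⟨a₁, ha₁, H₁⟩ := h₁ S
  obtain ⟨a₂, ha₂, H₂⟩ := h₂ (S ⊔ M₁)
  refine ⟨a₁ * a₂, mul_ne_zero ha₁ ha₂, fun v hv a ha hav => ?_⟩
  have hv2 : a₂ • v ∈ S ⊔ M₁ :=
    H₂ v (by rwa [sup_assoc]) a ha (Submodule.mem_sup_left hav)
  rw [mul_smul]
  refine H₁ _ hv2 a ha ?_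
  rw [smul_comm]
  exact S.smul_mem _ hav

theorem P9a_fg {A V : Type*} [CommRing A] [IsDomain A] [AddCommGroup V] [Module A V]
    (N : Submodule A V) (hN : N.FG) : P9a_Bdd A N :=
  Submodule.fg_induction (motive := fun N _ => P9a_Bdd A N) P9a_span_singleton
    (fun M₁ M₂ _ _ h₁ h₂ => P9a_sup M₁ M₂ h₁ h₂) N hN

theorem stmt_BT0 : Stmt_BT0 := by
  intro A V _ _ _ _ _ S r g
  exact P9a_fg _ (Submodule.fg_span (Set.finite_range g)) S

end Fermat.Agent.INJ
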