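import Fermat.Agent.INJ.Interface

/-!
# INJ P9b : clearing poles at `t = 0` (`Stmt_Clear`)
-/

set_option autoImplicit false

namespace Fermat.Agent.INJ

open Polynomial IntermediateField

theorem P9b_mul_pow_mem {K F : Type*} [Field K] [Field F] [Algebra K F] (t : F) (ht : t ≠ 0)
    (a : F) (ha : a ∈ Algebra.adjoin K {t⁻¹}) :
    ∃ N : ℕ, ∀ n, N ≤ n → t ^ n * a ∈ Algebra.adjoin K {t} := by
  have htm : ∀ n : ℕ, t ^ n ∈ Algebra.adjoin K {t} := fun n =>
    pow_mem (Algebra.self_mem_adjoin_singleton K t) n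
  induction ha using Algebra.adjoin_induction with
  | mem x hx =>
    rw [Set.mem_singleton_iff] at hx
    subst hx
    refine ⟨1, fun n hn => ?_⟩
    obtain ⟨m, rfl⟩ := Nat.exists_eq_add_of_le hn
    rw [add_comm, pow_succ, mul_assoc, mul_inv_cancel₀ ht, mul_one]
    exact htm m
  | algebraMap r => exact ⟨0, fun n _ => mul_mem (htm n) (Subalgebra.algebraMap_mem _ r)⟩
  | add x y _ _ ihx ihy =>
    obtain ⟨N₁, h₁⟩ := ihx
    obtain ⟨N₂, h₂⟩ := ihy
    refine ⟨max N₁ N₂, fun n hn => ?_⟩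
    rw [mul_add]
    exact add_mem (h₁ n (le_trans (le_max_left _ _) hn)) (h₂ n (le_trans (le_max_right _ _) hn))
  | mul x y _ _ ihx ihy =>
    obtain ⟨N₁, h₁⟩ := ihx
    obtain ⟨N₂, h₂⟩ := ihy
    refine ⟨N₁ + N₂, fun n hn => ?_⟩
    obtain ⟨m, rfl⟩ := Nat.exists_eq_add_of_le hn
    have : t ^ (N₁ + N₂ + m) * (x * y) = (t ^ N₁ * x) * (t ^ (N₂ + m) * y) := by
      rw [add_assoc, pow_add]; ring
    rw [this]
    exact mul_mem (h₁ _ le_rfl) (h₂ _ (Nat.le_add_right _ _))

theorem stmt_Clear : Stmt_Clear := by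
  intro K F _ _ _ t z ht hz
  obtain ⟨P, hPm, hPz⟩ := hz
  have hN : ∀ i, ∃ N : ℕ, ∀ n, N ≤ n → t ^ n * (P.coeff i : F) ∈ Algebra.adjoin K {t} :=
    fun i => P9b_mul_pow_mem t ht _ (P.coeff i).2
  choose N hN using hN
  refine ⟨(Finset.range P.natDegree).sup N, fun c' hc' => ?_⟩
  set Q : F[X] := P.map (algebraMap _ F) with hQ
  have hQm : Q.Monic := hPm.map _
  have hQd : Q.natDegree = P.natDegree := hPm.natDegree_map _
  have hQz : aeval z Q = 0 := by
    rw [hQ, aeval_def, eval₂_map]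
    simpa using hPz
  have hroot : aeval (t ^ c' * z) (scaleRoots Q (t ^ c')) = 0 := by
    have := scaleRoots_aeval_eq_zero (r := t ^ c') hQz
    simpa using this
  have hlift : scaleRoots Q (t ^ c') ∈ lifts (algebraMap (Algebra.adjoin K {t}) F) := by
    rw [lifts_iff_coeff_lifts]
    intro i
    rw [coeff_scaleRoots]
    rcases lt_trichotomy i Q.natDegree with hi | hi | hi
    · have h1 : N i ≤ c' * (Q.natDegree - i) := by
        have h2 : N i ≤ (Finset.range P.natDegree).sup N :=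
          Finset.le_sup (f := N) (Finset.mem_range.2 (hQd ▸ hi))
        have h3 : c' ≤ c' * (Q.natDegree - i) := Nat.le_mul_of_pos_right _ (Nat.sub_pos_of_lt hi)
        omega
      have h4 := hN i _ h1
      have h5 : Q.coeff i = (P.coeff i : F) := by
        rw [hQ, coeff_map]
        rfl
      refine ⟨⟨_, h4⟩, ?_⟩
      rw [h5, ← pow_mul]
      exact mul_comm _ _
    · subst hi
      rw [hQm.coeff_natDegree, Nat.sub_self, pow_zero, mul_one]
      exact ⟨1, map_one _⟩
    · rw [coeff_eq_zero_of_natDegree_lt hi, zero_mul]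
      exact ⟨0, map_zero _⟩
  obtain ⟨R, hR1, -, hR2⟩ :=
    lifts_and_natDegree_eq_and_monic hlift ((monic_scaleRoots_iff _).2 hQm)
  refine ⟨R, hR2, ?_⟩
  rw [← eval_map, hR1]
  simpa [aeval_def] using hroot

end Fermat.Agent.INJ
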