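import Fermat.Agent.INJ.P1
import Fermat.Agent.INJ.P2
import Fermat.Agent.INJ.P3
import Fermat.Agent.INJ.P4
import Fermat.Agent.INJ.P5
import Fermat.Agent.INJ.P6
import Fermat.Agent.INJ.P7
import Fermat.Agent.INJ.P7a
import Fermat.Agent.INJ.P8
import Fermat.Agent.INJ.P8a
import Fermat.Agent.INJ.P8b
import Fermat.Agent.INJ.P9
import Fermat.Agent.INJ.P9a
import Fermat.Agent.INJ.P9b
import Fermat.Agent.INJ.P10
import Fermat.Agent.INJ.P11
import Fermat.Agent.INJ.P12
import Fermat.Agent.INJ.P13
import Fermat.Agent.INJ.P14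

/-! # INJ : assembly of the abstract packages P1–P14 (unconditional abstract Claim K). -/

namespace Fermat.Agent.INJ

theorem all_Ortho : Stmt_Ortho := stmt_Ortho stmt_Gauss

theorem all_Trace : Stmt_Trace := stmt_Trace stmt_Gauss all_Ortho

theorem all_IntRed : Stmt_IntRed := stmt_IntRed stmt_Gauss all_Ortho

theorem all_Lift : Stmt_Lift := stmt_Lift stmt_Gauss all_Ortho

theorem all_BBasis : Stmt_BBasis :=
  stmt_BBasis stmt_Gauss all_Ortho all_Trace all_IntRed all_Lift

theorem all_Normal : Stmt_Normal :=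
  stmt_Normal stmt_Gauss all_Ortho all_Trace all_IntRed all_BBasis stmt_TraceNil

theorem all_LocTriv : Stmt_LocTriv :=
  stmt_LocTriv stmt_Gauss all_Ortho all_IntRed all_Lift all_BBasis all_Normal stmt_MLattice
    stmt_DetConst

theorem all_BT : Stmt_BT := stmt_BT stmt_Gauss all_Ortho stmt_BT0 stmt_Clear

/-- the abstract Claim K, unconditionally. -/
theorem all_INJ : Stmt_INJ := stmt_INJ stmt_Gauss all_LocTriv all_BT stmt_Newton stmt_Const

theorem all_ChartTower : Stmt_ChartTower := stmt_ChartTower stmt_Gauss all_Ortho all_Trace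

end Fermat.Agent.INJ
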