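import Fermat.Agent.INJ.Interface

/-!
# INJ / P1 : the Gauss lemma for `O ∩ K[t]`
-/

set_option autoImplicit false

namespace Fermat.Agent.INJ

open Polynomial IntermediateField

section

variable {K F k Fb : Type} [Field K] [Field F] [Algebra K F] [Field k] [Field Fb] [Algebra k Fb]
variable {D : RedData K F k Fb} {t : F}

/-- (1) reduction is coefficientwise on `A[t]`. -/
theorem P1_red (ht : t ∈ D.O) (Q : (D.A)[X]) :
    aeval t (Q.map D.A.subtype) ∈ D.O ∧
      D.rd (aeval t (Q.map D.A.subtype)) = aeval (D.rd t) (Q.map D.rA) := by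
  induction Q using Polynomial.induction_on' with
  | add p q hp hq =>
    rw [Polynomial.map_add, Polynomial.map_add, map_add, map_add]
    exact ⟨add_mem hp.1 hq.1, by rw [RedData.rd_add hp.1 hq.1, hp.2, hq.2]⟩
  | monomial n a =>
    rw [Polynomial.map_monomial, Polynomial.map_monomial, aeval_monomial, aeval_monomial]
    have ha : algebraMap K F (D.A.subtype a) ∈ D.O := RedData.algebraMap_mem a.2
    refine ⟨mul_mem ha (pow_mem ht n), ?_⟩
    rw [RedData.rd_mul ha (pow_mem ht n), RedData.rd_pow ht]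
    congr 1
    have : D.rd (algebraMap K F (a : K)) = algebraMap k Fb (D.ra (a : K)) :=
      RedData.rd_algebraMap a.2
    rw [RedData.ra_of_mem a.2] at this
    exact this

/-- (3) primitive parts. -/
theorem P1_prim (D : RedData K F k Fb) (P : K[X]) (hP : P ≠ 0) :
    ∃ (a : K) (Q : (D.A)[X]), a ≠ 0 ∧ P = C a * Q.map D.A.subtype ∧ Q.map D.rA ≠ 0 := by
  have hne : P.support.Nonempty := by
    rwa [Finset.nonempty_iff_ne_empty, Ne, Polynomial.support_eq_empty]
  obtain ⟨i₀, hi₀, hmax⟩ := Finset.exists_max_image P.support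
    (fun i => D.A.valuation (P.coeff i)) hne
  have ha : P.coeff i₀ ≠ 0 := Polynomial.mem_support_iff.1 hi₀
  have hmem : C (P.coeff i₀)⁻¹ * P ∈ Polynomial.lifts D.A.subtype := by
    rw [Polynomial.lifts_iff_coeff_lifts]
    intro n
    rw [Polynomial.coeff_C_mul]
    have : (P.coeff i₀)⁻¹ * P.coeff n ∈ D.A := by
      rw [← ValuationSubring.valuation_le_one_iff, map_mul, map_inv₀]
      by_cases hn : n ∈ P.support
      · have h1 := hmax n hn
        have h2 : D.A.valuation (P.coeff i₀) ≠ 0 := (Valuation.ne_zero_iff _).2 ha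
        rw [inv_mul_le_iff₀ (zero_lt_iff.2 h2), mul_one]
        exact h1
      · rw [Polynomial.notMem_support_iff.1 hn, map_zero, mul_zero]
        exact zero_le_one
    exact ⟨⟨_, this⟩, rfl⟩
  obtain ⟨Q, hQ⟩ := (Polynomial.mem_lifts _).1 hmem
  refine ⟨P.coeff i₀, Q, ha, ?_, ?_⟩
  · rw [hQ, ← mul_assoc, ← C_mul, mul_inv_cancel₀ ha, C_1, one_mul]
  · intro h0
    have h1 : (Q.map D.rA).coeff i₀ = 0 := by rw [h0, coeff_zero]
    rw [Polynomial.coeff_map] at h1
    have h2 : Q.coeff i₀ = 1 := by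
      apply Subtype.ext
      have := congrArg (fun p => Polynomial.coeff p i₀) hQ
      simp only [Polynomial.coeff_map, Polynomial.coeff_C_mul] at this
      rw [inv_mul_cancel₀ ha] at this
      exact this
    rw [h2, map_one] at h1
    exact one_ne_zero h1

/-- a primitive polynomial evaluates to a unit of `O`. -/
theorem P1_rd_ne_zero (ht : t ∈ D.O) (htr : Transcendental k (D.rd t)) (Q : (D.A)[X])
    (hQ : Q.map D.rA ≠ 0) : D.rd (aeval t (Q.map D.A.subtype)) ≠ 0 := by
  rw [(P1_red ht Q).2]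
  exact fun h => hQ ((transcendental_iff.1 htr) _ h)

/-- (2) `O ∩ K[t] = A[t]`. -/
theorem P1_int (ht : t ∈ D.O) (htr : Transcendental k (D.rd t)) (P : K[X])
    (hP : aeval t P ∈ D.O) : ∃ Q : (D.A)[X], Q.map D.A.subtype = P := by
  by_cases h0 : P = 0
  · exact ⟨0, by rw [h0, Polynomial.map_zero]⟩
  obtain ⟨a, Q, ha, hPQ, hQ⟩ := P1_prim D P h0
  have hu := P1_rd_ne_zero ht htr Q hQ
  have hne : aeval t (Q.map D.A.subtype) ≠ 0 := by
    intro h; rw [h] at hu; exact hu RedData.rd_zero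
  have haO : algebraMap K F a ∈ D.O := by
    have : algebraMap K F a = aeval t P * (aeval t (Q.map D.A.subtype))⁻¹ := by
      rw [hPQ, map_mul, aeval_C, mul_assoc, mul_inv_cancel₀ hne, mul_one]
    rw [this]
    exact mul_mem hP (RedData.inv_mem_of_rd_ne_zero hu)
  have haA : a ∈ D.A := (D.mem_iff a).1 haO
  refine ⟨C ⟨a, haA⟩ * Q, ?_⟩
  rw [Polynomial.map_mul, Polynomial.map_C, hPQ]
  rfl

/-- (4) `t` is transcendental over `K`. -/
theorem P1_trans (ht : t ∈ D.O) (htr : Transcendental k (D.rd t)) : Transcendental K t := by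
  rw [transcendental_iff]
  intro P hP
  by_contra h0
  obtain ⟨a, Q, ha, hPQ, hQ⟩ := P1_prim D P h0
  have hu := P1_rd_ne_zero ht htr Q hQ
  have hne : aeval t (Q.map D.A.subtype) ≠ 0 := by
    intro h; rw [h] at hu; exact hu RedData.rd_zero
  rw [hPQ, map_mul, aeval_C] at hP
  rcases mul_eq_zero.1 hP with h | h
  · exact ha ((map_eq_zero _).1 h)
  · exact hne h

/-- (5) `O ∩ K(t)` reduces into `k(tbar)`. -/
theorem P1_field (ht : t ∈ D.O) (htr : Transcendental k (D.rd t)) (c : F) (hc : c ∈ K⟮t⟯)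
    (hcO : c ∈ D.O) : D.rd c ∈ k⟮D.rd t⟯ := by
  obtain ⟨P, Q, rfl⟩ := (IntermediateField.mem_adjoin_simple_iff K c).1 hc
  by_cases hP0 : P = 0
  · rw [hP0, map_zero, zero_div, RedData.rd_zero]; exact zero_mem _
  by_cases hQ0 : Q = 0
  · rw [hQ0, map_zero, div_zero, RedData.rd_zero]; exact zero_mem _
  obtain ⟨a, P₀, ha, hP, hP₀⟩ := P1_prim D P hP0
  obtain ⟨b, Q₀, hb, hQ, hQ₀⟩ := P1_prim D Q hQ0
  have hPu := P1_rd_ne_zero ht htr P₀ hP₀
  have hQu := P1_rd_ne_zero ht htr Q₀ hQ₀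
  have hPne : aeval t (P₀.map D.A.subtype) ≠ 0 := by
    intro h; rw [h] at hPu; exact hPu RedData.rd_zero
  have hQne : aeval t (Q₀.map D.A.subtype) ≠ 0 := by
    intro h; rw [h] at hQu; exact hQu RedData.rd_zero
  have hb' : algebraMap K F b ≠ 0 := (_root_.map_ne_zero _).2 hb
  have e1 : aeval t P / aeval t Q = algebraMap K F (a / b)
      * (aeval t (P₀.map D.A.subtype) / aeval t (Q₀.map D.A.subtype)) := by
    rw [hP, hQ, map_mul, map_mul, aeval_C, aeval_C, map_div₀]
    field_simp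
  have habO : algebraMap K F (a / b) ∈ D.O := by
    have : algebraMap K F (a / b) = (aeval t P / aeval t Q)
        * (aeval t (Q₀.map D.A.subtype) * (aeval t (P₀.map D.A.subtype))⁻¹) := by
      rw [e1]; field_simp
    rw [this]
    exact mul_mem hcO (mul_mem (P1_red ht Q₀).1 (RedData.inv_mem_of_rd_ne_zero hPu))
  have habA : a / b ∈ D.A := (D.mem_iff _).1 habO
  rw [e1, RedData.rd_mul habO (RedData.div_mem (P1_red ht P₀).1 hQu),
    RedData.rd_div (P1_red ht P₀).1 hQu, RedData.rd_algebraMap habA, (P1_red ht P₀).2,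
    (P1_red ht Q₀).2]
  refine mul_mem (IntermediateField.algebraMap_mem _ _) (div_mem ?_ ?_)
  · exact (IntermediateField.mem_adjoin_simple_iff k _).2 ⟨P₀.map D.rA, 1, by simp⟩
  · exact (IntermediateField.mem_adjoin_simple_iff k _).2 ⟨Q₀.map D.rA, 1, by simp⟩

end

theorem stmt_Gauss : Stmt_Gauss := by
  intro K F k Fb _ _ _ _ _ _ D t ht htr
  exact ⟨P1_red ht, P1_int ht htr, P1_prim D, P1_trans ht htr,
    fun c hc => P1_field ht htr c c.2 hc⟩

end Fermat.Agent.INJ
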