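import Fermat.Agent.INJ.Interface2
import Fermat.Agent.INJ.P1
import Fermat.Agent.INJ.P2

/-!
# INJ, package P17 : the residue extension is finite (fundamental inequality)
-/

set_option autoImplicit false

namespace Fermat.Agent.INJ

open Polynomial IntermediateField

theorem stmt_ResFinite_of (h2 : Stmt_Ortho) : Stmt_ResFinite := by
  intro K F k Fb _ _ _ _ _ _ D t ht htr hfin
  have hrank : Module.rank k⟮D.rd t⟯ Fb ≤ (Module.finrank K⟮t⟯ F : ℕ) := by
    apply rank_le
    intro s hs
    choose E hE1 hE2 using fun y : Fb => RedData.exists_rd_eq (D := D) y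
    obtain ⟨hli, -⟩ := h2 K F k Fb D t ht htr s (fun i => E i) (fun i => hE1 _)
      (by simpa [hE2] using hs)
    have := hli.fintype_card_le_finrank
    simpa using this
  exact Module.rank_lt_aleph0_iff.mp (lt_of_le_of_lt hrank Cardinal.natCast_lt_aleph0)

theorem stmt_ResFinite : Stmt_ResFinite := stmt_ResFinite_of (stmt_Ortho stmt_Gauss)

end Fermat.Agent.INJ
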