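import Fermat.Agent.INJ.Interface2

/-!
# INJ / P16 : separability via the derivation `θ = q d/dq`
-/

set_option autoImplicit false

namespace Fermat.Agent.INJ

open Polynomial IntermediateField

section MkDer

/-- a derivation from a bare function (avoids instance diamonds on concrete rings). -/
noncomputable def P16_mkDer {k M : Type} [Field k] [Field M] [Algebra k M] (θ : M → M)
    (hadd : ∀ a b, θ (a + b) = θ a + θ b) (hmul : ∀ a b, θ (a * b) = a * θ b + b * θ a)
    (hc : ∀ c : k, θ (algebraMap k M c) = 0) : Derivation k M M :=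
  Derivation.mk'
    { toFun := θ
      map_add' := hadd
      map_smul' := fun c a => by
        rw [Algebra.smul_def, hmul, hc, mul_zero, add_zero, RingHom.id_apply, Algebra.smul_def] }
    (fun a b => by
      show θ (a * b) = a • θ b + b • θ a
      rw [hmul, smul_eq_mul, smul_eq_mul])

theorem P16_mkDer_apply {k M : Type} [Field k] [Field M] [Algebra k M] (θ : M → M)
    (hadd : ∀ a b, θ (a + b) = θ a + θ b) (hmul : ∀ a b, θ (a * b) = a * θ b + b * θ a)
    (hc : ∀ c : k, θ (algebraMap k M c) = 0) (a : M) : P16_mkDer θ hadd hmul hc a = θ a := rfl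

end MkDer

section Theta

variable {k : Type} [Field k]

/-- `θ = q d/dq` on Laurent series. -/
def P16_thetaFun (f : LaurentSeries k) : LaurentSeries k where
  coeff n := (n : k) * f.coeff n
  isPWO_support' := f.isPWO_support.mono (fun n hn h => hn (by
    show (n : k) * f.coeff n = 0
    rw [h, mul_zero]))

theorem P16_thetaFun_coeff (f : LaurentSeries k) (n : ℤ) :
    (P16_thetaFun f).coeff n = (n : k) * f.coeff n := rfl

theorem P16_thetaFun_support (f : LaurentSeries k) : (P16_thetaFun f).support ⊆ f.support :=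
  fun n hn h => hn (by rw [P16_thetaFun_coeff, h, mul_zero])

theorem P16_thetaFun_mul (f g : LaurentSeries k) :
    P16_thetaFun (f * g) = f * P16_thetaFun g + g * P16_thetaFun f := by
  ext n
  rw [P16_thetaFun_coeff, HahnSeries.coeff_add, HahnSeries.coeff_mul,
    HahnSeries.coeff_mul_right' g.isPWO_support (P16_thetaFun_support g), mul_comm g,
    HahnSeries.coeff_mul_left' f.isPWO_support (P16_thetaFun_support f),
    Finset.mul_sum, ← Finset.sum_add_distrib]
  refine Finset.sum_congr rfl fun ij hij => ?_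
  have h : ij.1 + ij.2 = n := (Finset.mem_antidiagonal.mp hij).2.2
  rw [P16_thetaFun_coeff, P16_thetaFun_coeff, ← h]
  push_cast
  ring

theorem P16_thetaFun_add (f g : LaurentSeries k) :
    P16_thetaFun (f + g) = P16_thetaFun f + P16_thetaFun g := by
  ext n
  simp only [P16_thetaFun_coeff, HahnSeries.coeff_add, mul_add]

theorem P16_thetaFun_algebraMap (c : k) : P16_thetaFun (algebraMap k (LaurentSeries k) c) = 0 := by
  ext n
  rw [P16_thetaFun_coeff, LaurentSeries.algebraMap_apply, HahnSeries.coeff_zero]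
  by_cases hn : n = 0
  · subst hn; simp
  · rw [HahnSeries.C_apply, HahnSeries.coeff_single_of_ne hn, mul_zero]

end Theta

section LemmaA

variable {k E L M : Type} [Field k] [Field E] [Field L] [Field M] [Algebra k M] [Algebra E L]
  (ℓ : ℕ) [Fact ℓ.Prime] [CharP E ℓ] [CharP M ℓ] (j : L →+* M) (δ : Derivation k M M)

omit [Fact ℓ.Prime] in
theorem P16_der_pow_char (a : M) : δ (a ^ ℓ) = 0 := by
  rw [Derivation.leibniz_pow, nsmul_eq_mul, CharP.cast_eq_zero, zero_mul]

theorem P16_der_pow_of_der_eq_zero {w : M} (hw : δ w = 0) (i : ℕ) : δ (w ^ i) = 0 := by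
  rw [Derivation.leibniz_pow, hw, smul_zero, smul_zero]

/-- the polynomial obtained by applying `Dc` to the coefficients below the top one. -/
noncomputable def P16_derPoly (Dc : E → E) (Q : E[X]) : E[X] :=
  ∑ i ∈ Finset.range Q.natDegree, monomial i (Dc (Q.coeff i))

theorem P16_derPoly_coeff (Dc : E → E) (Q : E[X]) (m : ℕ) :
    (P16_derPoly Dc Q).coeff m = if m < Q.natDegree then Dc (Q.coeff m) else 0 := by
  classical
  unfold P16_derPoly
  rw [finsetSum_coeff]
  simp only [coeff_monomial]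
  rw [Finset.sum_ite_eq']
  simp only [Finset.mem_range]

theorem P16_derPoly_degree_lt (Dc : E → E) (Q : E[X]) (hQ : Q ≠ 0) :
    (P16_derPoly Dc Q).degree < Q.degree := by
  rw [degree_eq_natDegree hQ, degree_lt_iff_coeff_zero]
  intro m hm
  rw [P16_derPoly_coeff, if_neg (by omega)]

theorem P16_der_eval₂ (ι : E →+* M) {w : M} (hw : δ w = 0) (u : M) (Dc : E → E)
    (hDc : ∀ c, δ (ι c) = ι (Dc c) * u) (hD1 : Dc 1 = 0) (Q : E[X]) (hQ : Q.Monic) :
    δ (Q.eval₂ ι w) = u * (P16_derPoly Dc Q).eval₂ ι w := by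
  have hterm : ∀ i, δ (ι (Q.coeff i) * w ^ i) = u * (ι (Dc (Q.coeff i)) * w ^ i) := by
    intro i
    rw [Derivation.leibniz, P16_der_pow_of_der_eq_zero δ hw, smul_zero, zero_add, hDc, smul_eq_mul]
    ring
  rw [eval₂_eq_sum_range, map_sum, Finset.sum_range_succ, hterm, hQ.coeff_natDegree, hD1, map_zero,
    zero_mul, mul_zero, add_zero]
  unfold P16_derPoly
  rw [eval₂_finsetSum, Finset.mul_sum]
  refine Finset.sum_congr rfl fun i _ => ?_
  rw [hterm, eval₂_monomial]

theorem P16_separable_of_der (u : M) (hu : u ≠ 0)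
    (h1 : ∀ c : E, ∃ c' : E, δ (j (algebraMap E L c)) = j (algebraMap E L c') * u)
    (h2 : ∀ c : E, δ (j (algebraMap E L c)) = 0 → ∃ d : E, d ^ ℓ = c)
    (y : L) (hy : IsIntegral E y) : (minpoly E y).Separable := by
  classical
  have hℓ : ℓ.Prime := Fact.out
  choose Dc hDc using h1
  rcases separable_or ℓ (minpoly.irreducible hy) with h | ⟨-, Q, hQirr, hQ⟩
  · exact h
  exfalso
  set ι : E →+* M := j.comp (algebraMap E L) with hι
  have hιinj : Function.Injective ι := ι.injective
  have hDc' : ∀ c, δ (ι c) = ι (Dc c) * u := hDc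
  have hD1 : Dc 1 = 0 := by
    have h := hDc' 1
    rw [map_one, Derivation.map_one_eq_zero] at h
    have h3 : ι (Dc 1) = 0 := (mul_eq_zero.mp h.symm).resolve_right hu
    exact (map_eq_zero ι).mp h3
  have hQmonic : Q.Monic := (monic_expand_iff hℓ.pos).mp (hQ ▸ minpoly.monic hy)
  have hz : aeval (y ^ ℓ) Q = 0 := by rw [← expand_aeval, hQ, minpoly.aeval]
  have hQmin : Q = minpoly E (y ^ ℓ) := minpoly.eq_of_irreducible_of_monic hQirr hz hQmonic
  have hw : δ (j (y ^ ℓ)) = 0 := by rw [map_pow, P16_der_pow_char]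
  have hev : ∀ R : E[X], R.eval₂ ι (j (y ^ ℓ)) = j (aeval (y ^ ℓ) R) := by
    intro R
    rw [aeval_def, hom_eval₂]
  have e1 := P16_der_eval₂ δ ι hw u Dc hDc' hD1 Q hQmonic
  rw [hev, hz, map_zero, map_zero, hev] at e1
  have e2 : aeval (y ^ ℓ) (P16_derPoly Dc Q) = 0 :=
    (map_eq_zero j).mp ((mul_eq_zero.mp e1.symm).resolve_left hu)
  have e3 : P16_derPoly Dc Q = 0 := by
    by_contra hne
    have h3 := minpoly.degree_le_of_ne_zero E (y ^ ℓ) hne e2
    rw [← hQmin] at h3
    exact absurd (P16_derPoly_degree_lt Dc Q hQmonic.ne_zero) (not_lt.mpr h3)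
  have hroot : ∀ i, ∃ d : E, d ^ ℓ = Q.coeff i := by
    intro i
    rcases lt_trichotomy i Q.natDegree with hi | hi | hi
    · apply h2
      have h3 : Dc (Q.coeff i) = 0 := by
        have := P16_derPoly_coeff Dc Q i
        rw [e3, coeff_zero, if_pos hi] at this
        exact this.symm
      have h4 := hDc' (Q.coeff i)
      rw [h3, map_zero, zero_mul] at h4
      exact h4
    · exact ⟨1, by rw [hi, hQmonic.coeff_natDegree, one_pow]⟩
    · exact ⟨0, by rw [coeff_eq_zero_of_natDegree_lt hi, zero_pow hℓ.ne_zero]⟩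
  choose d hd using hroot
  set S : E[X] := ∑ i ∈ Finset.range (Q.natDegree + 1), monomial i (d i) with hS
  have hScoeff : ∀ m, S.coeff m = if m < Q.natDegree + 1 then d m else 0 := by
    intro m
    rw [hS, finsetSum_coeff]
    simp only [coeff_monomial]
    rw [Finset.sum_ite_eq']
    simp only [Finset.mem_range]
  have hQS : Q = S.map (frobenius E ℓ) := by
    ext m
    rw [coeff_map, hScoeff]
    split_ifs with hm
    · rw [frobenius_def, hd]
    · rw [map_zero, coeff_eq_zero_of_natDegree_lt (by omega)]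
  have hpow : minpoly E y = S ^ ℓ := by
    rw [← hQ, hQS, ← map_expand, map_frobenius_expand]
  have hirr := minpoly.irreducible hy
  rw [hpow] at hirr
  exact not_irreducible_pow hℓ.ne_one hirr

end LemmaA

section LemmaB

variable {k M : Type} [Field k] [Field M] [Algebra k M] (δ : Derivation k M M)

theorem P16_transcendental [PerfectField k] {T : M} (hT : δ T ≠ 0) : Transcendental k T := by
  intro halg
  have hint : IsIntegral k T := halg.isIntegral
  have hsep : (minpoly k T).Separable :=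
    PerfectField.separable_of_irreducible (minpoly.irreducible hint)
  have h0 : δ (aeval T (minpoly k T)) = 0 := by rw [minpoly.aeval, map_zero]
  rw [Derivation.map_aeval, smul_eq_mul] at h0
  have h1 : aeval T (derivative (minpoly k T)) = 0 := (mul_eq_zero.mp h0).resolve_right hT
  obtain ⟨a, b, hab⟩ := hsep
  have h2 := congrArg (aeval T) hab
  rw [map_add, map_mul, map_mul, minpoly.aeval, h1, mul_zero, mul_zero, add_zero, map_one] at h2
  exact zero_ne_one h2

variable {E : Type} [Field E] [Algebra k E] (ιA : E →ₐ[k] M) (γ : E)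

theorem P16_iota_aeval (f : k[X]) : ιA (aeval γ f) = aeval (ιA γ) f :=
  (aeval_algHom_apply ιA γ f).symm

theorem P16_h1 (hgen : ∀ c : E, ∃ f g : k[X], c = aeval γ f / aeval γ g) (c : E) :
    ∃ c' : E, δ (ιA c) = ιA c' * δ (ιA γ) := by
  obtain ⟨f, g, rfl⟩ := hgen c
  refine ⟨(aeval γ g)⁻¹ ^ 2 * (aeval γ g * aeval γ (derivative f)
    - aeval γ f * aeval γ (derivative g)), ?_⟩
  rw [map_div₀, Derivation.leibniz_div, P16_iota_aeval, P16_iota_aeval, Derivation.map_aeval,
    Derivation.map_aeval]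
  simp only [map_mul, map_sub, map_pow, map_inv₀, P16_iota_aeval, smul_eq_mul]
  ring

theorem P16_h2 (ℓ : ℕ) [Fact ℓ.Prime] [CharP k ℓ] [PerfectField k] (hT : δ (ιA γ) ≠ 0)
    (hgen : ∀ c : E, ∃ f g : k[X], c = aeval γ f / aeval γ g) (c : E) (hc : δ (ιA c) = 0) :
    ∃ d : E, d ^ ℓ = c := by
  have hℓ : ℓ.Prime := Fact.out
  have : CharP M ℓ := charP_of_injective_algebraMap (algebraMap k M).injective ℓ
  have htr : Transcendental k (ιA γ) := P16_transcendental δ hT
  obtain ⟨f, g, rfl⟩ := hgen c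
  by_cases hb : aeval γ g = 0
  · exact ⟨0, by rw [hb, div_zero, zero_pow hℓ.ne_zero]⟩
  have hb' : aeval (ιA γ) g ≠ 0 := by
    rw [← P16_iota_aeval]
    exact (map_ne_zero ιA).mpr hb
  have hpow : (aeval γ g) ^ ℓ = aeval γ g * (aeval γ g) ^ (ℓ - 1) := by
    rw [← pow_succ', Nat.sub_add_cancel hℓ.one_le]
  have hc1 : aeval γ f / aeval γ g = aeval γ (f * g ^ (ℓ - 1)) / (aeval γ g) ^ ℓ := by
    rw [map_mul, map_pow, hpow, mul_div_mul_right _ _ (pow_ne_zero _ hb)]
  rw [hc1, map_div₀, map_pow, P16_iota_aeval, P16_iota_aeval,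
    Derivation.leibniz_div_const _ _ _ (P16_der_pow_char ℓ δ _), Derivation.map_aeval, smul_eq_mul,
    smul_eq_mul] at hc
  have hder0 : aeval (ιA γ) (derivative (f * g ^ (ℓ - 1))) = 0 := by
    rcases mul_eq_zero.mp hc with h | h
    · exact absurd h (inv_ne_zero (pow_ne_zero _ hb'))
    · exact (mul_eq_zero.mp h).resolve_right hT
  have hder : derivative (f * g ^ (ℓ - 1)) = 0 := transcendental_iff.mp htr _ hder0
  have hexp := expand_contract ℓ hder hℓ.ne_zero
  set h₂ : k[X] := (contract ℓ (f * g ^ (ℓ - 1))).map ((frobeniusEquiv k ℓ).symm : k →+* k) with hh₂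
  have hmap : h₂.map (frobenius k ℓ) = contract ℓ (f * g ^ (ℓ - 1)) := by
    rw [hh₂, Polynomial.map_map, frobenius_comp_frobeniusEquiv_symm, Polynomial.map_id]
  have hh : h₂ ^ ℓ = f * g ^ (ℓ - 1) := by
    rw [← map_frobenius_expand, map_expand, hmap, hexp]
  refine ⟨aeval γ h₂ / aeval γ g, ?_⟩
  rw [hc1, div_pow, ← map_pow, hh]

end LemmaB

theorem P16_main {k M : Type} [Field k] [Field M] [Algebra k M] (ℓ : ℕ) [Fact ℓ.Prime] [CharP k ℓ]
    [PerfectField k] (δ : Derivation k M M) (L : IntermediateField k M) (tb : L)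
    (hT : δ (tb : M) ≠ 0) (halg : Algebra.IsAlgebraic k⟮tb⟯ L) : Algebra.IsSeparable k⟮tb⟯ L := by
  have : CharP M ℓ := charP_of_injective_algebraMap (algebraMap k M).injective ℓ
  have : CharP k⟮tb⟯ ℓ := charP_of_injective_algebraMap (algebraMap k k⟮tb⟯).injective ℓ
  let ιA : k⟮tb⟯ →ₐ[k] M := L.val.comp (k⟮tb⟯).val
  have hγ : ιA (AdjoinSimple.gen k tb) = (tb : M) := rfl
  have hgen : ∀ c : k⟮tb⟯, ∃ f g : k[X],
      c = aeval (AdjoinSimple.gen k tb) f / aeval (AdjoinSimple.gen k tb) g := by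
    intro c
    obtain ⟨f, g, hfg⟩ := (mem_adjoin_simple_iff k (c : L)).mp c.2
    refine ⟨f, g, Subtype.ext ?_⟩
    have hval : ∀ r : k[X], ((aeval (AdjoinSimple.gen k tb) r : k⟮tb⟯) : L) = aeval tb r := by
      intro r
      exact (aeval_algHom_apply (k⟮tb⟯).val (AdjoinSimple.gen k tb) r).symm
    rw [hfg, IntermediateField.coe_div, hval, hval]
  refine ⟨fun y => ?_⟩
  exact P16_separable_of_der ℓ (L.val : L →+* M) δ (δ (tb : M)) hT
    (fun c => P16_h1 δ ιA (AdjoinSimple.gen k tb) hgen c)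
    (fun c hc => P16_h2 δ ιA (AdjoinSimple.gen k tb) ℓ hT hgen c hc)
    y (halg.isIntegral.isIntegral y)

theorem stmt_SepL : Stmt_SepL := by
  intro k _ ℓ _ _ _ L tb ⟨n, hn, hcoeff⟩ halg
  let δ := P16_mkDer (k := k) (M := LaurentSeries k) P16_thetaFun P16_thetaFun_add P16_thetaFun_mul
    P16_thetaFun_algebraMap
  have hT : δ (tb : LaurentSeries k) ≠ 0 := by
    intro h
    have h1 : (P16_thetaFun (tb : LaurentSeries k)).coeff n = 0 := by
      have h2 : P16_thetaFun (tb : LaurentSeries k) = 0 := h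
      rw [h2, HahnSeries.coeff_zero]
    rw [P16_thetaFun_coeff] at h1
    exact (mul_ne_zero hn hcoeff) h1
  exact P16_main ℓ δ L tb hT halg

end Fermat.Agent.INJ
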