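import Mathlib

/-!
# INJ : abstract "reduction is injective on prime-to-ℓ torsion" (Claim K), definitions + basic API

Setting.  `K` a field with a valuation subring `A` (residue field `k`), `F / K` a function field with
a valuation subring `O` lying over `A`, unramified over `A` (same value group), residue field `Fb`.
`D.rd : F → Fb` is the (total) reduction map (junk value `0` outside `O`).
-/

set_option autoImplicit false

namespace Fermat.Agent.INJ

open Polynomial IntermediateField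

/-- Reduction data. -/
structure RedData (K F k Fb : Type*) [Field K] [Field F] [Algebra K F] [Field k] [Field Fb]
    [Algebra k Fb] where
  A : ValuationSubring K
  O : ValuationSubring F
  rA : A →+* k
  rO : O →+* Fb
  rA_surj : Function.Surjective rA
  rO_surj : Function.Surjective rO
  mem_iff : ∀ a : K, algebraMap K F a ∈ O ↔ a ∈ A
  compat : ∀ (a : K) (ha : a ∈ A) (h : algebraMap K F a ∈ O),
    rO ⟨algebraMap K F a, h⟩ = algebraMap k Fb (rA ⟨a, ha⟩)
  unram : ∀ x : F, x ≠ 0 → ∃ a : K, a ≠ 0 ∧ x * algebraMap K F a ∈ O ∧ (x * algebraMap K F a)⁻¹ ∈ O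

section API

variable {K F k Fb : Type*} [Field K] [Field F] [Algebra K F] [Field k] [Field Fb] [Algebra k Fb]
variable (D : RedData K F k Fb)

open Classical in
/-- total reduction map `F → Fb` (zero outside `O`). -/
noncomputable def RedData.rd (x : F) : Fb := if h : x ∈ D.O then D.rO ⟨x, h⟩ else 0

open Classical in
/-- total reduction map `K → k` (zero outside `A`). -/
noncomputable def RedData.ra (a : K) : k := if h : a ∈ D.A then D.rA ⟨a, h⟩ else 0

variable {D}

theorem RedData.rd_of_mem {x : F} (h : x ∈ D.O) : D.rd x = D.rO ⟨x, h⟩ := dif_pos h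

theorem RedData.rd_of_not_mem {x : F} (h : x ∉ D.O) : D.rd x = 0 := dif_neg h

theorem RedData.ra_of_mem {a : K} (h : a ∈ D.A) : D.ra a = D.rA ⟨a, h⟩ := dif_pos h

@[simp] theorem RedData.rd_zero : D.rd 0 = 0 := by
  rw [RedData.rd_of_mem D.O.zero_mem]; exact map_zero D.rO

@[simp] theorem RedData.rd_one : D.rd 1 = 1 := by
  rw [RedData.rd_of_mem D.O.one_mem]; exact map_one D.rO

theorem RedData.rd_add {x y : F} (hx : x ∈ D.O) (hy : y ∈ D.O) :
    D.rd (x + y) = D.rd x + D.rd y := by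
  rw [RedData.rd_of_mem hx, RedData.rd_of_mem hy, RedData.rd_of_mem (add_mem hx hy),
    ← map_add]; rfl

theorem RedData.rd_mul {x y : F} (hx : x ∈ D.O) (hy : y ∈ D.O) :
    D.rd (x * y) = D.rd x * D.rd y := by
  rw [RedData.rd_of_mem hx, RedData.rd_of_mem hy, RedData.rd_of_mem (mul_mem hx hy),
    ← map_mul]; rfl

theorem RedData.rd_neg {x : F} (hx : x ∈ D.O) : D.rd (-x) = - D.rd x := by
  rw [RedData.rd_of_mem hx, RedData.rd_of_mem (neg_mem hx), ← map_neg]; rfl

theorem RedData.rd_sub {x y : F} (hx : x ∈ D.O) (hy : y ∈ D.O) :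
    D.rd (x - y) = D.rd x - D.rd y := by
  rw [sub_eq_add_neg, RedData.rd_add hx (neg_mem hy), RedData.rd_neg hy, sub_eq_add_neg]

theorem RedData.rd_pow {x : F} (hx : x ∈ D.O) (n : ℕ) : D.rd (x ^ n) = D.rd x ^ n := by
  rw [RedData.rd_of_mem hx, RedData.rd_of_mem (pow_mem hx n), ← map_pow]; rfl

theorem RedData.sum_mem {ι : Type*} (s : Finset ι) (f : ι → F) (h : ∀ i ∈ s, f i ∈ D.O) :
    ∑ i ∈ s, f i ∈ D.O := D.O.toSubring.sum_mem h

theorem RedData.prod_mem {ι : Type*} (s : Finset ι) (f : ι → F) (h : ∀ i ∈ s, f i ∈ D.O) :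
    ∏ i ∈ s, f i ∈ D.O := D.O.toSubring.prod_mem h

theorem RedData.rd_sum {ι : Type*} (s : Finset ι) (f : ι → F) (h : ∀ i ∈ s, f i ∈ D.O) :
    D.rd (∑ i ∈ s, f i) = ∑ i ∈ s, D.rd (f i) := by
  classical
  induction s using Finset.induction_on with
  | empty => simp
  | insert a s ha ih =>
    rw [Finset.sum_insert ha, Finset.sum_insert ha,
      RedData.rd_add (h a (Finset.mem_insert_self a s))
        (RedData.sum_mem s f fun i hi => h i (Finset.mem_insert_of_mem hi)),
      ih fun i hi => h i (Finset.mem_insert_of_mem hi)]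

theorem RedData.rd_prod {ι : Type*} (s : Finset ι) (f : ι → F) (h : ∀ i ∈ s, f i ∈ D.O) :
    D.rd (∏ i ∈ s, f i) = ∏ i ∈ s, D.rd (f i) := by
  classical
  induction s using Finset.induction_on with
  | empty => simp
  | insert a s ha ih =>
    rw [Finset.prod_insert ha, Finset.prod_insert ha,
      RedData.rd_mul (h a (Finset.mem_insert_self a s))
        (RedData.prod_mem s f fun i hi => h i (Finset.mem_insert_of_mem hi)),
      ih fun i hi => h i (Finset.mem_insert_of_mem hi)]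

theorem RedData.exists_rd_eq (y : Fb) : ∃ x ∈ D.O, D.rd x = y := by
  obtain ⟨x, hx⟩ := D.rO_surj y
  exact ⟨x.1, x.2, by rw [RedData.rd_of_mem x.2]; exact hx⟩

theorem RedData.exists_ra_eq (c : k) : ∃ a ∈ D.A, D.ra a = c := by
  obtain ⟨x, hx⟩ := D.rA_surj c
  exact ⟨x.1, x.2, by rw [RedData.ra_of_mem x.2]; exact hx⟩

theorem RedData.algebraMap_mem {a : K} (ha : a ∈ D.A) : algebraMap K F a ∈ D.O :=
  (D.mem_iff a).2 ha

theorem RedData.rd_algebraMap {a : K} (ha : a ∈ D.A) :
    D.rd (algebraMap K F a) = algebraMap k Fb (D.ra a) := by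
  rw [RedData.rd_of_mem (RedData.algebraMap_mem ha), RedData.ra_of_mem ha]
  exact D.compat a ha _

/-- an element of `O` with nonzero reduction is a unit of `O`. -/
theorem RedData.inv_mem_of_rd_ne_zero {x : F} (h : D.rd x ≠ 0) : x⁻¹ ∈ D.O := by
  by_contra hx
  have hxO : x ∈ D.O := by
    by_contra h'
    exact h (RedData.rd_of_not_mem h')
  have hx0 : x ≠ 0 := by
    rintro rfl
    exact h RedData.rd_zero
  -- `⟨x, hxO⟩` is not a unit, so it lies in the maximal ideal = kernel of `rO`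
  have hnu : ¬ IsUnit (⟨x, hxO⟩ : D.O) := by
    intro hu
    obtain ⟨u, hu⟩ := hu
    apply hx
    have h1 : x * ((u⁻¹ : (D.O)ˣ) : D.O).1 = 1 := by
      have h2 : (u : D.O) * ((u⁻¹ : (D.O)ˣ) : D.O) = 1 := u.mul_inv
      rw [hu] at h2
      exact congrArg Subtype.val h2
    have h3 : x⁻¹ = ((u⁻¹ : (D.O)ˣ) : D.O).1 := by
      exact inv_eq_of_mul_eq_one_right h1
    rw [h3]; exact ((u⁻¹ : (D.O)ˣ) : D.O).2
  have hker : (RingHom.ker D.rO).IsMaximal := RingHom.ker_isMaximal_of_surjective D.rO D.rO_surj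
  have hmem : (⟨x, hxO⟩ : D.O) ∈ RingHom.ker D.rO := by
    rw [IsLocalRing.eq_maximalIdeal hker]
    exact (IsLocalRing.mem_maximalIdeal _).2 hnu
  apply h
  rw [RedData.rd_of_mem hxO]
  exact hmem

theorem RedData.mem_of_rd_ne_zero {x : F} (h : D.rd x ≠ 0) : x ∈ D.O := by
  by_contra h'
  exact h (RedData.rd_of_not_mem h')

theorem RedData.rd_inv {x : F} (h : D.rd x ≠ 0) : D.rd x⁻¹ = (D.rd x)⁻¹ := by
  have hx := RedData.mem_of_rd_ne_zero h
  have hx' := RedData.inv_mem_of_rd_ne_zero h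
  have hx0 : x ≠ 0 := by
    rintro rfl
    exact h RedData.rd_zero
  have h1 : D.rd x * D.rd x⁻¹ = 1 := by
    rw [← RedData.rd_mul hx hx', mul_inv_cancel₀ hx0, RedData.rd_one]
  exact eq_inv_of_mul_eq_one_right h1

/-- if `x ∈ O` and `x⁻¹ ∈ O` then the reduction of `x` is nonzero. -/
theorem RedData.rd_ne_zero_of_inv_mem {x : F} (hx0 : x ≠ 0) (hx : x ∈ D.O) (hx' : x⁻¹ ∈ D.O) :
    D.rd x ≠ 0 := by
  intro h
  have h1 : D.rd x * D.rd x⁻¹ = 1 := by
    rw [← RedData.rd_mul hx hx', mul_inv_cancel₀ hx0, RedData.rd_one]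
  rw [h, zero_mul] at h1
  exact zero_ne_one h1

/-- an element outside `O` has inverse in `O` with reduction `0`. -/
theorem RedData.inv_mem_of_not_mem {x : F} (hx : x ∉ D.O) : x⁻¹ ∈ D.O ∧ D.rd x⁻¹ = 0 := by
  have h1 : x⁻¹ ∈ D.O := (D.O.mem_or_inv_mem x).resolve_left hx
  refine ⟨h1, ?_⟩
  by_contra h
  have := RedData.inv_mem_of_rd_ne_zero h
  rw [inv_inv] at this
  exact hx this

theorem RedData.rd_div {x y : F} (hx : x ∈ D.O) (hy : D.rd y ≠ 0) :
    D.rd (x / y) = D.rd x / D.rd y := by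
  rw [div_eq_mul_inv, RedData.rd_mul hx (RedData.inv_mem_of_rd_ne_zero hy), RedData.rd_inv hy,
    div_eq_mul_inv]

theorem RedData.div_mem {x y : F} (hx : x ∈ D.O) (hy : D.rd y ≠ 0) : x / y ∈ D.O := by
  rw [div_eq_mul_inv]; exact mul_mem hx (RedData.inv_mem_of_rd_ne_zero hy)

end API

/-! ### Integrality over `K[t]`, trace dual, charts -/

section Charts

variable (K : Type*) {F : Type*} [Field K] [Field F] [Algebra K F]

/-- `x` is integral over `K[t] ⊆ F`. -/
def IsInt (t x : F) : Prop := IsIntegral (Algebra.adjoin K {t}) x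

/-- `z` lies in the trace dual of the integral closure `B` of `K[t]` in `F`:
`Tr_{F/K(t)}(z y) ∈ K[t]` for all `y ∈ B`. -/
def InDual (t z : F) : Prop :=
  ∀ y : F, IsInt K t y →
    ∃ P : K[X], algebraMap K⟮t⟯ F (Algebra.trace K⟮t⟯ F (z * y)) = aeval t P

variable {K} {k Fb : Type*} [Field k] [Field Fb] [Algebra k Fb]

/-- `t` is a good coordinate: its reduction is transcendental, and the residue field extension
`Fb / k(tbar)` is separable of full degree `[F : K(t)]`. -/
structure Chart (D : RedData K F k Fb) (t : F) : Prop where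
  t_mem : t ∈ D.O
  trans : Transcendental k (D.rd t)
  fin : FiniteDimensional K⟮t⟯ F
  deg : ∃ e : Fin (Module.finrank K⟮t⟯ F) → Fb, LinearIndependent k⟮D.rd t⟯ e
  sep : Algebra.IsSeparable k⟮D.rd t⟯ Fb

/-- the product `∏_{c ∈ S} (t - c)`. -/
noncomputable def beta (t : F) (S : Finset K) : F := ∏ c ∈ S, (t - algebraMap K F c)

/-- Branch condition on the chart `Spec K[t]`: all branch points lie in the finite set `S ⊆ A`, whose
elements are pairwise distinct modulo the maximal ideal, and the ramification is "tame in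
characteristic zero": `β · C(B) ⊆ rad (β B)`, `β = ∏_{c ∈ S} (t - c)`. -/
def Branch (D : RedData K F k Fb) (t : F) : Prop :=
  ∃ S : Finset K, (∀ c ∈ S, c ∈ D.A) ∧ (∀ c ∈ S, ∀ c' ∈ S, c ≠ c' → (c - c')⁻¹ ∈ D.A) ∧
    ∀ z : F, InDual K t z → ∃ m : ℕ, 0 < m ∧ IsInt K t ((z * beta t S) ^ m / beta t S)

variable (K) in
/-- `u` is locally (on the `t`-line) a unit times an `m`-th power. -/
def LocPow (t u : F) (m : ℕ) : Prop :=
  ∀ c : K, ∃ (α : F) (R : K[X]), α ≠ 0 ∧ R.eval c ≠ 0 ∧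
    IsInt K t (aeval t R * (α ^ m * u)) ∧ IsInt K t (aeval t R * (α ^ m * u)⁻¹)

/-- the valuation ring `A` has rank one. -/
def Arch (D : RedData K F k Fb) : Prop :=
  ∀ π : K, π ∈ D.A → D.ra π = 0 → ∀ a : K, a ≠ 0 → ∃ n : ℕ, π ^ n * a⁻¹ ∈ D.A

end Charts

end Fermat.Agent.INJ
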