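/-
INJ / Tame: the tame bound for the different in residue characteristic zero.
-/
import Mathlib

set_option autoImplicit false

namespace Fermat.Agent.INJ.Tame

open Ideal UniqueFactorizationMonoid

attribute [local instance] FractionRing.liftAlgebra FractionRing.isScalarTower_liftAlgebra

variable (A B : Type*) [CommRing A] [CommRing B] [Algebra A B]
  [IsDedekindDomain A] [IsDedekindDomain B] [Module.IsTorsionFree A B] [Module.Finite A B]
  [Algebra.IsSeparable (FractionRing A) (FractionRing B)]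

/-- If `p B = P' * Q` with `P'`, `Q` coprime, `P' ≠ ⊤` and `A ⧸ p` of characteristic zero, then
`P'` does not divide the different. -/
theorem not_dvd_different_of_coprime {p : Ideal A} [p.IsMaximal] [CharZero (A ⧸ p)]
    (P' Q : Ideal B) (hP' : P' ≠ ⊤) (hPQ : IsCoprime P' Q)
    (hP : P' * Q = Ideal.map (algebraMap A B) p) :
    ¬ P' ∣ differentIdeal A B := by
  let _ : Algebra (A ⧸ p) (B ⧸ Q) := Ideal.Quotient.algebraQuotientOfLEComap (by
      rw [← Ideal.map_le_iff_le_comap, ← hP]
      exact Ideal.mul_le_right (I := P') (J := Q))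
  let _ : Algebra (A ⧸ p) (B ⧸ P') := Ideal.Quotient.algebraQuotientOfLEComap (by
      rw [← Ideal.map_le_iff_le_comap, ← hP]
      exact Ideal.mul_le_left (I := P') (J := Q))
  have : IsScalarTower A (A ⧸ p) (B ⧸ Q) := .of_algebraMap_eq' rfl
  have : IsScalarTower A (A ⧸ p) (B ⧸ P') := .of_algebraMap_eq' rfl
  have : Module.Finite (A ⧸ p) (B ⧸ Q) :=
    Module.Finite.of_restrictScalars_finite A (A ⧸ p) (B ⧸ Q)
  have : Module.Finite (A ⧸ p) (B ⧸ P') :=
    Module.Finite.of_restrictScalars_finite A (A ⧸ p) (B ⧸ P')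
  let _ : Field (A ⧸ p) := Ideal.Quotient.field p
  let e : (B ⧸ p.map (algebraMap A B)) ≃ₐ[A ⧸ p] ((B ⧸ P') × B ⧸ Q) :=
    { __ := (Ideal.quotEquivOfEq hP.symm).trans (Ideal.quotientMulEquivQuotientProd P' Q hPQ),
      commutes' := Quotient.ind fun _ ↦ rfl }
  obtain ⟨y, hy⟩ := Ideal.Quotient.mk_surjective (e.symm (1, 0))
  refine not_dvd_differentIdeal_of_intTrace_not_mem A P' Q hP y ?_ ?_
  · have := congr((e $hy).2)
    simp at this
    simpa [e, Ideal.Quotient.eq_zero_iff_mem] using this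
  · rw [← Ideal.Quotient.eq_zero_iff_mem, ← Algebra.trace_quotient_eq_of_isDedekindDomain,
      hy, Algebra.trace_eq_of_algEquiv, Algebra.trace_prod_apply]
    have hnt : Nontrivial (B ⧸ P') := Ideal.Quotient.nontrivial_iff.mpr hP'
    have h1 : Algebra.trace (A ⧸ p) (B ⧸ P') 1 = (Module.finrank (A ⧸ p) (B ⧸ P') : A ⧸ p) := by
      rw [← map_one (algebraMap (A ⧸ p) (B ⧸ P')), Algebra.trace_algebraMap]
      simp
    simp only [map_zero, add_zero, h1]
    exact_mod_cast (Module.finrank_pos (R := A ⧸ p) (M := B ⧸ P')).ne'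

/-- Tame bound at one prime: `P ^ e` does not divide the different, `e` the exponent of `P` in
`p B`. -/
theorem exists_pow_not_dvd_different (P : Ideal B) [P.IsPrime] (hP0 : P ≠ ⊥)
    [CharZero (A ⧸ P.under A)] :
    ∃ e : ℕ, P ^ e ∣ Ideal.map (algebraMap A B) (P.under A) ∧ ¬ P ^ e ∣ differentIdeal A B := by
  classical
  have hp : P.under A ≠ ⊥ := mt Ideal.eq_bot_of_comap_eq_bot hP0
  have hp' := (Ideal.map_eq_bot_iff_of_injective
    (FaithfulSMul.algebraMap_injective A B)).not.mpr hp
  have hPmax := Ideal.IsPrime.isMaximal inferInstance hP0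
  have hpmax : (P.under A).IsMaximal := Ideal.IsPrime.isMaximal inferInstance hp
  obtain ⟨Q, h₁, h₂⟩ := Ideal.eq_prime_pow_mul_coprime hp' P
  set e := Multiset.count P (normalizedFactors (Ideal.map (algebraMap A B) (P.under A))) with he
  have he0 : e ≠ 0 := by
    intro h0
    rw [h0, pow_zero, one_mul] at h₂
    have hle : Q ≤ P := by
      rw [← h₂]
      exact Ideal.map_comap_le
    have : P ⊔ Q = P := sup_eq_left.mpr hle
    rw [this] at h₁
    exact hPmax.ne_top h₁
  refine ⟨e, ⟨Q, h₂⟩, ?_⟩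
  refine not_dvd_different_of_coprime A B (p := P.under A) (P ^ e) Q ?_ ?_ h₂.symm
  · intro h
    have : P ^ e ≤ P := Ideal.pow_le_self he0
    rw [h] at this
    exact hPmax.ne_top (top_le_iff.mp this)
  · exact (Ideal.isCoprime_iff_sup_eq.mpr h₁).pow_left

/-- **Tame bound, ideal form.**  If all primes of `B` dividing the different contain `b` and the
residue fields at the primes containing `b` have characteristic zero, then
`(b) = different * J` with `J ≤ rad (b)`. -/
theorem exists_different_mul_eq (b : A) (hb0 : b ≠ 0)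
    (hchar : ∀ p : Ideal A, p.IsPrime → b ∈ p → CharZero (A ⧸ p))
    (hunr : ∀ P : Ideal B, P.IsPrime → P ≠ ⊥ → algebraMap A B b ∉ P →
      ¬ P ∣ differentIdeal A B) :
    ∃ J : Ideal B, differentIdeal A B * J = Ideal.span {algebraMap A B b} ∧
      J ≤ (Ideal.span {algebraMap A B b}).radical := by
  classical
  have hbB : algebraMap A B b ≠ 0 := by
    rw [Ne, FaithfulSMul.algebraMap_eq_zero_iff]
    exact hb0
  have hI0 : Ideal.span {algebraMap A B b} ≠ (⊥ : Ideal B) := by
    rw [Ne, Ideal.span_singleton_eq_bot]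
    exact hbB
  -- key fact at primes containing `b`
  have key : ∀ P : Ideal B, P.IsPrime → P ≠ ⊥ → algebraMap A B b ∈ P →
      ∃ e : ℕ, P ^ e ∣ Ideal.span {algebraMap A B b} ∧ ¬ P ^ e ∣ differentIdeal A B := by
    intro P hP hP0 hbP
    have hbp : b ∈ P.under A := hbP
    have := hchar (P.under A) inferInstance hbp
    obtain ⟨e, he1, he2⟩ := exists_pow_not_dvd_different A B P hP0
    refine ⟨e, he1.trans ?_, he2⟩
    rw [Ideal.dvd_iff_le, Ideal.span_singleton_le_iff_mem]
    exact Ideal.mem_map_of_mem _ hbp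
  have hdvd : differentIdeal A B ∣ Ideal.span {algebraMap A B b} := by
    rw [dvd_iff_emultiplicity_le differentIdeal_ne_bot]
    intro P hP
    rw [emultiplicity_le_emultiplicity_iff]
    intro n hn
    have hPp : P.IsPrime := Ideal.isPrime_of_prime hP
    have hP0 : P ≠ ⊥ := hP.ne_zero
    by_cases hbP : algebraMap A B b ∈ P
    · obtain ⟨e, he1, he2⟩ := key P hPp hP0 hbP
      have hne : n ≤ e := by
        by_contra hlt
        exact he2 ((pow_dvd_pow P (not_le.mp hlt).le).trans hn)
      exact (pow_dvd_pow P hne).trans he1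
    · have h0 : n = 0 := by
        by_contra hn0
        exact hunr P hPp hP0 hbP ((dvd_pow_self P hn0).trans hn)
      rw [h0, pow_zero]
      exact one_dvd _
  obtain ⟨J, hJ⟩ := hdvd
  refine ⟨J, hJ.symm, ?_⟩
  rw [Ideal.radical_eq_sInf]
  refine le_sInf ?_
  rintro P ⟨hIP, hPp⟩
  have hbP : algebraMap A B b ∈ P := hIP (Ideal.mem_span_singleton_self _)
  have hP0 : P ≠ ⊥ := by
    rintro rfl
    exact hbB (by simpa using hbP)
  obtain ⟨e, he1, he2⟩ := key P hPp hP0 hbP
  by_contra hJP
  have hPprime : Prime P := Ideal.prime_of_isPrime hP0 hPp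
  rw [hJ] at he1
  exact he2 (hPprime.pow_dvd_of_dvd_mul_right e (by rwa [Ideal.dvd_iff_le]) he1)

end Fermat.Agent.INJ.Tame
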