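/-
INJ / TameAbs: abstract element-level form of the tame bound.
-/
import Fermat.Agent.INJ.Tame
import Fermat.Agent.S24.PlacePrime

set_option autoImplicit false

namespace Fermat.Agent.INJ.Tame

open AlgebraicCurve IsDedekindDomain Fermat.Agent.S24
open scoped nonZeroDivisors

attribute [local instance] FractionRing.liftAlgebra FractionRing.isScalarTower_liftAlgebra

section Sep

variable (A B : Type*) [CommRing A] [CommRing B] [Algebra A B]
  [IsDedekindDomain A] [IsDedekindDomain B] [Module.IsTorsionFree A B] [Module.Finite A B]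
  [CharZero A]

theorem isSeparable_fractionRing : Algebra.IsSeparable (FractionRing A) (FractionRing B) := by
  have : CharZero (FractionRing A) :=
    charZero_of_injective_algebraMap (IsFractionRing.injective A (FractionRing A))
  infer_instance

end Sep

section Unram

variable {K A B F : Type*} [Field K] [CommRing A] [CommRing B] [Algebra A B]
  [IsDedekindDomain A] [IsDedekindDomain B] [Module.IsTorsionFree A B] [Module.Finite A B]
  [CharZero A] [Field F] [Algebra K F] [Algebra B F] [IsFractionRing B F] [Algebra K B]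
  [IsScalarTower K B F]

/-- a prime at which a generator of the prime below has order one does not divide the different. -/
theorem not_dvd_different_of_ord_eq_one (P : HeightOneSpectrum B) (a : A)
    (ha : P.asIdeal.under A = Ideal.span {a}) [CharZero (A ⧸ P.asIdeal.under A)]
    (hord : (Place.ofHeightOneSpectrum (K := K) P).ord (algebraMap B F (algebraMap A B a)) = 1) :
    ¬ P.asIdeal ∣ differentIdeal A B := by
  have := isSeparable_fractionRing A B
  have hP := P.isPrime
  obtain ⟨e, he1, he2⟩ := exists_pow_not_dvd_different A B P.asIdeal P.ne_bot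
  have ha0 : algebraMap A B a ≠ 0 := by
    intro h
    rw [h, map_zero, Place.ord_zero] at hord
    exact zero_ne_one hord
  rw [ord_algebraMap_eq_multiplicity P _ ha0] at hord
  have hmul : multiplicity P.asIdeal (Ideal.span {algebraMap A B a}) = 1 := by exact_mod_cast hord
  rw [ha, Ideal.map_span, Set.image_singleton] at he1
  have hfin : FiniteMultiplicity P.asIdeal (Ideal.span {algebraMap A B a}) := by
    refine FiniteMultiplicity.of_not_isUnit ?_ ?_
    · rw [Ideal.isUnit_iff]
      exact hP.ne_top
    · rw [Ne, Ideal.zero_eq_bot, Ideal.span_singleton_eq_bot]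
      exact ha0
  have hle : e ≤ 1 := by
    rw [← hmul]
    exact hfin.le_multiplicity_of_pow_dvd he1
  intro hdvd
  interval_cases e
  · exact he2 (by rw [pow_zero]; exact one_dvd _)
  · exact he2 (by rwa [pow_one])

end Unram

section Elem

variable {A K₁ B F : Type*} [CommRing A] [CommRing B] [Algebra A B]
  [IsDedekindDomain A] [IsDedekindDomain B] [Module.IsTorsionFree A B] [Module.Finite A B]
  [CharZero A] [Field K₁] [Algebra A K₁] [IsFractionRing A K₁] [Field F] [Algebra K₁ F]
  [Algebra A F] [Algebra B F] [IsScalarTower A K₁ F] [IsScalarTower A B F]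
  [IsIntegralClosure B A F] [IsFractionRing B F] [FiniteDimensional K₁ F]
  [Algebra.IsSeparable K₁ F]

/-- **Tame bound, element form.** -/
theorem exists_pow_eq_mul (b : A) (hb0 : b ≠ 0)
    (hchar : ∀ p : Ideal A, p.IsPrime → b ∈ p → CharZero (A ⧸ p))
    (hunr : ∀ P : Ideal B, P.IsPrime → P ≠ ⊥ → algebraMap A B b ∉ P →
      ¬ P ∣ differentIdeal A B) :
    ∃ n : ℕ, 0 < n ∧ ∀ z : F,
      (∀ y : B, Algebra.trace K₁ F (z * algebraMap B F y) ∈ (algebraMap A K₁).range) →
      ∃ w : B, (z * algebraMap A F b) ^ n = algebraMap A F b * algebraMap B F w := by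
  have := isSeparable_fractionRing A B
  obtain ⟨J, hJ, hJrad⟩ := exists_different_mul_eq A B b hb0 hchar hunr
  obtain ⟨k, hk⟩ := Ideal.exists_pow_le_of_le_radical_of_fg hJrad (IsNoetherian.noetherian J)
  refine ⟨k + 1, Nat.succ_pos k, fun z hz => ?_⟩
  have hone : (1 : FractionalIdeal B⁰ F) ≠ 0 := one_ne_zero
  have hzd : z ∈ FractionalIdeal.dual A K₁ (1 : FractionalIdeal B⁰ F) := by
    rw [FractionalIdeal.mem_dual hone]
    intro a ha
    obtain ⟨y, rfl⟩ := (FractionalIdeal.mem_one_iff _).mp ha
    exact hz y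
  have hcoe : (J : FractionalIdeal B⁰ F) =
      FractionalIdeal.dual A K₁ (1 : FractionalIdeal B⁰ F) *
        ((Ideal.span {algebraMap A B b} : Ideal B) : FractionalIdeal B⁰ F) := by
    rw [← hJ, FractionalIdeal.coeIdeal_mul, coeIdeal_differentIdeal A K₁, ← mul_assoc,
      mul_inv_cancel₀ (FractionalIdeal.dual_ne_zero A K₁ hone), one_mul]
  have hmem : z * algebraMap B F (algebraMap A B b) ∈ (J : FractionalIdeal B⁰ F) := by
    rw [hcoe]
    exact FractionalIdeal.mul_mem_mul hzd
      ((FractionalIdeal.mem_coeIdeal _).mpr ⟨_, Ideal.mem_span_singleton_self _, rfl⟩)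
  obtain ⟨w, hwJ, hw⟩ := (FractionalIdeal.mem_coeIdeal _).mp hmem
  have hwk : w ^ (k + 1) ∈ Ideal.span {algebraMap A B b} :=
    hk (Ideal.pow_le_pow_right (Nat.le_succ k) (Ideal.pow_mem_pow hwJ (k + 1)))
  obtain ⟨w', hw'⟩ := Ideal.mem_span_singleton'.mp hwk
  refine ⟨w', ?_⟩
  rw [IsScalarTower.algebraMap_apply A B F, ← hw, ← map_pow, ← hw', map_mul, mul_comm]

end Elem

end Fermat.Agent.INJ.Tame
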