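/-
INJ / TameBranch: the third clause of `Branch` from "unramified outside `S`" (S24 place language).
-/
import Fermat.Agent.INJ.Defs
import Fermat.Agent.INJ.TameAbs
import Fermat.Agent.S24.FundId

set_option autoImplicit false

namespace Fermat.Agent.INJ.Tame

open Polynomial IntermediateField AlgebraicCurve IsDedekindDomain Fermat.Agent.S24
open scoped IntermediateField.algebraAdjoinAdjoin nonZeroDivisors

attribute [local instance] FractionRing.liftAlgebra FractionRing.isScalarTower_liftAlgebra

variable {K F : Type*} [Field K] [Field F] [Algebra K F]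

/-- `t - c` as an element of `K[t]`. -/
def linPoly (t : F) (c : K) : polyRing K t :=
  xPoly K t - algebraMap K (polyRing K t) c

theorem coe_linPoly (t : F) (c : K) : ((linPoly t c : polyRing K t) : F) = t - algebraMap K F c :=
  rfl

/-- `β = ∏_{c ∈ S} (t - c)` as an element of `K[t]`. -/
noncomputable def betaPoly (t : F) (S : Finset K) : polyRing K t := ∏ c ∈ S, linPoly t c

theorem coe_betaPoly (t : F) (S : Finset K) : ((betaPoly t S : polyRing K t) : F) = beta t S := by
  unfold betaPoly beta
  rw [← Subalgebra.coe_val, map_prod]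
  rfl

/-- the evaluation `K[X] → K[t]`. -/
noncomputable def evPoly (t : F) : K[X] →ₐ[K] polyRing K t := aeval (xPoly K t)

theorem evPoly_X_sub_C (t : F) (c : K) : evPoly t (X - C c) = linPoly t c := by
  simp [evPoly, linPoly]

theorem coe_evPoly (t : F) (P : K[X]) : ((evPoly t P : polyRing K t) : F) = aeval t P := by
  have h : (Subalgebra.val (polyRing K t)).comp (evPoly t) = aeval t := by
    apply Polynomial.algHom_ext
    simp [evPoly, xPoly]
  exact congrArg (fun f : K[X] →ₐ[K] F => f P) h

theorem evPoly_surjective (t : F) : Function.Surjective (evPoly (K := K) t) := by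
  rintro ⟨a, ha⟩
  have ha' : a ∈ (aeval t : K[X] →ₐ[K] F).range := by
    rw [← Algebra.adjoin_singleton_eq_range_aeval]; exact ha
  obtain ⟨P, rfl⟩ := ha'
  exact ⟨P, Subtype.ext (coe_evPoly t P)⟩

/-- over an algebraically closed field every nonzero prime of `K[t]` contains some `t - c`. -/
theorem exists_linPoly_mem [IsAlgClosed K] (t : F) (p : Ideal (polyRing K t)) [hp : p.IsPrime]
    (hp0 : p ≠ ⊥) : ∃ c : K, linPoly t c ∈ p := by
  obtain ⟨a, hap, ha0⟩ := Submodule.exists_mem_ne_zero_of_ne_bot hp0
  obtain ⟨P, rfl⟩ := evPoly_surjective t a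
  have hP0 : P ≠ 0 := by
    rintro rfl
    exact ha0 (map_zero _)
  have hsplit := (IsAlgClosed.splits P).eq_prod_roots
  rw [hsplit, map_mul, map_multiset_prod] at hap
  rcases hp.mem_or_mem hap with h | h
  · exfalso
    have hu : IsUnit (evPoly t (C P.leadingCoeff)) :=
      (Polynomial.isUnit_C.mpr (isUnit_iff_ne_zero.mpr (leadingCoeff_ne_zero.mpr hP0))).map _
    exact hp.ne_top (Ideal.eq_top_of_isUnit_mem _ h hu)
  · obtain ⟨x, hx, hxp⟩ := (hp.multiset_prod_mem_iff_exists_mem _).mp h
    rw [Multiset.map_map] at hx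
    obtain ⟨c, _, rfl⟩ := Multiset.mem_map.mp hx
    refine ⟨c, ?_⟩
    rw [← evPoly_X_sub_C]
    exact hxp

theorem charZero_quot [CharZero K] (t : F) (p : Ideal (polyRing K t)) [hp : p.IsPrime] :
    CharZero (polyRing K t ⧸ p) := by
  have : Nontrivial (polyRing K t ⧸ p) := Ideal.Quotient.nontrivial_iff.mpr hp.ne_top
  exact charZero_of_injective_algebraMap (algebraMap K (polyRing K t ⧸ p)).injective

theorem linPoly_ne_zero {t : F} (ht : Transcendental K t) (c : K) : linPoly t c ≠ 0 := by
  intro h
  have h1 : t - algebraMap K F c = 0 := by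
    rw [← coe_linPoly, h]; rfl
  apply ht
  rw [sub_eq_zero.mp h1]
  exact isAlgebraic_algebraMap c

theorem betaPoly_ne_zero {t : F} (ht : Transcendental K t) (S : Finset K) : betaPoly t S ≠ 0 :=
  Finset.prod_ne_zero_iff.mpr fun c _ => linPoly_ne_zero ht c

theorem eq_span_linPoly (t : F) (c : K) (p : Ideal (polyRing K t)) [hp : p.IsPrime]
    (hc : linPoly t c ∈ p) : p = Ideal.span {linPoly t c} := by
  refine le_antisymm ?_ ((Ideal.span_singleton_le_iff_mem _).mpr hc)
  intro x hx
  obtain ⟨Q, rfl⟩ := evPoly_surjective t x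
  have hQ : Q = (X - C c) * (Q /ₘ (X - C c)) + C (Q.eval c) := by
    conv_lhs => rw [← Polynomial.modByMonic_add_div Q (X - C c), Polynomial.modByMonic_X_sub_C_eq_C_eval]
    ring
  rw [hQ, map_add, map_mul, evPoly_X_sub_C] at hx ⊢
  have h2 : evPoly t (C (Q.eval c)) ∈ p := by
    have h3 := p.mul_mem_right (evPoly t (Q /ₘ (X - C c))) hc
    exact (Ideal.add_mem_iff_right p h3).mp hx
  have h0 : Q.eval c = 0 := by
    by_contra hne
    have hu : IsUnit (evPoly t (C (Q.eval c))) :=
      (Polynomial.isUnit_C.mpr (isUnit_iff_ne_zero.mpr hne)).map _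
    exact hp.ne_top (Ideal.eq_top_of_isUnit_mem _ h2 hu)
  rw [h0, map_zero, map_zero, add_zero]
  exact Ideal.mul_mem_right _ _ (Ideal.mem_span_singleton_self _)

section Main

variable [IsAlgClosed K] [CharZero K]

/-- **The third clause of `Branch`** from "unramified outside `S`". -/
theorem branch_clause {t : F} (ht : Transcendental K t) [FiniteDimensional K⟮t⟯ F]
    (S : Finset K)
    (hunr : ∀ (v : Place K F) (c : K), c ∉ S → 0 < v.ord (t - algebraMap K F c) →
      v.ord (t - algebraMap K F c) = 1) :
    ∃ m : ℕ, 0 < m ∧ ∀ z : F, InDual K t z → IsInt K t ((z * beta t S) ^ m / beta t S) := by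
  classical
  have hPID := polyRing_isPrincipalIdealRing ht
  have hDB := intRing_isDedekindDomain ht
  have hFB := intRing_isFractionRing (K := K) t
  have hfin := intRing_finite ht
  have hsep := isSeparable_adjoin (K := K) t
  have hcF : CharZero F := charZero_of_injective_algebraMap (algebraMap K F).injective
  have hcA : CharZero (polyRing K t) :=
    charZero_of_injective_algebraMap (algebraMap K (polyRing K t)).injective
  have hST : IsScalarTower (polyRing K t) (intRing K t) F := IsScalarTower.subalgebra' _ _ _ _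
  have hKT : IsScalarTower K (intRing K t) F := IsScalarTower.of_algebraMap_eq fun _ => rfl
  have hβ0 : beta t S ≠ 0 := by
    rw [← coe_betaPoly]
    exact fun h => betaPoly_ne_zero ht S (Subtype.ext h)
  obtain ⟨n, hn, H⟩ := exists_pow_eq_mul (A := polyRing K t) (K₁ := K⟮t⟯) (B := intRing K t)
    (F := F) (betaPoly t S) (betaPoly_ne_zero ht S)
    (fun p hp _ => charZero_quot t p)
    (by
      intro P hP hP0 hb
      have hp0 : P.under (polyRing K t) ≠ ⊥ := mt Ideal.eq_bot_of_comap_eq_bot hP0
      obtain ⟨c, hc⟩ := exists_linPoly_mem t (P.under (polyRing K t)) hp0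
      have hcS : c ∉ S := by
        intro hcS
        apply hb
        have : linPoly t c ∣ betaPoly t S := Finset.dvd_prod_of_mem _ hcS
        exact (Ideal.mem_of_liesOver P (P.under (polyRing K t)) _).mp
          (Ideal.mem_of_dvd _ this hc)
      have hcz := charZero_quot t (P.under (polyRing K t))
      have hmemP : algebraMap (polyRing K t) (intRing K t) (linPoly t c) ∈ P := hc
      have hne : algebraMap (polyRing K t) (intRing K t) (linPoly t c) ≠ 0 := by
        intro h
        exact linPoly_ne_zero ht c (Subtype.ext (congrArg (fun z : intRing K t => (z : F)) h))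
      refine not_dvd_different_of_ord_eq_one (K := K) (F := F) (⟨P, hP, hP0⟩ : HeightOneSpectrum _)
        (linPoly t c) (eq_span_linPoly t c _ hc) ?_
      exact hunr _ c hcS ((ord_algebraMap_pos_iff (K := K) (F := F)
        (⟨P, hP, hP0⟩ : HeightOneSpectrum (intRing K t)) _ hne).mpr hmemP))
  refine ⟨n, hn, fun z hz => ?_⟩
  obtain ⟨w, hw⟩ := H z (by
    intro y
    obtain ⟨Q, hQ⟩ := hz (algebraMap (intRing K t) F y) y.2
    refine ⟨evPoly t Q, ?_⟩
    apply (algebraMap K⟮t⟯ F).injective
    rw [hQ, ← IsScalarTower.algebraMap_apply]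
    exact coe_evPoly t Q)
  have h1 : algebraMap (polyRing K t) F (betaPoly t S) = beta t S := coe_betaPoly t S
  rw [h1] at hw
  rw [hw, mul_div_cancel_left₀ _ hβ0]
  exact w.2

/-- `Branch D t` from: `S ⊆ A` pairwise distinct mod the maximal ideal, and `F / K(t)` unramified at
all finite places outside `S`. -/
theorem branch_of_unram {k Fb : Type*} [Field k] [Field Fb] [Algebra k Fb] (D : RedData K F k Fb)
    {t : F} (ht : Transcendental K t) [FiniteDimensional K⟮t⟯ F] (S : Finset K)
    (hSA : ∀ c ∈ S, c ∈ D.A) (hdist : ∀ c ∈ S, ∀ c' ∈ S, c ≠ c' → (c - c')⁻¹ ∈ D.A)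
    (hunr : ∀ (v : Place K F) (c : K), c ∉ S → 0 < v.ord (t - algebraMap K F c) →
      v.ord (t - algebraMap K F c) = 1) :
    Branch D t := by
  obtain ⟨m, hm, H⟩ := branch_clause ht S hunr
  exact ⟨S, hSA, hdist, fun z hz => ⟨m, hm, H z hz⟩⟩

end Main

end Fermat.Agent.INJ.Tame
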