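import Fermat.Agent.INJ.Defs

/-!
# INJ : statements of the abstract packages (all `Prop`s; each is proved in its own file)

Notation in the comments: `B` = integral closure of `K[t]` in `F`, `BB = B ∩ O`, bar = reduction,
`n = [F : K(t)]`.
-/

set_option autoImplicit false

namespace Fermat.Agent.INJ

open Polynomial IntermediateField

/-- P1 (Gauss lemma).  `O ∩ K[t] = A[t]`, reduction is coefficientwise, primitive parts exist,
`t` is transcendental, `O ∩ K(t)` reduces into `k(tbar)`. -/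
def Stmt_Gauss : Prop :=
  ∀ (K F k Fb : Type) [Field K] [Field F] [Algebra K F] [Field k] [Field Fb] [Algebra k Fb]
    (D : RedData K F k Fb) (t : F), t ∈ D.O → Transcendental k (D.rd t) →
    (∀ Q : (D.A)[X], aeval t (Q.map D.A.subtype) ∈ D.O ∧
      D.rd (aeval t (Q.map D.A.subtype)) = aeval (D.rd t) (Q.map D.rA)) ∧
    (∀ P : K[X], aeval t P ∈ D.O → ∃ Q : (D.A)[X], Q.map D.A.subtype = P) ∧
    (∀ P : K[X], P ≠ 0 → ∃ (a : K) (Q : (D.A)[X]), a ≠ 0 ∧ P = C a * Q.map D.A.subtype ∧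
      Q.map D.rA ≠ 0) ∧
    Transcendental K t ∧
    (∀ c : K⟮t⟯, (c : F) ∈ D.O → D.rd (c : F) ∈ k⟮D.rd t⟯)

/-- P2 (orthonormal families).  Lifts of a `k(tbar)`-independent family are `K(t)`-independent and
"orthonormal": a `K(t)`-combination lies in `O` iff all coefficients do. -/
def Stmt_Ortho : Prop :=
  ∀ (K F k Fb : Type) [Field K] [Field F] [Algebra K F] [Field k] [Field Fb] [Algebra k Fb]
    (D : RedData K F k Fb) (t : F), t ∈ D.O → Transcendental k (D.rd t) →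
    ∀ (ι : Type) [Fintype ι] (e : ι → F), (∀ i, e i ∈ D.O) →
      LinearIndependent k⟮D.rd t⟯ (fun i => D.rd (e i)) →
      LinearIndependent K⟮t⟯ e ∧
      ∀ c : ι → K⟮t⟯, (∑ i, (c i : F) * e i) ∈ D.O → ∀ i, (c i : F) ∈ D.O

/-- P3 (degree and trace).  `[Fb : k(tbar)] = n` and the trace commutes with reduction. -/
def Stmt_Trace : Prop :=
  ∀ (K F k Fb : Type) [Field K] [Field F] [Algebra K F] [Field k] [Field Fb] [Algebra k Fb]
    (D : RedData K F k Fb) (t : F), Chart D t →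
    Module.finrank k⟮D.rd t⟯ Fb = Module.finrank K⟮t⟯ F ∧
    ∀ x ∈ D.O, algebraMap K⟮t⟯ F (Algebra.trace K⟮t⟯ F x) ∈ D.O ∧
      D.rd (algebraMap K⟮t⟯ F (Algebra.trace K⟮t⟯ F x)) =
        algebraMap k⟮D.rd t⟯ Fb (Algebra.trace k⟮D.rd t⟯ Fb (D.rd x))

/-- P4.  Elements of `BB` reduce to elements integral over `k[tbar]`. -/
def Stmt_IntRed : Prop :=
  ∀ (K F k Fb : Type) [Field K] [Field F] [Algebra K F] [Field k] [Field Fb] [Algebra k Fb]
    (D : RedData K F k Fb) (t : F), Chart D t →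
    ∀ x ∈ D.O, IsInt K t x → IsInt k (D.rd t) (D.rd x)

/-- P5 (lifting of lattices; freeness over `A[t]`).  `Λ` a `K[t]`-lattice, `Λbar := rd (Λ ∩ O)` a
`k[tbar]`-lattice with basis `eb`.  Then `Λ` has a `K[t]`-basis in `O` reducing to a basis of
`Λbar`. -/
def Stmt_Lift : Prop :=
  ∀ (K F k Fb : Type) [Field K] [Field F] [Algebra K F] [Field k] [Field Fb] [Algebra k Fb]
    [IsAlgClosed K] (D : RedData K F k Fb) (t : F), t ∈ D.O → Transcendental k (D.rd t) →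
    ∀ (n : ℕ) (Λ : Submodule (Algebra.adjoin K {t}) F) (l : Fin n → F),
      Submodule.span (Algebra.adjoin K {t}) (Set.range l) = Λ → LinearIndependent K⟮t⟯ l →
    ∀ eb : Fin n → Fb, LinearIndependent k⟮D.rd t⟯ eb →
      (∀ x ∈ Λ, x ∈ D.O →
        D.rd x ∈ Submodule.span (Algebra.adjoin k {D.rd t}) (Set.range eb)) →
      (∀ i, ∃ x ∈ Λ, x ∈ D.O ∧ D.rd x = eb i) →
      ∃ e : Fin n → F, (∀ i, e i ∈ D.O) ∧
        Submodule.span (Algebra.adjoin K {t}) (Set.range e) = Λ ∧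
        LinearIndependent k⟮D.rd t⟯ (fun i => D.rd (e i)) ∧
        Submodule.span (Algebra.adjoin k {D.rd t}) (Set.range fun i => D.rd (e i)) =
          Submodule.span (Algebra.adjoin k {D.rd t}) (Set.range eb)

/-- P6.  `B` has a `K[t]`-basis contained in `O` whose reduction is `k(tbar)`-independent
(so `BB = ⊕ A[t] b_i`). -/
def Stmt_BBasis : Prop :=
  ∀ (K F k Fb : Type) [Field K] [Field F] [Algebra K F] [Field k] [Field Fb] [Algebra k Fb]
    [IsAlgClosed K] [CharZero K] (D : RedData K F k Fb) (t : F), Chart D t →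
    ∃ b : Fin (Module.finrank K⟮t⟯ F) → F, (∀ i, b i ∈ D.O ∧ IsInt K t (b i)) ∧
      (∀ x, IsInt K t x → x ∈ Submodule.span (Algebra.adjoin K {t}) (Set.range b)) ∧
      LinearIndependent k⟮D.rd t⟯ (fun i => D.rd (b i))

/-- P7a (trace of a "radical" element).  `R = k[tb]`, `s` integral over `R`, `s ^ m ∈ (tb - c) Bt`
(`Bt` = integral closure of `R` in `Fb`) implies `(tb - c) ∣ Tr s` in `R`. -/
def Stmt_TraceNil : Prop :=
  ∀ (k Fb : Type) [Field k] [Field Fb] [Algebra k Fb] (tb : Fb), Transcendental k tb →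
    FiniteDimensional k⟮tb⟯ Fb → Algebra.IsSeparable k⟮tb⟯ Fb →
    ∀ (c : k) (s : Fb) (m : ℕ), 0 < m → IsInt k tb (s ^ m / (tb - algebraMap k Fb c)) →
      ∃ P : k[X], algebraMap k⟮tb⟯ Fb (Algebra.trace k⟮tb⟯ Fb s) =
        (tb - algebraMap k Fb c) * aeval tb P

/-- P7 (NORMALITY of the special fibre).  Every element of `Fb` integral over `k[tbar]` lifts to
`BB`. -/
def Stmt_Normal : Prop :=
  ∀ (K F k Fb : Type) [Field K] [Field F] [Algebra K F] [Field k] [Field Fb] [Algebra k Fb]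
    [IsAlgClosed K] [CharZero K] (D : RedData K F k Fb) (t : F), Chart D t → Branch D t →
    ∀ yb : Fb, IsInt k (D.rd t) yb → ∃ y ∈ D.O, IsInt K t y ∧ D.rd y = yb

/-- P8a.  `M_K(u) = {x : x^m u ∈ B}` is a `K[t]`-lattice. -/
def Stmt_MLattice : Prop :=
  ∀ (K F : Type) [Field K] [Field F] [Algebra K F] [CharZero K] (t u : F) (m : ℕ),
    Transcendental K t → FiniteDimensional K⟮t⟯ F → u ≠ 0 → 0 < m →
    ∃ (Λ : Submodule (Algebra.adjoin K {t}) F) (l : Fin (Module.finrank K⟮t⟯ F) → F),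
      (∀ x, x ∈ Λ ↔ IsInt K t (x ^ m * u)) ∧
      Submodule.span (Algebra.adjoin K {t}) (Set.range l) = Λ ∧ LinearIndependent K⟮t⟯ l

/-- P8b (characteristic zero).  `[B : M_K(u)] · [B : M_K(u⁻¹)]` is a nonzero constant. -/
def Stmt_DetConst : Prop :=
  ∀ (K F : Type) [Field K] [Field F] [Algebra K F] [IsAlgClosed K] [CharZero K] (t u : F) (m : ℕ),
    Transcendental K t → FiniteDimensional K⟮t⟯ F → u ≠ 0 → 0 < m → LocPow K t u m →
    ∀ (n : ℕ) (b x y : Fin n → F), LinearIndependent K⟮t⟯ b →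
      (∀ z, z ∈ Submodule.span (Algebra.adjoin K {t}) (Set.range b) ↔ IsInt K t z) →
      (∀ z, z ∈ Submodule.span (Algebra.adjoin K {t}) (Set.range x) ↔ IsInt K t (z ^ m * u)) →
      (∀ z, z ∈ Submodule.span (Algebra.adjoin K {t}) (Set.range y) ↔ IsInt K t (z ^ m * u⁻¹)) →
      ∀ TM TN : Matrix (Fin n) (Fin n) K⟮t⟯,
        (∀ i, x i = ∑ j, (TM i j : F) * b j) → (∀ i, y i = ∑ j, (TN i j : F) * b j) →
        ∃ c : K, c ≠ 0 ∧ TM.det * TN.det = algebraMap K K⟮t⟯ c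

/-- P8 (the reduction of `M` is trivial).  If `ubar = 1` and `u` is locally an `m`-th power times a
unit, then `M = {x ∈ O : x^m u ∈ B}` is free over `A[t]` on an orthonormal basis and contains an
element reducing to `1`. -/
def Stmt_LocTriv : Prop :=
  ∀ (K F k Fb : Type) [Field K] [Field F] [Algebra K F] [Field k] [Field Fb] [Algebra k Fb]
    [IsAlgClosed K] [CharZero K] (D : RedData K F k Fb) (t : F), Chart D t → Branch D t →
    ∀ (u : F) (m : ℕ), 0 < m → D.rd u = 1 → LocPow K t u m →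
      (∃ x ∈ D.O, D.rd x = 1 ∧ IsInt K t (x ^ m * u)) ∧
      ∃ e : Fin (Module.finrank K⟮t⟯ F) → F, (∀ i, e i ∈ D.O ∧ IsInt K t (e i ^ m * u)) ∧
        (∀ x, IsInt K t (x ^ m * u) → x ∈ Submodule.span (Algebra.adjoin K {t}) (Set.range e)) ∧
        LinearIndependent k⟮D.rd t⟯ (fun i => D.rd (e i))

/-- P9a.  The torsion of a finitely generated module over a valuation ring is bounded
(elementary form). -/
def Stmt_BT0 : Prop :=
  ∀ (A V : Type) [CommRing A] [IsDomain A] [ValuationRing A] [AddCommGroup V] [Module A V]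
    (S : Submodule A V) (r : ℕ) (g : Fin r → V),
    ∃ a₀ : A, a₀ ≠ 0 ∧ ∀ v ∈ S ⊔ Submodule.span A (Set.range g), ∀ a : A, a ≠ 0 → a • v ∈ S →
      a₀ • v ∈ S

/-- P9b.  Clearing the pole at `t = 0`. -/
def Stmt_Clear : Prop :=
  ∀ (K F : Type) [Field K] [Field F] [Algebra K F] (t z : F), t ≠ 0 → IsInt K t⁻¹ z →
    ∃ c : ℕ, ∀ c' : ℕ, c ≤ c' → IsInt K t (t ^ c' * z)

/-- P9 (bounded torsion of `H¹ = M₁₂ / (M₁ + M₂)`). -/
def Stmt_BT : Prop :=
  ∀ (K F k Fb : Type) [Field K] [Field F] [Algebra K F] [Field k] [Field Fb] [Algebra k Fb]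
    [CharZero K] (D : RedData K F k Fb) (t : F), t ∈ D.O → t⁻¹ ∈ D.O → Transcendental k (D.rd t) →
    FiniteDimensional K⟮t⟯ F →
    ∀ (u : F) (m : ℕ), u ≠ 0 → 0 < m →
    ∀ (n : ℕ) (e : Fin n → F), (∀ i, e i ∈ D.O ∧ IsInt K t (e i ^ m * u)) →
      (∀ x, IsInt K t (x ^ m * u) → x ∈ Submodule.span (Algebra.adjoin K {t}) (Set.range e)) →
      LinearIndependent k⟮D.rd t⟯ (fun i => D.rd (e i)) →
      ∃ a₀ : K, a₀ ≠ 0 ∧ a₀ ∈ D.A ∧
        ∀ (x x' : F) (a : K), a ≠ 0 → x ∈ D.O → IsInt K t (x ^ m * u) → x' ∈ D.O →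
          IsInt K t⁻¹ (x' ^ m * u) → (x' - x) * (algebraMap K F a)⁻¹ ∈ D.O →
          ∃ μ μ' : F, μ ∈ D.O ∧ IsInt K t (μ ^ m * u) ∧ μ' ∈ D.O ∧ IsInt K t⁻¹ (μ' ^ m * u) ∧
            algebraMap K F a₀ * ((x' - x) * (algebraMap K F a)⁻¹) = μ + μ'

/-- P10 (Newton iteration on one chart). -/
def Stmt_Newton : Prop :=
  ∀ (K F k Fb : Type) [Field K] [Field F] [Algebra K F] [Field k] [Field Fb] [Algebra k Fb]
    (D : RedData K F k Fb) (t u : F) (m : ℕ), (m : K) ≠ 0 → (m : K)⁻¹ ∈ D.A →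
    ∀ π : K, π ≠ 0 → π ∈ D.A → D.ra π = 0 →
    ∀ x ∈ D.O, IsInt K t (x ^ m * u) → (x ^ m * u - 1) * (algebraMap K F π)⁻¹ ∈ D.O →
    ∀ n : ℕ, 0 < n → ∃ y ∈ D.O, IsInt K t (y ^ m * u) ∧
      (y ^ m * u - 1) * (algebraMap K F π ^ n)⁻¹ ∈ D.O ∧ D.rd y = D.rd x

/-- P11.  `B ∩ B' = K`. -/
def Stmt_Const : Prop :=
  ∀ (K F : Type) [Field K] [Field F] [Algebra K F] [IsAlgClosed K] (t z : F),
    Transcendental K t → FiniteDimensional K⟮t⟯ F → IsInt K t z → IsInt K t⁻¹ z →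
    ∃ c : K, z = algebraMap K F c

/-- P12 = **abstract Claim K**. -/
def Stmt_INJ : Prop :=
  ∀ (K F k Fb : Type) [Field K] [Field F] [Algebra K F] [Field k] [Field Fb] [Algebra k Fb]
    [IsAlgClosed K] [CharZero K] (D : RedData K F k Fb) (t : F),
    Chart D t → Chart D t⁻¹ → Branch D t → Branch D t⁻¹ → Arch D →
    ∀ (u : F) (m : ℕ), 0 < m → (m : k) ≠ 0 → D.rd u = 1 → LocPow K t u m → LocPow K t⁻¹ u m →
      ∃ y : F, y ^ m = u

/-- P13.  The chart at infinity comes for free. -/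
def Stmt_ChartInv : Prop :=
  ∀ (K F k Fb : Type) [Field K] [Field F] [Algebra K F] [Field k] [Field Fb] [Algebra k Fb]
    (D : RedData K F k Fb) (t : F), Chart D t → Chart D t⁻¹

/-- P14 (change of coordinate in a tower `K(s) ⊆ K(t)`).  If `s` is a good coordinate, `s ∈ K(t)`,
`[K(t) : K(s)] ≥ d` and `tbar` has degree `≤ d` over `k(sbar)`, then `t` is a good coordinate. -/
def Stmt_ChartTower : Prop :=
  ∀ (K F k Fb : Type) [Field K] [Field F] [Algebra K F] [Field k] [Field Fb] [Algebra k Fb]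
    (D : RedData K F k Fb) (s t : F), Chart D s → t ∈ D.O → s ∈ K⟮t⟯ → D.rd s ∈ k⟮D.rd t⟯ →
    ∀ d : ℕ, LinearIndependent K⟮s⟯ (fun i : Fin d => t ^ (i : ℕ)) →
      (∃ P : (k⟮D.rd s⟯)[X], P ≠ 0 ∧ P.natDegree ≤ d ∧ aeval (D.rd t) P = 0) →
      Chart D t

end Fermat.Agent.INJ
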