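import Fermat.Agent.INJ.Interface

/-!
# INJ, package P14 : change of coordinate in a tower `K(s) ⊆ K(t)`
-/

set_option autoImplicit false

namespace Fermat.Agent.INJ

open Polynomial IntermediateField

section General

variable {K F : Type*} [Field K] [Field F] [Algebra K F]

/-- lower bound for the relative degree from independent powers. -/
theorem P14_le_relfinrank {s t : F} (hle : K⟮s⟯ ≤ K⟮t⟯) [FiniteDimensional K⟮s⟯ F] (d : ℕ)
    (hli : LinearIndependent K⟮s⟯ (fun i : Fin d => t ^ (i : ℕ))) :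
    d ≤ relfinrank K⟮s⟯ K⟮t⟯ := by
  rw [relfinrank_eq_finrank_of_le hle]
  have ht : t ∈ extendScalars hle := mem_adjoin_simple_self K t
  let v : Fin d → extendScalars hle := fun i => ⟨t ^ (i : ℕ), pow_mem ht _⟩
  have hv : LinearIndependent K⟮s⟯ v := by
    refine LinearIndependent.of_comp (extendScalars hle).val.toLinearMap ?_
    exact hli
  have := hv.fintype_card_le_finrank
  simpa using this

/-- upper bound for the relative degree from a polynomial relation. -/
theorem P14_relfinrank_le {s t : F} (hs : s ∈ K⟮t⟯) (d : ℕ) (P : (K⟮s⟯)[X]) (hP0 : P ≠ 0)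
    (hPd : P.natDegree ≤ d) (hP : aeval t P = 0) :
    relfinrank K⟮s⟯ K⟮t⟯ ≤ d := by
  have hle : K⟮s⟯ ≤ K⟮t⟯ := adjoin_simple_le_iff.2 hs
  rw [relfinrank_eq_finrank_of_le hle]
  have heq : extendScalars hle = (K⟮s⟯)⟮t⟯ := by
    apply restrictScalars_injective K
    rw [extendScalars_restrictScalars, adjoin_adjoin_left]
    apply le_antisymm
    · exact adjoin.mono K _ _ (Set.subset_union_right)
    · rw [adjoin_le_iff]
      rintro x (hx | hx)
      · rw [Set.mem_singleton_iff.1 hx]; exact hs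
      · rw [Set.mem_singleton_iff.1 hx]; exact mem_adjoin_simple_self K t
  rw [heq]
  have hint : IsIntegral K⟮s⟯ t := IsAlgebraic.isIntegral ⟨P, hP0, hP⟩
  rw [adjoin.finrank hint]
  exact (natDegree_le_of_dvd (minpoly.dvd _ _ hP) hP0).trans hPd

theorem P14_transcendental {s t : F} (hs : s ∈ K⟮t⟯) (htr : Transcendental K s) :
    Transcendental K t := by
  intro halg
  have := isAlgebraic_adjoin_simple halg.isIntegral
  apply htr
  have h1 : IsAlgebraic K (⟨s, hs⟩ : K⟮t⟯) := Algebra.IsAlgebraic.isAlgebraic _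
  exact (IntermediateField.isAlgebraic_iff).1 h1

end General

theorem P14_chartTower (h3 : Stmt_Trace) : Stmt_ChartTower := by
  intro K F k Fb _ _ _ _ _ _ D s t hC htO hs hsb d hli hP
  obtain ⟨P, hP0, hPd, hP⟩ := hP
  have hle : K⟮s⟯ ≤ K⟮t⟯ := adjoin_simple_le_iff.2 hs
  have hle' : k⟮D.rd s⟯ ≤ k⟮D.rd t⟯ := adjoin_simple_le_iff.2 hsb
  have hfin := hC.fin
  have hμ : Module.finrank k⟮D.rd s⟯ Fb = Module.finrank K⟮s⟯ F := (h3 K F k Fb D s hC).1
  have hμpos : 0 < Module.finrank K⟮s⟯ F := Module.finrank_pos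
  have e1 := relfinrank_mul_finrank_top hle
  have e2 := relfinrank_mul_finrank_top hle'
  have b1 := P14_le_relfinrank hle d hli
  have b2 := P14_relfinrank_le hsb d P hP0 hPd hP
  have hapos : 0 < Module.finrank K⟮t⟯ F := by
    rcases Nat.eq_zero_or_pos (Module.finrank K⟮t⟯ F) with h | h
    · rw [h, mul_zero] at e1; omega
    · exact h
  have ha'pos : 0 < Module.finrank k⟮D.rd t⟯ Fb := by
    rcases Nat.eq_zero_or_pos (Module.finrank k⟮D.rd t⟯ Fb) with h | h
    · rw [h, mul_zero] at e2; omega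
    · exact h
  have hb'pos : 0 < relfinrank k⟮D.rd s⟯ k⟮D.rd t⟯ := by
    rcases Nat.eq_zero_or_pos (relfinrank k⟮D.rd s⟯ k⟮D.rd t⟯) with h | h
    · rw [h, zero_mul] at e2; omega
    · exact h
  have hdeg : Module.finrank K⟮t⟯ F ≤ Module.finrank k⟮D.rd t⟯ Fb := by
    have h4 : relfinrank k⟮D.rd s⟯ k⟮D.rd t⟯ * Module.finrank K⟮t⟯ F
        ≤ relfinrank k⟮D.rd s⟯ k⟮D.rd t⟯ * Module.finrank k⟮D.rd t⟯ Fb := by
      calc relfinrank k⟮D.rd s⟯ k⟮D.rd t⟯ * Module.finrank K⟮t⟯ F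
          ≤ relfinrank K⟮s⟯ K⟮t⟯ * Module.finrank K⟮t⟯ F :=
            Nat.mul_le_mul_right _ (b2.trans b1)
        _ = relfinrank k⟮D.rd s⟯ k⟮D.rd t⟯ * Module.finrank k⟮D.rd t⟯ Fb := by
            rw [e1, e2, hμ]
    exact Nat.le_of_mul_le_mul_left h4 hb'pos
  have hfin' : FiniteDimensional k⟮D.rd t⟯ Fb := Module.finite_of_finrank_pos ha'pos
  refine ⟨htO, P14_transcendental hsb hC.trans, Module.finite_of_finrank_pos hapos, ?_, ?_⟩
  · let b := Module.finBasis k⟮D.rd t⟯ Fb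
    refine ⟨fun i => b (Fin.castLE hdeg i), ?_⟩
    exact b.linearIndependent.comp _ (Fin.castLE_injective hdeg)
  · have hsep := hC.sep
    let _ : Algebra k⟮D.rd s⟯ k⟮D.rd t⟯ := (IntermediateField.inclusion hle').toRingHom.toAlgebra
    have : IsScalarTower k⟮D.rd s⟯ k⟮D.rd t⟯ Fb := IsScalarTower.of_algebraMap_eq fun x => rfl
    exact Algebra.isSeparable_tower_top_of_isSeparable k⟮D.rd s⟯ k⟮D.rd t⟯ Fb

/-- the signature announced in the task (only `h3` is used). -/
theorem stmt_ChartTower (_h1 : Stmt_Gauss) (_h2 : Stmt_Ortho) (h3 : Stmt_Trace) :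
    Stmt_ChartTower := P14_chartTower h3

end Fermat.Agent.INJ
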