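import Fermat.Agent.INJ.Interface2
import Fermat.Agent.INJ.P1
import Fermat.Agent.INJ.P8

/-!
# INJ, package P15 : swap of coordinates (`Stmt_ChartSwap`)

`V = O ∩ K(t)` (a local ring with maximal ideal `I = {rd = 0}`), `M = O ∩ B_s`,
`N = V M` is a finitely generated `V`-module with `N ∩ {rd = 0} = I N`.  Nakayama: lifts of a
`k(tbar)`-basis of the span of `rd N` generate `N`, which spans `F` over `K(t)`.
-/

set_option autoImplicit false

namespace Fermat.Agent.INJ

open Polynomial IntermediateField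

open scoped IntermediateField.algebraAdjoinAdjoin

section Gen

variable {F : Type} [Field F]

/-- integrality is monotone in the base subring. -/
theorem P15_isIntegral_of_subset {A₁ A₂ : Type} [CommRing A₁] [CommRing A₂] [Algebra A₁ F]
    [Algebra A₂ F] (S₁ : Subalgebra A₁ F) (S₂ : Subalgebra A₂ F) (h : ∀ x ∈ S₁, x ∈ S₂) {x : F}
    (hx : IsIntegral S₁ x) : IsIntegral S₂ x := by
  let φ : S₁ →+* S₂ :=
    { toFun := fun y => ⟨y.1, h y.1 y.2⟩
      map_one' := rfl
      map_mul' := fun _ _ => rfl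
      map_zero' := rfl
      map_add' := fun _ _ => rfl }
  obtain ⟨p, hp, hpx⟩ := hx
  refine ⟨p.map φ, hp.map φ, ?_⟩
  rw [eval₂_map]
  exact hpx

end Gen

section Core

variable {K F k Fb : Type} [Field K] [Field F] [Algebra K F] [Field k] [Field Fb] [Algebra k Fb]
variable (D : RedData K F k Fb) (s t : F)

/-- `V = O ∩ K(t)`. -/
def P15_V : Subring F := D.O.toSubring ⊓ K⟮t⟯.toSubring

/-- `M = O ∩ B_s`. -/
def P15_M : Subring F :=
  D.O.toSubring ⊓ (integralClosure (Algebra.adjoin K {s}) F).toSubring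

variable {D s t}

theorem P15_mem_V {x : F} : x ∈ P15_V D t ↔ x ∈ D.O ∧ x ∈ K⟮t⟯ := Iff.rfl

theorem P15_mem_M {x : F} : x ∈ P15_M D s ↔ x ∈ D.O ∧ IsInt K s x := Iff.rfl

variable (D t) in
/-- the maximal ideal of `V`. -/
def P15_I : Ideal (P15_V D t) where
  carrier := {c | D.rd (c : F) = 0}
  add_mem' := by
    intro a b ha hb
    show D.rd ((a : F) + (b : F)) = 0
    rw [RedData.rd_add a.2.1 b.2.1, ha, hb, add_zero]
  zero_mem' := RedData.rd_zero
  smul_mem' := by
    intro c x hx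
    show D.rd ((c : F) * (x : F)) = 0
    rw [RedData.rd_mul c.2.1 x.2.1, hx, mul_zero]

theorem P15_mem_I {c : P15_V D t} : c ∈ P15_I D t ↔ D.rd (c : F) = 0 := Iff.rfl

theorem P15_I_le : P15_I D t ≤ (⊥ : Ideal (P15_V D t)).jacobson := by
  intro x hx
  rw [Ideal.mem_jacobson_bot]
  intro y
  have h1 : D.rd ((x : F) * (y : F) + 1) = 1 := by
    rw [RedData.rd_add (mul_mem x.2.1 y.2.1) D.O.one_mem, RedData.rd_mul x.2.1 y.2.1,
      P15_mem_I.1 hx, zero_mul, zero_add, RedData.rd_one]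
  have h2 : D.rd ((x : F) * (y : F) + 1) ≠ 0 := by rw [h1]; exact one_ne_zero
  have h3 : (x : F) * (y : F) + 1 ≠ 0 := by
    intro h; rw [h] at h2; exact h2 RedData.rd_zero
  refine isUnit_iff_exists_inv.2 ⟨⟨((x : F) * (y : F) + 1)⁻¹,
    RedData.inv_mem_of_rd_ne_zero h2,
    (inv_mem (x * y + 1 : P15_V D t).2.2 : ((x : F) * (y : F) + 1)⁻¹ ∈ K⟮t⟯)⟩, ?_⟩
  exact Subtype.ext (mul_inv_cancel₀ h3)

/-- elements of `V` are fractions with primitive denominator. -/
theorem P15_V_frac (ht : t ∈ D.O) (htr : Transcendental k (D.rd t)) {c : F} (hc : c ∈ P15_V D t) :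
    ∃ P Q : (D.A)[X], Q.map D.rA ≠ 0 ∧
      aeval t (Q.map D.A.subtype) * c = aeval t (P.map D.A.subtype) := by
  obtain ⟨hcO, hcK⟩ := hc
  obtain ⟨P₀, Q₀, rfl⟩ := (IntermediateField.mem_adjoin_simple_iff K c).1 hcK
  by_cases hQ0 : Q₀ = 0
  · refine ⟨0, 1, by simp, ?_⟩
    rw [hQ0]; simp
  obtain ⟨b, Q₁, hb, hQ, hQ₁⟩ := P1_prim D Q₀ hQ0
  have hu := P1_rd_ne_zero ht htr Q₁ hQ₁
  have hne : aeval t (Q₁.map D.A.subtype) ≠ 0 := by
    intro h; rw [h] at hu; exact hu RedData.rd_zero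
  have hb' : algebraMap K F b ≠ 0 := (_root_.map_ne_zero _).2 hb
  have e1 : aeval t (Q₁.map D.A.subtype) * (aeval t P₀ / aeval t Q₀)
      = aeval t (C b⁻¹ * P₀) := by
    rw [hQ, map_mul, map_mul, aeval_C, aeval_C, map_inv₀]
    field_simp
  have hO : aeval t (C b⁻¹ * P₀) ∈ D.O := by
    rw [← e1]; exact mul_mem (P1_red ht Q₁).1 hcO
  obtain ⟨P, hP⟩ := P1_int ht htr _ hO
  exact ⟨P, Q₁, hQ₁, by rw [e1, hP]⟩

/-- `V → k(tbar)` is surjective. -/
theorem P15_lift (ht : t ∈ D.O) (htr : Transcendental k (D.rd t)) (cb : k⟮D.rd t⟯) :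
    ∃ c : P15_V D t, D.rd (c : F) = (cb : Fb) := by
  obtain ⟨Pb, Qb, h⟩ := (IntermediateField.mem_adjoin_simple_iff k (cb : Fb)).1 cb.2
  by_cases hQ0 : Qb = 0
  · refine ⟨0, ?_⟩
    rw [h, hQ0]; simp
  obtain ⟨P, rfl⟩ := Polynomial.map_surjective D.rA D.rA_surj Pb
  obtain ⟨Q, rfl⟩ := Polynomial.map_surjective D.rA D.rA_surj Qb
  have hu := P1_rd_ne_zero ht htr Q hQ0
  refine ⟨⟨aeval t (P.map D.A.subtype) / aeval t (Q.map D.A.subtype),
    RedData.div_mem (P1_red ht P).1 hu,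
    (div_mem (P8_aeval_mem_field t _) (P8_aeval_mem_field t _) :
      aeval t (P.map D.A.subtype) / aeval t (Q.map D.A.subtype) ∈ K⟮t⟯)⟩, ?_⟩
  show D.rd (aeval t (P.map D.A.subtype) / aeval t (Q.map D.A.subtype)) = _
  rw [RedData.rd_div (P1_red ht P).1 hu, (P1_red ht P).2, (P1_red ht Q).2, h]

/-- (F3) an element of `M` with zero reduction is a constant of zero reduction times an element of
`M`. -/
theorem P15_factor {x : F} (hx : x ∈ P15_M D s) (h0 : D.rd x = 0) :
    ∃ (π : K) (y : F), algebraMap K F π ∈ D.O ∧ D.rd (algebraMap K F π) = 0 ∧ y ∈ P15_M D s ∧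
      x = algebraMap K F π * y := by
  by_cases hx0 : x = 0
  · exact ⟨0, 0, by simp [D.O.zero_mem], by simp, (P15_M D s).zero_mem, by simp [hx0]⟩
  obtain ⟨a, ha, h1, h2⟩ := D.unram x hx0
  have ha' : algebraMap K F a ≠ 0 := (_root_.map_ne_zero _).2 ha
  have e1 : algebraMap K F a⁻¹ = x * (x * algebraMap K F a)⁻¹ := by
    rw [map_inv₀]; field_simp
  refine ⟨a⁻¹, x * algebraMap K F a, ?_, ?_, ⟨h1, ?_⟩, ?_⟩
  · rw [e1]; exact mul_mem hx.1 h2
  · rw [e1, RedData.rd_mul hx.1 h2, h0, zero_mul]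
  · exact IsIntegral.mul hx.2 (isIntegral_algebraMap (R := Algebra.adjoin K {s})
      (x := algebraMap K (Algebra.adjoin K {s}) a))
  · rw [map_inv₀]; field_simp

/-- `A[t] ⊆ M`. -/
theorem P15_aeval_mem_M (ht : t ∈ D.O) (hts : IsInt K s t) (Q : (D.A)[X]) :
    aeval t (Q.map D.A.subtype) ∈ P15_M D s := by
  refine ⟨(P1_red ht Q).1, ?_⟩
  have hle : Algebra.adjoin K {t} ≤
      (integralClosure (Algebra.adjoin K {s}) F).restrictScalars K :=
    Algebra.adjoin_le (Set.singleton_subset_iff.2 hts)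
  exact hle ((P8_mem_adjoin_iff t _).2 ⟨_, rfl⟩)

/-- every element of `V M` has a primitive multiple in `M`. -/
theorem P15_clear (ht : t ∈ D.O) (htr : Transcendental k (D.rd t)) (hts : IsInt K s t)
    {G : Set F} (hG : ∀ g ∈ G, g ∈ P15_M D s) {z : F}
    (hz : z ∈ Submodule.span (P15_V D t) G) :
    ∃ Q : (D.A)[X], Q.map D.rA ≠ 0 ∧ aeval t (Q.map D.A.subtype) * z ∈ P15_M D s := by
  induction hz using Submodule.span_induction with
  | mem x hx => exact ⟨1, by simp, by simpa using hG x hx⟩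
  | zero => exact ⟨1, by simp, by simp⟩
  | add x y _ _ hx hy =>
    obtain ⟨Q₁, h1, h1'⟩ := hx
    obtain ⟨Q₂, h2, h2'⟩ := hy
    refine ⟨Q₁ * Q₂, ?_, ?_⟩
    · rw [Polynomial.map_mul]; exact mul_ne_zero h1 h2
    · rw [Polynomial.map_mul, map_mul]
      have e : aeval t (Q₁.map D.A.subtype) * aeval t (Q₂.map D.A.subtype) * (x + y)
          = aeval t (Q₂.map D.A.subtype) * (aeval t (Q₁.map D.A.subtype) * x)
            + aeval t (Q₁.map D.A.subtype) * (aeval t (Q₂.map D.A.subtype) * y) := by ring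
      rw [e]
      exact add_mem (mul_mem (P15_aeval_mem_M ht hts Q₂) h1')
        (mul_mem (P15_aeval_mem_M ht hts Q₁) h2')
  | smul c x _ hx =>
    obtain ⟨Q₁, h1, h1'⟩ := hx
    obtain ⟨P, Q, hQ, hPQ⟩ := P15_V_frac ht htr c.2
    refine ⟨Q * Q₁, ?_, ?_⟩
    · rw [Polynomial.map_mul]; exact mul_ne_zero hQ h1
    · rw [Polynomial.map_mul, map_mul]
      have e : aeval t (Q.map D.A.subtype) * aeval t (Q₁.map D.A.subtype) * (c • x)
          = (aeval t (Q.map D.A.subtype) * (c : F)) * (aeval t (Q₁.map D.A.subtype) * x) := by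
        rw [Subring.smul_def, smul_eq_mul]; ring
      rw [e, hPQ]
      exact mul_mem (P15_aeval_mem_M ht hts P) h1'

/-- `N ∩ {rd = 0} = I N`. -/
theorem P15_mem_smul (ht : t ∈ D.O) (htr : Transcendental k (D.rd t)) (hts : IsInt K s t)
    {G : Set F} (hG : ∀ g ∈ G, g ∈ P15_M D s)
    (hMG : ∀ x ∈ P15_M D s, x ∈ Submodule.span (P15_V D t) G) {z : F}
    (hz : z ∈ Submodule.span (P15_V D t) G) (h0 : D.rd z = 0) :
    z ∈ P15_I D t • Submodule.span (P15_V D t) G := by
  obtain ⟨Q, hQ, hQz⟩ := P15_clear ht htr hts hG hz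
  have hu := P1_rd_ne_zero ht htr Q hQ
  set q := aeval t (Q.map D.A.subtype) with hq
  have hq0 : q ≠ 0 := by
    intro h; rw [h] at hu; exact hu RedData.rd_zero
  have hqi : q⁻¹ ∈ D.O := RedData.inv_mem_of_rd_ne_zero hu
  have hzO : z ∈ D.O := by
    have : z = q⁻¹ * (q * z) := by field_simp
    rw [this]; exact mul_mem hqi hQz.1
  have h1 : D.rd (q * z) = 0 := by
    rw [RedData.rd_mul (P1_red ht Q).1 hzO, h0, mul_zero]
  obtain ⟨π, y, hπO, hπ0, hy, hxy⟩ := P15_factor hQz h1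
  have hc : algebraMap K F π * q⁻¹ ∈ P15_V D t :=
    ⟨mul_mem hπO hqi, (mul_mem (IntermediateField.algebraMap_mem _ _)
      (inv_mem (P8_aeval_mem_field t _)) : algebraMap K F π * q⁻¹ ∈ K⟮t⟯)⟩
  have hcI : (⟨_, hc⟩ : P15_V D t) ∈ P15_I D t := by
    show D.rd (algebraMap K F π * q⁻¹) = 0
    rw [RedData.rd_mul hπO hqi, hπ0, zero_mul]
  have e : z = (⟨_, hc⟩ : P15_V D t) • y := by
    show z = algebraMap K F π * q⁻¹ * y
    have : z = q⁻¹ * (q * z) := by field_simp
    rw [this, hxy]; ring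
  rw [e]
  exact Submodule.smul_mem_smul hcI (hMG y hy)

/-- Nakayama. -/
theorem P15_core (ht : t ∈ D.O) (htr : Transcendental k (D.rd t)) (hts : IsInt K s t)
    {G : Set F} (hGfin : G.Finite) (hG : ∀ g ∈ G, g ∈ P15_M D s)
    (hMG : ∀ x ∈ P15_M D s, x ∈ Submodule.span (P15_V D t) G) :
    ∃ (ι : Type) (_ : Fintype ι) (y : ι → F),
      LinearIndependent k⟮D.rd t⟯ (fun i => D.rd (y i)) ∧
      ∀ x ∈ P15_M D s, x ∈ Submodule.span (P15_V D t) (Set.range y) := by
  obtain ⟨B, hBT, hBspan, hBli⟩ := exists_linearIndependent k⟮D.rd t⟯ (D.rd '' G)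
  have hBfin : B.Finite := (hGfin.image _).subset hBT
  have : Fintype B := hBfin.fintype
  have hch : ∀ β : B, ∃ g ∈ G, D.rd g = β := fun β => hBT β.2
  choose y hyG hyβ using hch
  refine ⟨B, inferInstance, y, ?_, ?_⟩
  · have : (fun i => D.rd (y i)) = Subtype.val := funext hyβ
    rw [this]; exact hBli
  · have hle : Submodule.span (P15_V D t) G ≤ Submodule.span (P15_V D t) (Set.range y) := by
      apply Submodule.le_of_le_smul_of_le_jacobson_bot (Submodule.fg_span hGfin) P15_I_le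
      rw [Submodule.span_le]
      intro g hg
      have h1 : D.rd g ∈ Submodule.span k⟮D.rd t⟯ B := by
        rw [hBspan]; exact Submodule.subset_span ⟨g, hg, rfl⟩
      rw [← Subtype.range_coe (s := B), Submodule.mem_span_range_iff_exists_fun] at h1
      obtain ⟨cb, hcb⟩ := h1
      choose c hc using fun β => P15_lift ht htr (cb β)
      have hwNJ : ∑ β, c β • y β ∈ Submodule.span (P15_V D t) (Set.range y) :=
        Submodule.sum_mem _ fun β _ => Submodule.smul_mem _ _ (Submodule.subset_span ⟨β, rfl⟩)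
      have hwN : ∑ β, c β • y β ∈ Submodule.span (P15_V D t) G :=
        Submodule.sum_mem _ fun β _ => Submodule.smul_mem _ _ (Submodule.subset_span (hyG β))
      have hz : g - ∑ β, c β • y β ∈ Submodule.span (P15_V D t) G :=
        Submodule.sub_mem _ (Submodule.subset_span hg) hwN
      have hterm : ∀ β ∈ (Finset.univ : Finset B), c β • y β ∈ D.O := fun β _ =>
        mul_mem (c β).2.1 (hG _ (hyG β)).1
      have hrd : D.rd (g - ∑ β, c β • y β) = 0 := by
        rw [RedData.rd_sub (hG g hg).1 (RedData.sum_mem _ _ hterm), RedData.rd_sum _ _ hterm,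
          ← hcb, sub_eq_zero]
        refine Finset.sum_congr rfl fun β _ => ?_
        have : D.rd (c β • y β) = D.rd ((c β : F)) * D.rd (y β) :=
          RedData.rd_mul (c β).2.1 (hG _ (hyG β)).1
        rw [this, hc, hyβ]
        rfl
      have h3 := P15_mem_smul ht htr hts hG hMG hz hrd
      have e : g = ∑ β, c β • y β + (g - ∑ β, c β • y β) := by ring
      rw [SetLike.mem_coe, e]
      exact Submodule.add_mem_sup hwNJ h3
    intro x hx
    exact hle (hMG x hx)

theorem P15_adjoinA_iff (x : F) :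
    x ∈ Algebra.adjoin D.A ({t} : Set F) ↔ ∃ Q : (D.A)[X], aeval t (Q.map D.A.subtype) = x := by
  rw [Algebra.adjoin_singleton_eq_range_aeval]
  constructor
  · rintro ⟨Q, rfl⟩
    exact ⟨Q, aeval_map_algebraMap K t Q⟩
  · rintro ⟨Q, rfl⟩
    exact ⟨Q, (aeval_map_algebraMap K t Q).symm⟩

/-- finite generation of `M` over `V`. -/
theorem P15_fg (h1 : Stmt_Gauss) (h2 : Stmt_Ortho) (hsO : s ∈ D.O)
    (hstr : Transcendental k (D.rd s)) (ht : t ∈ D.O) (hts : IsInt K s t)
    (hs : IsIntegral (Algebra.adjoin D.A ({t} : Set F)) s)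
    {n : ℕ} (b : Fin n → F) (hb : ∀ i, b i ∈ D.O ∧ IsInt K s (b i))
    (hbs : ∀ x, IsInt K s x → x ∈ Submodule.span (Algebra.adjoin K {s}) (Set.range b))
    (hbli : LinearIndependent k⟮D.rd s⟯ (fun i => D.rd (b i))) :
    ∃ G : Set F, G.Finite ∧ (∀ g ∈ G, g ∈ P15_M D s) ∧
      ∀ x ∈ P15_M D s, x ∈ Submodule.span (P15_V D t) G := by
  have hR₀ : ∀ x ∈ Algebra.adjoin D.A ({t} : Set F), x ∈ P15_V D t ∧ x ∈ P15_M D s := by
    intro x hx
    obtain ⟨Q, rfl⟩ := (P15_adjoinA_iff x).1 hx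
    exact ⟨⟨(P1_red ht Q).1, P8_aeval_mem_field t _⟩, P15_aeval_mem_M ht hts Q⟩
  obtain ⟨S, hS⟩ := hs.fg_adjoin_singleton
  have hsM : s ∈ P15_M D s :=
    ⟨hsO, isIntegral_algebraMap (R := Algebra.adjoin K {s})
      (x := (⟨s, Algebra.self_mem_adjoin_singleton K s⟩ : Algebra.adjoin K {s}))⟩
  have hadj : ∀ x ∈ Algebra.adjoin (Algebra.adjoin D.A ({t} : Set F)) ({s} : Set F),
      x ∈ P15_M D s := by
    intro x hx
    induction hx using Algebra.adjoin_induction with
    | mem x hx => rw [Set.mem_singleton_iff.1 hx]; exact hsM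
    | algebraMap r => exact (hR₀ r r.2).2
    | add x y _ _ hx hy => exact add_mem hx hy
    | mul x y _ _ hx hy => exact mul_mem hx hy
  have hSadj : ∀ x, x ∈ Submodule.span (Algebra.adjoin D.A ({t} : Set F)) (S : Set F) ↔
      x ∈ Algebra.adjoin (Algebra.adjoin D.A ({t} : Set F)) ({s} : Set F) := by
    intro x; rw [hS]; exact Iff.rfl
  refine ⟨Set.image2 (· * ·) (S : Set F) (Set.range b),
    (Finset.finite_toSet S).image2 _ (Set.finite_range b), ?_, ?_⟩
  · rintro _ ⟨σ, hσ, _, ⟨j, rfl⟩, rfl⟩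
    exact mul_mem (hadj σ ((hSadj σ).1 (Submodule.subset_span hσ))) ⟨(hb j).1, (hb j).2⟩
  · have key : ∀ y ∈ Submodule.span (Algebra.adjoin D.A ({t} : Set F)) (S : Set F), ∀ j,
        y * b j ∈ Submodule.span (P15_V D t) (Set.image2 (· * ·) (S : Set F) (Set.range b)) := by
      intro y hy j
      induction hy using Submodule.span_induction with
      | mem x hx => exact Submodule.subset_span ⟨x, hx, b j, ⟨j, rfl⟩, rfl⟩
      | zero => rw [zero_mul]; exact Submodule.zero_mem _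
      | add x y _ _ hx hy => rw [add_mul]; exact Submodule.add_mem _ hx hy
      | smul r x _ hx =>
        have e : (r • x) * b j = (⟨(r : F), (hR₀ r r.2).1⟩ : P15_V D t) • (x * b j) := by
          show ((r : F) * x) * b j = (r : F) * (x * b j)
          ring
        rw [e]
        exact Submodule.smul_mem _ _ hx
    intro x hx
    obtain ⟨P, hP⟩ := (P8_mem_span_iff s b x).1 (hbs x hx.2)
    obtain ⟨Q, hQ, -⟩ := P8_coord h1 h2 D s hsO hstr b (fun i => (hb i).1) hbli P (hP ▸ hx.1)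
    rw [hP]
    refine Submodule.sum_mem _ fun j _ => ?_
    rw [← hQ j]
    refine key _ ((hSadj _).2 ?_) j
    have hle : Algebra.adjoin D.A ({s} : Set F) ≤
        (Algebra.adjoin (Algebra.adjoin D.A ({t} : Set F)) ({s} : Set F)).restrictScalars D.A :=
      Algebra.adjoin_le (Set.singleton_subset_iff.2 (Algebra.self_mem_adjoin_singleton _ s))
    exact hle ((P15_adjoinA_iff _).2 ⟨_, rfl⟩)

/-- `F = K(t) M`. -/
theorem P15_exists_mul_mem (hts : IsInt K s t) [FiniteDimensional K⟮t⟯ F] (x : F) :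
    ∃ c ∈ K⟮t⟯, c ≠ 0 ∧ c * x ∈ P15_M D s := by
  have halg : IsAlgebraic (Algebra.adjoin K {t}) x :=
    (IsFractionRing.isAlgebraic_iff (Algebra.adjoin K {t}) K⟮t⟯ F).2
      (Algebra.IsAlgebraic.isAlgebraic x)
  obtain ⟨⟨r, hr⟩, hr0, hint⟩ := halg.exists_integral_multiple
  have hr0' : r ≠ 0 := fun h => hr0 (Subtype.ext h)
  have hint' : IsIntegral (Algebra.adjoin K {t}) (r * x) := hint
  have hle : Algebra.adjoin K {t} ≤
      (integralClosure (Algebra.adjoin K {s}) F).restrictScalars K :=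
    Algebra.adjoin_le (Set.singleton_subset_iff.2 hts)
  have h1 : IsIntegral (integralClosure (Algebra.adjoin K {s}) F) (r * x) :=
    P15_isIntegral_of_subset (Algebra.adjoin K {t}) (integralClosure (Algebra.adjoin K {s}) F)
      (fun y hy => hle hy) hint'
  have h2 : IsInt K s (r * x) := by
    have h3 : r * x ∈ integralClosure (integralClosure (Algebra.adjoin K {s}) F) F := h1
    rw [integralClosure_idem] at h3
    obtain ⟨⟨w, hw⟩, hw'⟩ := Algebra.mem_bot.1 h3
    have : w = r * x := hw'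
    rw [← this]; exact hw
  have hrK : r ∈ K⟮t⟯ := IntermediateField.algebra_adjoin_le_adjoin K {t} hr
  by_cases hw0 : r * x = 0
  · exact ⟨r, hrK, hr0', by rw [hw0]; exact (P15_M D s).zero_mem⟩
  obtain ⟨a, ha, h4, -⟩ := D.unram (r * x) hw0
  have ha' : algebraMap K F a ≠ 0 := (_root_.map_ne_zero _).2 ha
  refine ⟨r * algebraMap K F a, mul_mem hrK (IntermediateField.algebraMap_mem _ _),
    mul_ne_zero hr0' ha', ?_⟩
  have e : r * algebraMap K F a * x = r * x * algebraMap K F a := by ring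
  rw [e]
  exact ⟨h4, IsIntegral.mul h2 (isIntegral_algebraMap (R := Algebra.adjoin K {s})
      (x := algebraMap K (Algebra.adjoin K {s}) a))⟩

theorem P15_span_le {T : Set F} {x : F} (hx : x ∈ Submodule.span (P15_V D t) T) :
    x ∈ Submodule.span K⟮t⟯ T := by
  induction hx using Submodule.span_induction with
  | mem x hx => exact Submodule.subset_span hx
  | zero => exact Submodule.zero_mem _
  | add x y _ _ hx hy => exact Submodule.add_mem _ hx hy
  | smul c x _ hx => exact Submodule.smul_mem _ (⟨(c : F), c.2.2⟩ : K⟮t⟯) hx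

end Core

theorem stmt_ChartSwap (h1 : Stmt_Gauss) (h2 : Stmt_Ortho) (h6 : Stmt_BBasis) :
    Stmt_ChartSwap := by
  intro K F k Fb _ _ _ _ _ _ _ _ D s t hCs ht htr hfin hts0 hs
  have hts : IsInt K s t :=
    P15_isIntegral_of_subset (Algebra.adjoin D.A ({s} : Set F)) (Algebra.adjoin K {s})
      (fun x hx => by
        obtain ⟨Q, rfl⟩ := (P15_adjoinA_iff x).1 hx
        exact (P8_mem_adjoin_iff s _).2 ⟨_, rfl⟩) hts0
  obtain ⟨b, hb, hbs, hbli⟩ := h6 K F k Fb D s hCs
  obtain ⟨G, hGfin, hG, hMG⟩ := P15_fg h1 h2 hCs.t_mem hCs.trans ht hts hs b hb hbs hbli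
  obtain ⟨ι, _, y, hyli, hyM⟩ := P15_core ht htr hts hGfin hG hMG
  have htop : Submodule.span K⟮t⟯ (Set.range y) = ⊤ := by
    rw [eq_top_iff]
    intro x _
    obtain ⟨c, hc, hc0, hcx⟩ := P15_exists_mul_mem (D := D) hts x
    have h4 : c * x ∈ Submodule.span K⟮t⟯ (Set.range y) := P15_span_le (hyM _ hcx)
    have e : x = (⟨c, hc⟩ : K⟮t⟯)⁻¹ • (c * x) := by
      show x = c⁻¹ * (c * x)
      field_simp
    rw [e]
    exact Submodule.smul_mem _ _ h4
  have hcard : Module.finrank K⟮t⟯ F ≤ Fintype.card ι := by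
    have := finrank_range_le_card (R := K⟮t⟯) y
    rw [Set.finrank, htop, finrank_top] at this
    exact this
  refine ⟨fun i => D.rd (y ((Fintype.equivFin ι).symm (Fin.castLE hcard i))), ?_⟩
  exact hyli.comp _ ((Fintype.equivFin ι).symm.injective.comp (Fin.castLE_injective hcard))

end Fermat.Agent.INJ
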